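import Mathlib

/-!
# TW / Loc : power series over a complete local ring are complete (cell B/Complete)

`twb_mvps_isAdicComplete` : for a local ring `A` which is complete for its maximal ideal and a
finite index type `σ`, the local ring `MvPowerSeries σ A` is complete for ITS maximal ideal
`(𝔪_A, X_i)`.

Proof: one variable at a time.  In `P⟦X⟧` the powers of the maximal ideal are
`𝔐 ^ n = {g | ∀ i, coeff i g ∈ 𝔪 ^ (n - i)}` (`twb_cpl_pow_le_F`, `twb_cpl_F_le`), so Cauchy
sequences converge coefficientwise.  Then `finSuccEquiv`, `isEmptyEquiv`, `renameEquiv`.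
No noetherian hypothesis is needed (`twb_mvps_isAdicComplete'`).
-/

namespace Fermat.Agent.TW

open IsLocalRing

/-- A ring isomorphism of local rings maps the maximal ideal onto the maximal ideal. -/
theorem twb_cpl_map_maximalIdeal {R S : Type*} [CommRing R] [CommRing S] [IsLocalRing R]
    [IsLocalRing S] (e : R ≃+* S) : (maximalIdeal R).map e = maximalIdeal S := by
  have h : ((maximalIdeal R).map e).IsMaximal := Ideal.map_isMaximal_of_equiv e
  exact IsLocalRing.eq_maximalIdeal h

/-- Completeness for the maximal ideal is invariant under ring isomorphisms. -/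
theorem twb_cpl_of_ringEquiv {R S : Type*} [CommRing R] [CommRing S] [IsLocalRing R]
    [IsLocalRing S] (e : R ≃+* S) (h : IsAdicComplete (maximalIdeal R) R) :
    IsAdicComplete (maximalIdeal S) S := by
  rw [← twb_cpl_map_maximalIdeal e]
  exact (IsAdicComplete.congr_ringEquiv (maximalIdeal R) e).mpr h

section OneVar

variable {P : Type*} [CommRing P] [IsLocalRing P]

/-- The filtration `F n = {g | coeff i g ∈ 𝔪 ^ (n - i)}` of `P⟦X⟧`. -/
def twb_cpl_F (n : ℕ) : Ideal (PowerSeries P) where
  carrier := {g | ∀ i, PowerSeries.coeff i g ∈ maximalIdeal P ^ (n - i)}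
  add_mem' := fun ha hb i => by simpa using Ideal.add_mem _ (ha i) (hb i)
  zero_mem' := fun i => by simp
  smul_mem' := fun c g hg i => by
    rw [smul_eq_mul, PowerSeries.coeff_mul]
    refine Ideal.sum_mem _ fun x hx => ?_
    have hx' : x.1 + x.2 = i := Finset.HasAntidiagonal.mem_antidiagonal.mp hx
    exact Ideal.mul_mem_left _ _ (Ideal.pow_le_pow_right (by omega) (hg x.2))

theorem twb_cpl_mem_F {n : ℕ} {g : PowerSeries P} :
    g ∈ twb_cpl_F (P := P) n ↔ ∀ i, PowerSeries.coeff i g ∈ maximalIdeal P ^ (n - i) :=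
  Iff.rfl

theorem twb_cpl_mem_maximalIdeal_iff (g : PowerSeries P) :
    g ∈ maximalIdeal (PowerSeries P) ↔ PowerSeries.constantCoeff g ∈ maximalIdeal P := by
  rw [mem_maximalIdeal, mem_maximalIdeal, mem_nonunits_iff, mem_nonunits_iff,
    PowerSeries.isUnit_iff_constantCoeff]

theorem twb_cpl_mul_F_le (n : ℕ) :
    maximalIdeal (PowerSeries P) * twb_cpl_F (P := P) n ≤ twb_cpl_F (n + 1) := by
  rw [Ideal.mul_le]
  intro a ha g hg
  rw [twb_cpl_mem_F] at hg ⊢
  intro i
  rw [PowerSeries.coeff_mul]
  refine Ideal.sum_mem _ fun x hx => ?_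
  have hx' : x.1 + x.2 = i := Finset.HasAntidiagonal.mem_antidiagonal.mp hx
  by_cases h0 : x.1 = 0
  · have h1 : PowerSeries.coeff x.1 a ∈ maximalIdeal P := by
      rw [h0, PowerSeries.coeff_zero_eq_constantCoeff_apply]
      exact (twb_cpl_mem_maximalIdeal_iff a).mp ha
    have h2 := hg x.2
    have hxi : x.2 = i := by omega
    rw [hxi] at h2
    by_cases hin : i ≤ n
    · have hni : n + 1 - i = (n - i) + 1 := by omega
      rw [hni, pow_succ', hxi]
      exact Ideal.mul_mem_mul h1 h2
    · have hni : n + 1 - i = 0 := by omega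
      rw [hni, pow_zero, Ideal.one_eq_top]
      trivial
  · exact Ideal.mul_mem_left _ _ (Ideal.pow_le_pow_right (by omega) (hg x.2))

theorem twb_cpl_pow_le_F (n : ℕ) :
    maximalIdeal (PowerSeries P) ^ n ≤ twb_cpl_F (P := P) n := by
  induction n with
  | zero =>
    intro g _
    rw [twb_cpl_mem_F]
    intro i
    simp
  | succ n ih =>
    rw [pow_succ']
    exact (Ideal.mul_mono_right ih).trans (twb_cpl_mul_F_le n)

theorem twb_cpl_F_le (n : ℕ) :
    twb_cpl_F (P := P) n ≤ maximalIdeal (PowerSeries P) ^ n := by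
  induction n with
  | zero => simp
  | succ n ih =>
    intro g hg
    rw [twb_cpl_mem_F] at hg
    rw [PowerSeries.eq_X_mul_shift_add_const g]
    refine Ideal.add_mem _ ?_ ?_
    · rw [pow_succ']
      refine Ideal.mul_mem_mul ?_ (ih ?_)
      · rw [twb_cpl_mem_maximalIdeal_iff]
        simp
      · rw [twb_cpl_mem_F]
        intro i
        have := hg (i + 1)
        simpa using this
    · have h0 : PowerSeries.constantCoeff g ∈ maximalIdeal P ^ (n + 1) := by
        simpa using hg 0
      have h1 : Ideal.map (PowerSeries.C (R := P)) (maximalIdeal P) ≤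
          maximalIdeal (PowerSeries P) := by
        rw [Ideal.map_le_iff_le_comap]
        intro c hc
        rw [Ideal.mem_comap, twb_cpl_mem_maximalIdeal_iff]
        simpa using hc
      have h2 := Ideal.mem_map_of_mem (PowerSeries.C (R := P)) h0
      rw [Ideal.map_pow] at h2
      exact Ideal.pow_right_mono h1 _ h2

/-- One variable: `P⟦X⟧` is complete for its maximal ideal when `P` is. -/
theorem twb_cpl_ps_isAdicComplete [IsAdicComplete (maximalIdeal P) P] :
    IsAdicComplete (maximalIdeal (PowerSeries P)) (PowerSeries P) := by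
  have hH : IsHausdorff (maximalIdeal (PowerSeries P)) (PowerSeries P) := by
    constructor
    intro g hg
    ext i
    rw [map_zero]
    apply IsHausdorff.haus' (I := maximalIdeal P)
    intro k
    have h1 := hg (k + i)
    rw [SModEq.zero, smul_eq_mul, Ideal.mul_top] at h1
    have h2 := (twb_cpl_mem_F.mp (twb_cpl_pow_le_F (k + i) h1)) i
    rw [SModEq.zero, smul_eq_mul, Ideal.mul_top]
    simpa using h2
  have hP : IsPrecomplete (maximalIdeal (PowerSeries P)) (PowerSeries P) := by
    constructor
    intro f hf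
    have hcoeff : ∀ i, ∃ L : P, ∀ k, PowerSeries.coeff i (f (k + i)) ≡ L
        [SMOD (maximalIdeal P ^ k • ⊤ : Submodule P P)] := by
      intro i
      apply IsPrecomplete.prec' (I := maximalIdeal P)
      intro k l hkl
      rw [SModEq.sub_mem, smul_eq_mul, Ideal.mul_top]
      have h1 := hf (show k + i ≤ l + i by omega)
      rw [SModEq.sub_mem, smul_eq_mul, Ideal.mul_top] at h1
      have h2 := (twb_cpl_mem_F.mp (twb_cpl_pow_le_F (k + i) h1)) i
      simpa using h2
    choose L hL using hcoeff
    refine ⟨PowerSeries.mk L, fun n => ?_⟩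
    rw [SModEq.sub_mem, smul_eq_mul, Ideal.mul_top]
    apply twb_cpl_F_le n
    rw [twb_cpl_mem_F]
    intro i
    by_cases hin : i ≤ n
    · have h3 := hL i (n - i)
      rw [SModEq.sub_mem, smul_eq_mul, Ideal.mul_top, Nat.sub_add_cancel hin] at h3
      simpa using h3
    · have hni : n - i = 0 := by omega
      rw [hni, pow_zero, Ideal.one_eq_top]
      trivial
  exact { toIsHausdorff := hH, toIsPrecomplete := hP }

end OneVar

variable (A : Type*) [CommRing A]

theorem twb_cpl_fin [IsLocalRing A] [IsAdicComplete (maximalIdeal A) A] (n : ℕ) :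
    IsAdicComplete (maximalIdeal (MvPowerSeries (Fin n) A)) (MvPowerSeries (Fin n) A) := by
  induction n with
  | zero =>
    exact twb_cpl_of_ringEquiv (MvPowerSeries.isEmptyEquiv (Fin 0) A).symm.toRingEquiv
      inferInstance
  | succ n ih =>
    have := ih
    have h := twb_cpl_ps_isAdicComplete (P := MvPowerSeries (Fin n) A)
    exact twb_cpl_of_ringEquiv (MvPowerSeries.finSuccEquiv A n).symm.toRingEquiv h

/-- **B/Complete**, without the noetherian hypothesis. -/
theorem twb_mvps_isAdicComplete' {σ : Type*} [Finite σ] [IsLocalRing A]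
    [IsAdicComplete (maximalIdeal A) A] :
    IsAdicComplete (maximalIdeal (MvPowerSeries σ A)) (MvPowerSeries σ A) := by
  cases nonempty_fintype σ
  exact twb_cpl_of_ringEquiv
    (MvPowerSeries.renameEquiv A (Fintype.equivFin σ)).symm.toRingEquiv (twb_cpl_fin A _)

/-- **B/Complete** (statement of table #4600). -/
theorem twb_mvps_isAdicComplete {σ : Type*} [Finite σ] [IsNoetherianRing A] [IsLocalRing A]
    [IsAdicComplete (maximalIdeal A) A] :
    IsAdicComplete (maximalIdeal (MvPowerSeries σ A)) (MvPowerSeries σ A) :=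
  twb_mvps_isAdicComplete' A

end Fermat.Agent.TW
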