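import Mathlib

/-!
# TW / [B] LOC: `2 × 2` matrix lemmas for the local relations in [C]'s eight coordinates

* `twb_m8_sq` : Cayley–Hamilton for `2 × 2` matrices, `M² = tr(M) M - det(M)`.
* `twb_m8_sq_eq_zero_of_isNilpotent` : over a reduced ring a nilpotent `2 × 2` matrix has square `0`.
* `twb_m8_one_add_pow` : `(1 + N)^n = 1 + n N` if `N² = 0`.
* `twb_m8_geom` : `∑_{k<p} (1+N)^k = N^(p-1) + p • G` (`Φ_p(X+1)` is Eisenstein).
* `twb_m8_pow_eq_self` : `∑_{k<p} M^k = 0`, `n ≡ 1 mod p` ⟹ `M^n = M`.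
* `twb_m8_tau` : **(U)** over a domain: `N² = 0`, `N ≠ 0`, `Φ (1+N) = (1+N)^n Φ`, `det Φ = n`,
  `n (1-n) ≠ 0` ⟹ `(tr Φ)² = (1+n)²`.
-/

set_option autoImplicit false

namespace Fermat.Agent.TW

open Matrix

variable {R : Type*} [CommRing R]

omit [CommRing R] in
theorem twb_m8_ext_iff (M N : Matrix (Fin 2) (Fin 2) R) :
    M = N ↔ M 0 0 = N 0 0 ∧ M 0 1 = N 0 1 ∧ M 1 0 = N 1 0 ∧ M 1 1 = N 1 1 := by
  constructor
  · rintro rfl; exact ⟨rfl, rfl, rfl, rfl⟩
  · rintro ⟨h1, h2, h3, h4⟩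
    ext i j
    fin_cases i <;> fin_cases j <;> assumption

/-- Cayley–Hamilton for `2 × 2` matrices. -/
theorem twb_m8_sq (M : Matrix (Fin 2) (Fin 2) R) :
    M ^ 2 = M.trace • M - M.det • (1 : Matrix (Fin 2) (Fin 2) R) := by
  rw [twb_m8_ext_iff, pow_two]
  simp only [Matrix.mul_apply, Fin.sum_univ_two, Matrix.sub_apply, Matrix.smul_apply,
    Matrix.one_apply_eq, Matrix.one_apply_ne, smul_eq_mul, Matrix.det_fin_two, Matrix.trace_fin_two,
    ne_eq, zero_ne_one, one_ne_zero, not_false_eq_true, mul_zero, mul_one, sub_zero]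
  refine ⟨?_, ?_, ?_, ?_⟩ <;> ring

/-- over a reduced ring, a nilpotent `2 × 2` matrix has square zero. -/
theorem twb_m8_sq_eq_zero_of_isNilpotent [IsReduced R] {M : Matrix (Fin 2) (Fin 2) R}
    (h : IsNilpotent M) : M ^ 2 = 0 := by
  have htr : M.trace = 0 := (Matrix.isNilpotent_trace_of_isNilpotent h).eq_zero
  have hdet : M.det = 0 := by
    obtain ⟨k, hk⟩ := h
    have : M.det ^ k = 0 := by rw [← Matrix.det_pow, hk]; simp
    exact (IsNilpotent.eq_zero ⟨k, this⟩)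
  rw [twb_m8_sq, htr, hdet, zero_smul, zero_smul, sub_zero]

/-- `(1 + N)^n = 1 + n N` if `N² = 0`. -/
theorem twb_m8_one_add_pow {N : Matrix (Fin 2) (Fin 2) R} (hN : N ^ 2 = 0) (n : ℕ) :
    (1 + N) ^ n = 1 + (n : R) • N := by
  induction n with
  | zero => simp
  | succ k ih =>
    rw [pow_succ, ih, add_mul, mul_add, mul_add, one_mul, mul_one, one_mul, smul_mul_assoc,
      ← pow_two, hN, smul_zero, add_zero, Nat.cast_succ, add_smul, one_smul, add_assoc,
      add_comm N]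

/-- `∑_{k<p} (1+N)^k = N^(p-1) + p • G` for a prime `p` (any ring element `N`). -/
theorem twb_m8_geom {S : Type*} [Ring S] {p : ℕ} (hp : p.Prime) (N : S) :
    ∃ G : S, ∑ k ∈ Finset.range p, (1 + N) ^ k = N ^ (p - 1) + (p : S) * G := by
  -- the identity in `ℤ[X]`
  obtain ⟨r, hr⟩ := exists_add_pow_prime_eq hp (Polynomial.X : Polynomial ℤ) 1
  have hgeom := geom_sum_mul (1 + Polynomial.X : Polynomial ℤ) p
  have hp1 : p = (p - 1) + 1 := (Nat.succ_pred_eq_of_pos hp.pos).symm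
  have key : ∑ k ∈ Finset.range p, (1 + Polynomial.X : Polynomial ℤ) ^ k =
      Polynomial.X ^ (p - 1) + (p : Polynomial ℤ) * r := by
    have hX : (Polynomial.X : Polynomial ℤ) ≠ 0 := Polynomial.X_ne_zero
    apply mul_right_cancel₀ hX
    have h1 : (1 + Polynomial.X : Polynomial ℤ) - 1 = Polynomial.X := by ring
    rw [h1] at hgeom
    rw [hgeom, add_comm (1 : Polynomial ℤ) Polynomial.X, hr]
    have : (Polynomial.X : Polynomial ℤ) ^ p = Polynomial.X ^ (p - 1) * Polynomial.X := by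
      rw [← pow_succ, ← hp1]
    rw [this]
    ring
  refine ⟨Polynomial.aeval N r, ?_⟩
  have := congrArg (Polynomial.aeval N) key
  simpa [map_sum, map_pow, map_add, map_mul] using this

/-- `∑_{k<p} M^k = 0` and `n ≡ 1 mod p` imply `M^n = M`. -/
theorem twb_m8_pow_eq_self {S : Type*} [Ring S] {p n : ℕ} (M : S)
    (h : ∑ k ∈ Finset.range p, M ^ k = 0) (hn : n % p = 1) : M ^ n = M := by
  have hMp : M ^ p = 1 := by
    have := geom_sum_mul M p
    rw [h, zero_mul] at this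
    exact (sub_eq_zero.mp this.symm)
  have : n = p * (n / p) + 1 := by
    have := Nat.div_add_mod n p
    omega
  rw [this, pow_succ, pow_mul, hMp, one_pow, one_mul]

/-- **(U)** in matrix form. -/
theorem twb_m8_tau [IsDomain R] {N Φ : Matrix (Fin 2) (Fin 2) R} {n : ℕ} (hN : N ^ 2 = 0)
    (hN0 : N ≠ 0) (hrel : Φ * (1 + N) = (1 + N) ^ n * Φ) (hdet : Φ.det = (n : R))
    (hn : (n : R) * (1 - (n : R)) ≠ 0) : Φ.trace ^ 2 = (1 + (n : R)) ^ 2 := by
  set q : R := (n : R) with hq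
  set t : R := Φ.trace with ht
  -- `Φ N = q N Φ`
  have h1 : Φ * N = q • (N * Φ) := by
    rw [twb_m8_one_add_pow hN, mul_add, add_mul, mul_one, one_mul, smul_mul_assoc] at hrel
    exact add_left_cancel hrel
  -- Cayley–Hamilton for `Φ`
  have hCH : Φ * Φ = t • Φ - q • (1 : Matrix (Fin 2) (Fin 2) R) := by
    have := twb_m8_sq Φ
    rw [pow_two, hdet] at this
    exact this
  have hA2 : N * Φ * Φ = t • (N * Φ) - q • N := by
    rw [mul_assoc, hCH, mul_sub, mul_smul_comm, mul_smul_comm, mul_one]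
  have h2 : Φ * Φ * N = (q * q) • (N * Φ * Φ) := by
    rw [mul_assoc, h1, mul_smul_comm, ← mul_assoc, h1, smul_mul_assoc, smul_smul]
  have h3 : Φ * Φ * N = (t * q) • (N * Φ) - q • N := by
    rw [hCH, sub_mul, smul_mul_assoc, smul_mul_assoc, one_mul, h1, smul_smul]
  -- `q (1 - q) (t N Φ - (1 + q) N) = 0`
  have h4 : (q * (1 - q)) • (t • (N * Φ) - (1 + q) • N) = 0 := by
    have := h2.symm.trans h3
    rw [hA2] at this
    have h : (q * (1 - q)) • (t • (N * Φ) - (1 + q) • N) =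
        ((t * q) • (N * Φ) - q • N) - (q * q) • (t • (N * Φ) - q • N) := by
      module
    rw [h, this, sub_self]
  have hE1 : t • (N * Φ) = (1 + q) • N := by
    rcases smul_eq_zero.mp h4 with h | h
    · exact absurd h hn
    · exact sub_eq_zero.mp h
  -- second step
  have h5 : t • (N * Φ * Φ) = (1 + q) • (N * Φ) := by
    rw [← smul_mul_assoc, hE1, smul_mul_assoc]
  rw [hA2] at h5
  have h6 : (t ^ 2 - (1 + q) ^ 2) • N = 0 := by
    have h5' : t • (t • (N * Φ) - q • N) - (1 + q) • (N * Φ) = 0 := sub_eq_zero.mpr h5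
    have hE1' : t • (N * Φ) - (1 + q) • N = 0 := sub_eq_zero.mpr hE1
    have h : (t ^ 2 - (1 + q) ^ 2) • N =
        t • (t • (t • (N * Φ) - q • N) - (1 + q) • (N * Φ)) -
          (t ^ 2 - (1 + q)) • (t • (N * Φ) - (1 + q) • N) := by
      module
    rw [h, h5', hE1', smul_zero, smul_zero, sub_zero]
  rcases smul_eq_zero.mp h6 with h | h
  · exact sub_eq_zero.mp h
  · exact absurd h hN0

end Fermat.Agent.TW
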