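import Mathlib
import Fermat.Agent.TW.Loc.Mat8

/-!
# TW / [B] LOC: the local relations in [C]'s eight coordinates; `R^χ_∞ = P/J^#`, `R^1_∞ = P'/J^1`

Coordinates of `twc_Present_stmt` (block [C]): index `(T × Fin 2 × Fin 2 × Fin 2) ⊕ ι`,
`X (ℓ, 0, i, j) = (Σ_ℓ - 1)_{ij}`, `X (ℓ, 1, i, j) = (Φ_ℓ - a_ℓ)_{ij}`.

* `twb_r8_hashSet p n Σ Φ` : `∑_{k<p} Σ^k = 0` (i.e. `Φ_p(Σ) = 0`), `det Σ = 1`, `ΦΣ = ΣΦ`, `det Φ = n`
  (the `χ`-system, exponent-free form `R^#` of finding #4603);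
* `twb_r8_unipSet p n Σ Φ` : `(Σ-1)^(p-1) = 0`, `det Σ = 1`, `ΦΣ = Σ^n Φ`, `det Φ = n` (the unipotent
  system; `(Σ-1)^(p-1)` instead of `(Σ-1)^2` so that `J^1 ⊆ J^# + (λ)`, finding #4666);
* `twb_r8_Jhash`, `twb_r8_Junip` : the ideals of `P = O[[…]]` generated by these relations at all
  `ℓ : T`;
* `twb_r8_Junip_le` : `J^1 ≤ (J^# ⊔ (λ)).comap (x' ↦ 0)`: the map `q1 : R^1_∞ → R^χ_∞/λ` exists.
-/

set_option autoImplicit false

namespace Fermat.Agent.TW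

open MvPowerSeries Matrix

noncomputable section

/-- the set of entries of a `2 × 2` matrix. -/
def twb_r8_entries {R : Type*} (M : Matrix (Fin 2) (Fin 2) R) : Set R :=
  Set.range fun ij : Fin 2 × Fin 2 => M ij.1 ij.2

section Rel

variable {R : Type*} [CommRing R] {R' : Type*} [CommRing R']

/-- the relations of the `χ`-system (`R^#`) for a pair `(Σ, Φ)`. -/
def twb_r8_hashSet (p : ℕ) (n : R) (Sg Ph : Matrix (Fin 2) (Fin 2) R) : Set R :=
  twb_r8_entries (∑ k ∈ Finset.range p, Sg ^ k) ∪ {Sg.det - 1} ∪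
    twb_r8_entries (Ph * Sg - Sg * Ph) ∪ {Ph.det - n}

/-- the relations of the unipotent system for a pair `(Σ, Φ)`. -/
def twb_r8_unipSet (p n : ℕ) (Sg Ph : Matrix (Fin 2) (Fin 2) R) : Set R :=
  twb_r8_entries ((Sg - 1) ^ (p - 1)) ∪ {Sg.det - 1} ∪
    twb_r8_entries (Ph * Sg - Sg ^ n * Ph) ∪ {Ph.det - (n : R)}

theorem twb_r8_entries_iff (f : R →+* R') (M : Matrix (Fin 2) (Fin 2) R) :
    (∀ x ∈ twb_r8_entries M, f x = 0) ↔ f.mapMatrix M = 0 := by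
  constructor
  · intro h
    ext i j
    exact h _ ⟨(i, j), rfl⟩
  · rintro h _ ⟨⟨i, j⟩, rfl⟩
    exact congrFun (congrFun h i) j

/-- a ring homomorphism kills the `#`-relations iff the matrix identities hold in the target. -/
theorem twb_r8_hashSet_iff (f : R →+* R') (p : ℕ) (n : R) (Sg Ph : Matrix (Fin 2) (Fin 2) R) :
    (∀ x ∈ twb_r8_hashSet p n Sg Ph, f x = 0) ↔
      (∑ k ∈ Finset.range p, (f.mapMatrix Sg) ^ k = 0 ∧ (f.mapMatrix Sg).det = 1 ∧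
        f.mapMatrix Ph * f.mapMatrix Sg = f.mapMatrix Sg * f.mapMatrix Ph ∧
        (f.mapMatrix Ph).det = f n) := by
  unfold twb_r8_hashSet
  simp only [Set.mem_union, Set.mem_singleton_iff, or_imp, forall_and, forall_eq,
    twb_r8_entries_iff, map_sum, map_pow, map_sub, map_mul, map_one, RingHom.map_det, sub_eq_zero]
  tauto

/-- a ring homomorphism kills the unipotent relations iff the matrix identities hold. -/
theorem twb_r8_unipSet_iff (f : R →+* R') (p n : ℕ) (Sg Ph : Matrix (Fin 2) (Fin 2) R) :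
    (∀ x ∈ twb_r8_unipSet p n Sg Ph, f x = 0) ↔
      ((f.mapMatrix Sg - 1) ^ (p - 1) = 0 ∧ (f.mapMatrix Sg).det = 1 ∧
        f.mapMatrix Ph * f.mapMatrix Sg = (f.mapMatrix Sg) ^ n * f.mapMatrix Ph ∧
        (f.mapMatrix Ph).det = (n : R')) := by
  unfold twb_r8_unipSet
  simp only [Set.mem_union, Set.mem_singleton_iff, or_imp, forall_and, forall_eq,
    twb_r8_entries_iff, map_pow, map_sub, map_mul, map_one, RingHom.map_det, sub_eq_zero,
    map_natCast]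
  tauto

/-- the `#`-relations and `p = 0` imply the unipotent relations. -/
theorem twb_r8_unip_of_hash {p n : ℕ} (hp : p.Prime) (hn : n % p = 1) (hpR : (p : R) = 0)
    {Sg Ph : Matrix (Fin 2) (Fin 2) R}
    (h : ∑ k ∈ Finset.range p, Sg ^ k = 0 ∧ Sg.det = 1 ∧ Ph * Sg = Sg * Ph ∧ Ph.det = (n : R)) :
    (Sg - 1) ^ (p - 1) = 0 ∧ Sg.det = 1 ∧ Ph * Sg = Sg ^ n * Ph ∧ Ph.det = (n : R) := by
  obtain ⟨h1, h2, h3, h4⟩ := h
  refine ⟨?_, h2, ?_, h4⟩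
  · obtain ⟨G, hG⟩ := twb_m8_geom hp (Sg - 1)
    rw [add_sub_cancel, h1] at hG
    have hp0 : ((p : ℕ) : Matrix (Fin 2) (Fin 2) R) = 0 := by
      ext i j
      fin_cases i <;> fin_cases j <;> simp [Matrix.natCast_apply, hpR]
    rw [hp0, zero_mul, add_zero] at hG
    exact hG.symm
  · rw [twb_m8_pow_eq_self Sg h1 hn, h3]

end Rel

section Global

variable (O : Type*) [CommRing O] (T : Type*) (ι : Type*)

/-- the index type of [C]'s coordinates: `8` local coordinates for each `ℓ : T`, and free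
variables indexed by `ι`. -/
abbrev twb_r8_Idx : Type _ := (T × Fin 2 × Fin 2 × Fin 2) ⊕ ι

/-- the power series ring `P`. -/
abbrev twb_r8_P : Type _ := MvPowerSeries (twb_r8_Idx T ι) O

variable {T}

/-- the universal `Σ_ℓ = 1 + (X (ℓ, 0, i, j))`. -/
def twb_r8_Sig (ℓ : T) : Matrix (Fin 2) (Fin 2) (twb_r8_P O T ι) :=
  1 + Matrix.of fun i j => X (Sum.inl (ℓ, 0, i, j))

/-- the universal `Φ_ℓ = a_ℓ + (X (ℓ, 1, i, j))`. -/
def twb_r8_Phi (a : T → O) (ℓ : T) : Matrix (Fin 2) (Fin 2) (twb_r8_P O T ι) :=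
  Matrix.scalar (Fin 2) (C (a ℓ)) + Matrix.of fun i j => X (Sum.inl (ℓ, 1, i, j))

/-- `J^#`: the relations of the `χ`-system at all `ℓ : T`. -/
def twb_r8_Jhash (p : ℕ) (a : T → O) (n : T → ℕ) : Ideal (twb_r8_P O T ι) :=
  Ideal.span (⋃ ℓ : T, twb_r8_hashSet p ((n ℓ : ℕ) : twb_r8_P O T ι) (twb_r8_Sig O ι ℓ)
    (twb_r8_Phi O ι a ℓ))

/-- `J^1`: the relations of the unipotent system at all `ℓ : T`. -/
def twb_r8_Junip (p : ℕ) (a : T → O) (n : T → ℕ) : Ideal (twb_r8_P O T ι) :=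
  Ideal.span (⋃ ℓ : T, twb_r8_unipSet p (n ℓ) (twb_r8_Sig O ι ℓ) (twb_r8_Phi O ι a ℓ))

/-- `R^χ_∞ = P / J^#`. -/
abbrev twb_r8_Rchi (p : ℕ) (a : T → O) (n : T → ℕ) : Type _ :=
  twb_r8_P O T ι ⧸ twb_r8_Jhash O ι p a n

/-- `R^1_∞ = P / J^1`. -/
abbrev twb_r8_R1 (p : ℕ) (a : T → O) (n : T → ℕ) : Type _ :=
  twb_r8_P O T ι ⧸ twb_r8_Junip O ι p a n

end Global


section Q1

variable {O : Type*} [CommRing O] {T : Type*} {ι ι' : Type*}

/-- the embedding of index types induced by `e : ι ↪ ι'`. -/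
def twb_r8_emb (e : ι ↪ ι') : twb_r8_Idx T ι ↪ twb_r8_Idx T ι' :=
  Function.Embedding.sumMap (Function.Embedding.refl _) e

/-- the homomorphism `P(ι') → P(ι)` killing the free variables outside `ι`. -/
def twb_r8_kill (e : ι ↪ ι') : twb_r8_P O T ι' →ₐ[O] twb_r8_P O T ι :=
  killCompl (twb_r8_emb e)

theorem twb_r8_kill_X_inl (e : ι ↪ ι') (t : T × Fin 2 × Fin 2 × Fin 2) :
    twb_r8_kill (O := O) e (X (Sum.inl t)) = X (Sum.inl t) := by
  have : (Sum.inl t : twb_r8_Idx T ι') = twb_r8_emb e (Sum.inl t) := rfl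
  rw [twb_r8_kill, this, killCompl_X]

theorem twb_r8_kill_X_inr (e : ι ↪ ι') (i : ι) :
    twb_r8_kill (O := O) (T := T) e (X (Sum.inr (e i))) = X (Sum.inr i) := by
  have : (Sum.inr (e i) : twb_r8_Idx T ι') = twb_r8_emb e (Sum.inr i) := rfl
  rw [twb_r8_kill, this, killCompl_X]

theorem twb_r8_kill_X_inr_eq_zero (e : ι ↪ ι') {i' : ι'} (h : i' ∉ Set.range e) :
    twb_r8_kill (O := O) (T := T) e (X (Sum.inr i')) = 0 := by
  rw [twb_r8_kill]
  apply killCompl_X_eq_zero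
  rintro ⟨x, hx⟩
  rcases x with t | i
  · simp [twb_r8_emb] at hx
  · apply h
    refine ⟨i, ?_⟩
    simpa [twb_r8_emb] using hx

theorem twb_r8_kill_C (e : ι ↪ ι') (r : O) :
    twb_r8_kill (O := O) (T := T) e (C r) = C r := by
  rw [twb_r8_kill, killCompl_C]

theorem twb_r8_kill_Sig (e : ι ↪ ι') (ℓ : T) :
    (twb_r8_kill (O := O) e).toRingHom.mapMatrix (twb_r8_Sig O ι' ℓ) = twb_r8_Sig O ι ℓ := by
  rw [twb_m8_ext_iff]
  simp [twb_r8_Sig, twb_r8_kill_X_inl]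

theorem twb_r8_kill_Phi (e : ι ↪ ι') (a : T → O) (ℓ : T) :
    (twb_r8_kill (O := O) e).toRingHom.mapMatrix (twb_r8_Phi O ι' a ℓ) = twb_r8_Phi O ι a ℓ := by
  rw [twb_m8_ext_iff]
  simp [twb_r8_Phi, twb_r8_kill_X_inl, twb_r8_kill_C]

/-- **`q1` exists**: the unipotent relations (with free variables `ι'`) die in
`P(ι) / (J^# + (λ))` under `x' ↦ 0`, if `λ ∣ p` and all `n ℓ ≡ 1 mod p`. -/
theorem twb_r8_Junip_le {p : ℕ} (hp : p.Prime) (a : T → O) (n : T → ℕ) (hn : ∀ ℓ, n ℓ % p = 1)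
    (lam : O) (hlam : (p : O) ∈ Ideal.span {lam}) (e : ι ↪ ι') :
    twb_r8_Junip O ι' p a n ≤
      (twb_r8_Jhash O ι p a n ⊔ Ideal.span {C lam}).comap (twb_r8_kill e).toRingHom := by
  rw [twb_r8_Junip, Ideal.span_le]
  intro x hx
  obtain ⟨ℓ, hxℓ⟩ := Set.mem_iUnion.mp hx
  set J := twb_r8_Jhash O ι p a n ⊔ Ideal.span {(C lam : twb_r8_P O T ι)} with hJ
  set f : twb_r8_P O T ι' →+* twb_r8_P O T ι ⧸ J :=
    (Ideal.Quotient.mk J).comp (twb_r8_kill e).toRingHom with hf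
  show (twb_r8_kill e).toRingHom x ∈ J
  rw [← Ideal.Quotient.eq_zero_iff_mem]
  change f x = 0
  -- the `#`-relations hold in the quotient
  have hhash := (twb_r8_hashSet_iff (Ideal.Quotient.mk J) p ((n ℓ : ℕ) : twb_r8_P O T ι)
    (twb_r8_Sig O ι ℓ) (twb_r8_Phi O ι a ℓ)).mp (by
      intro y hy
      rw [Ideal.Quotient.eq_zero_iff_mem]
      apply Ideal.mem_sup_left
      apply Ideal.subset_span
      exact Set.mem_iUnion.mpr ⟨ℓ, hy⟩)
  have hS : f.mapMatrix (twb_r8_Sig O ι' ℓ) =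
      (Ideal.Quotient.mk J).mapMatrix (twb_r8_Sig O ι ℓ) := by
    rw [hf, ← twb_r8_kill_Sig e ℓ]
    rfl
  have hP : f.mapMatrix (twb_r8_Phi O ι' a ℓ) =
      (Ideal.Quotient.mk J).mapMatrix (twb_r8_Phi O ι a ℓ) := by
    rw [hf, ← twb_r8_kill_Phi e a ℓ]
    rfl
  have hpJ : ((p : ℕ) : twb_r8_P O T ι ⧸ J) = 0 := by
    obtain ⟨c, hc⟩ := Ideal.mem_span_singleton'.mp hlam
    have : ((p : ℕ) : twb_r8_P O T ι) ∈ J := by
      apply Ideal.mem_sup_right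
      rw [Ideal.mem_span_singleton']
      refine ⟨C c, ?_⟩
      rw [← map_mul, hc, map_natCast]
    rw [← map_natCast (Ideal.Quotient.mk J), Ideal.Quotient.eq_zero_iff_mem]
    exact this
  rw [map_natCast] at hhash
  have key := (twb_r8_unipSet_iff f p (n ℓ) (twb_r8_Sig O ι' ℓ) (twb_r8_Phi O ι' a ℓ)).mpr (by
    rw [hS, hP]
    exact twb_r8_unip_of_hash hp (hn ℓ) hpJ hhash)
  exact key x hxℓ

end Q1

end

end Fermat.Agent.TW
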