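import Mathlib
import Fermat.Agent.TW.Loc.Rel8
import Fermat.Agent.TW.Loc.Complete
import Fermat.Prelude.Thm_IsLocalRing_isAdicComplete_of_module_finite

/-!
# TW / [B] LOC, cell B/Inst: the instances of `R^1_∞ = P/J^1` and `R^χ_∞ = P/J^#` (prefix `twb_qi_`)

`twd_main_supp` (block [D]) needs, for `R1 := twb_r8_R1 O ι' p a n` and `Rχ := twb_r8_Rchi O ι p a n`:
`IsNoetherianRing`, `IsLocalRing`, `IsAdicComplete (maximalIdeal R) R` and
`∀ k, Finite (R ⧸ maximalIdeal R ^ k)`.

* generic: `P` noetherian local complete, `J ≠ ⊤` ⟹ `P ⧸ J` is local (`twb_qi_isLocalRing`),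
  noetherian (Mathlib instance) and complete (`twb_qi_isAdicComplete`);
* generic: `R` noetherian local with finite residue field ⟹ `∀ k, Finite (R ⧸ 𝔪^k)`
  (`twb_qi_finite_quot_pow`);
* power series: for `P = O[[σ]]`, `O → P ⧸ J → residue field` is surjective
  (`twb_qi_residue_surjective`), hence the residue field of `P ⧸ J` is finite if that of `O` is;
* `twb_qi_Jhash_le`, `twb_qi_Junip_le` : `J^#, J^1 ≤ maximalIdeal P` if `p ∈ 𝔪_O`, `a_ℓ² - n_ℓ ∈ 𝔪_O`,
  `2 ≤ p`;
* the packaged statements `twb_qi_R1_*`, `twb_qi_Rchi_*`.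
-/

set_option autoImplicit false
set_option linter.style.haveILetI false
set_option linter.unusedSectionVars false

namespace Fermat.Agent.TW

open IsLocalRing MvPowerSeries

noncomputable section

section generic

variable {P : Type*} [CommRing P] [IsLocalRing P]

/-- a proper quotient of a local ring is local. -/
theorem twb_qi_isLocalRing {J : Ideal P} (hJ : J ≠ ⊤) : IsLocalRing (P ⧸ J) := by
  haveI : Nontrivial (P ⧸ J) := Ideal.Quotient.nontrivial_iff.2 hJ
  exact IsLocalRing.of_surjective' (Ideal.Quotient.mk J) Ideal.Quotient.mk_surjective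

/-- a proper quotient of a complete noetherian local ring is complete. -/
theorem twb_qi_isAdicComplete [IsNoetherianRing P] [IsAdicComplete (maximalIdeal P) P]
    {J : Ideal P} [IsLocalRing (P ⧸ J)] :
    IsAdicComplete (maximalIdeal (P ⧸ J)) (P ⧸ J) := by
  haveI : Module.Finite P (P ⧸ J) :=
    Module.Finite.of_surjective (Algebra.linearMap P (P ⧸ J)) Ideal.Quotient.mk_surjective
  haveI : IsLocalHom (algebraMap P (P ⧸ J)) :=
    IsLocalHom.of_surjective (Ideal.Quotient.mk J) Ideal.Quotient.mk_surjective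
  exact IsLocalRing.isAdicComplete_of_module_finite (𝒪 := P)

/-- a noetherian local ring with finite residue field has finite quotients by the powers of its
maximal ideal. -/
theorem twb_qi_finite_quot_pow (R : Type*) [CommRing R] [IsLocalRing R] [IsNoetherianRing R]
    [Finite (ResidueField R)] (k : ℕ) : Finite (R ⧸ maximalIdeal R ^ k) := by
  haveI : Finite (R ⧸ maximalIdeal R) := inferInstanceAs (Finite (ResidueField R))
  exact Ideal.finite_quotient_pow (IsNoetherian.noetherian (maximalIdeal R)) k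

/-- a field which is a surjective image of a local ring with finite residue field is finite. -/
theorem twb_qi_finite_of_surjective {O : Type*} [CommRing O] [IsLocalRing O]
    [Finite (ResidueField O)] {K : Type*} [Field K] (g : O →+* K) (hg : Function.Surjective g) :
    Finite K := by
  have hker : RingHom.ker g = maximalIdeal O :=
    IsLocalRing.eq_maximalIdeal (RingHom.ker_isMaximal_of_surjective g hg)
  let g' : ResidueField O →+* K :=
    Ideal.Quotient.lift (maximalIdeal O) g (fun a ha => by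
      rw [← hker] at ha
      exact ha)
  have hg' : Function.Surjective g' := by
    intro y
    obtain ⟨x, rfl⟩ := hg y
    exact ⟨Ideal.Quotient.mk _ x, Ideal.Quotient.lift_mk _ _ _⟩
  exact Finite.of_surjective g' hg'

end generic

section powerSeries

variable {O : Type*} [CommRing O] [IsLocalRing O] {σ : Type*}

/-- membership in the maximal ideal of `O[[σ]]`. -/
theorem twb_qi_mem_maximalIdeal_iff (f : MvPowerSeries σ O) :
    f ∈ maximalIdeal (MvPowerSeries σ O) ↔ constantCoeff f ∈ maximalIdeal O := by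
  rw [mem_maximalIdeal, mem_maximalIdeal, mem_nonunits_iff, mem_nonunits_iff,
    MvPowerSeries.isUnit_iff_constantCoeff]

/-- `f - C (f 0)` lies in the maximal ideal. -/
theorem twb_qi_sub_C_mem (f : MvPowerSeries σ O) :
    f - C (constantCoeff f) ∈ maximalIdeal (MvPowerSeries σ O) := by
  rw [twb_qi_mem_maximalIdeal_iff, map_sub, constantCoeff_C, sub_self]
  exact zero_mem _

/-- `O → O[[σ]] ⧸ J → residue field` is surjective. -/
theorem twb_qi_residue_surjective (J : Ideal (MvPowerSeries σ O))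
    [IsLocalRing (MvPowerSeries σ O ⧸ J)] :
    Function.Surjective (residue (MvPowerSeries σ O ⧸ J) ∘
      algebraMap O (MvPowerSeries σ O ⧸ J)) := by
  intro y
  obtain ⟨x, rfl⟩ := Ideal.Quotient.mk_surjective y
  obtain ⟨f, rfl⟩ := Ideal.Quotient.mk_surjective x
  refine ⟨constantCoeff f, ?_⟩
  haveI : IsLocalHom (Ideal.Quotient.mk J) :=
    IsLocalHom.of_surjective (Ideal.Quotient.mk J) Ideal.Quotient.mk_surjective
  have h1 : Ideal.Quotient.mk J (f - C (constantCoeff f)) ∈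
      maximalIdeal (MvPowerSeries σ O ⧸ J) :=
    _root_.map_nonunit (Ideal.Quotient.mk J) _ (twb_qi_sub_C_mem f)
  have h2 : residue (MvPowerSeries σ O ⧸ J) (Ideal.Quotient.mk J (f - C (constantCoeff f))) = 0 :=
    (residue_eq_zero_iff _).2 h1
  rw [map_sub, map_sub, sub_eq_zero] at h2
  rw [Function.comp_apply]
  have h3 : algebraMap O (MvPowerSeries σ O ⧸ J) (constantCoeff f) =
      Ideal.Quotient.mk J (C (constantCoeff f)) := rfl
  rw [h3]
  exact h2.symm

/-- the residue field of a local quotient of `O[[σ]]` is finite if that of `O` is. -/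
theorem twb_qi_finite_residueField [Finite (ResidueField O)] (J : Ideal (MvPowerSeries σ O))
    [IsLocalRing (MvPowerSeries σ O ⧸ J)] :
    Finite (ResidueField (MvPowerSeries σ O ⧸ J)) :=
  twb_qi_finite_of_surjective
    ((residue (MvPowerSeries σ O ⧸ J)).comp (algebraMap O (MvPowerSeries σ O ⧸ J)))
    (twb_qi_residue_surjective J)

/-- **(c)** finite quotients by the powers of the maximal ideal, for a local quotient of
`O[[σ]]`, `σ` finite, `O` noetherian local with finite residue field. -/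
theorem twb_qi_finite_quot_pow_mvps [IsNoetherianRing O] [Finite (ResidueField O)] [Finite σ]
    (J : Ideal (MvPowerSeries σ O)) [IsLocalRing (MvPowerSeries σ O ⧸ J)] (k : ℕ) :
    Finite ((MvPowerSeries σ O ⧸ J) ⧸ maximalIdeal (MvPowerSeries σ O ⧸ J) ^ k) := by
  haveI := twb_qi_finite_residueField J
  exact twb_qi_finite_quot_pow _ k

/-- **(b)** completeness of a local quotient of `O[[σ]]`. -/
theorem twb_qi_isAdicComplete_mvps [IsNoetherianRing O] [IsAdicComplete (maximalIdeal O) O]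
    [Finite σ] (J : Ideal (MvPowerSeries σ O)) [IsLocalRing (MvPowerSeries σ O ⧸ J)] :
    IsAdicComplete (maximalIdeal (MvPowerSeries σ O ⧸ J)) (MvPowerSeries σ O ⧸ J) := by
  haveI : IsAdicComplete (maximalIdeal (MvPowerSeries σ O)) (MvPowerSeries σ O) :=
    twb_mvps_isAdicComplete' O
  exact twb_qi_isAdicComplete

/-- the algebra map `O → O[[σ]] ⧸ J` is local. -/
theorem twb_qi_isLocalHom (J : Ideal (MvPowerSeries σ O))
    [IsLocalRing (MvPowerSeries σ O ⧸ J)] :
    IsLocalHom (algebraMap O (MvPowerSeries σ O ⧸ J)) := by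
  constructor
  intro a ha
  by_contra hna
  have h1 : a ∈ maximalIdeal O := hna
  have h2 : (C a : MvPowerSeries σ O) ∈ maximalIdeal (MvPowerSeries σ O) := by
    rw [twb_qi_mem_maximalIdeal_iff, constantCoeff_C]
    exact h1
  haveI : IsLocalHom (Ideal.Quotient.mk J) :=
    IsLocalHom.of_surjective (Ideal.Quotient.mk J) Ideal.Quotient.mk_surjective
  have h3 : Ideal.Quotient.mk J (C a) ∈ maximalIdeal (MvPowerSeries σ O ⧸ J) :=
    _root_.map_nonunit (Ideal.Quotient.mk J) _ h2
  exact h3 ha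

end powerSeries

section rel8

variable {O : Type*} [CommRing O] [IsLocalRing O] {T : Type*} {ι : Type*}

/-- reduction of `P = O[[…]]` to the residue field of `O`. -/
def twb_qi_resC (O : Type*) [CommRing O] [IsLocalRing O] (T : Type*) (ι : Type*) :
    twb_r8_P O T ι →+* ResidueField O :=
  (residue O).comp (constantCoeff (σ := twb_r8_Idx T ι) (R := O))

theorem twb_qi_resC_eq_zero_iff (f : twb_r8_P O T ι) :
    twb_qi_resC O T ι f = 0 ↔ f ∈ maximalIdeal (twb_r8_P O T ι) := by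
  rw [twb_qi_mem_maximalIdeal_iff, twb_qi_resC, RingHom.comp_apply, residue_eq_zero_iff]

theorem twb_qi_resC_Sig (ℓ : T) :
    (twb_qi_resC O T ι).mapMatrix (twb_r8_Sig O ι ℓ) = 1 := by
  rw [twb_m8_ext_iff]
  simp [twb_r8_Sig, twb_qi_resC]

theorem twb_qi_resC_Phi (a : T → O) (ℓ : T) :
    (twb_qi_resC O T ι).mapMatrix (twb_r8_Phi O ι a ℓ) =
      Matrix.scalar (Fin 2) (residue O (a ℓ)) := by
  rw [twb_m8_ext_iff]
  simp [twb_r8_Phi, twb_qi_resC]

/-- **(a)** `J^# ≤ 𝔪_P`. -/
theorem twb_qi_Jhash_le {p : ℕ} (hp : (p : O) ∈ maximalIdeal O) (a : T → O) (n : T → ℕ)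
    (han : ∀ ℓ, a ℓ ^ 2 - (n ℓ : O) ∈ maximalIdeal O) :
    twb_r8_Jhash O ι p a n ≤ maximalIdeal (twb_r8_P O T ι) := by
  rw [twb_r8_Jhash, Ideal.span_le]
  intro x hx
  obtain ⟨ℓ, hxℓ⟩ := Set.mem_iUnion.mp hx
  rw [SetLike.mem_coe, ← twb_qi_resC_eq_zero_iff]
  refine (twb_r8_hashSet_iff (twb_qi_resC O T ι) p _ _ _).2 ?_ x hxℓ
  rw [twb_qi_resC_Sig, twb_qi_resC_Phi]
  have hp0 : ((p : ℕ) : ResidueField O) = 0 := by
    rw [← map_natCast (residue O), residue_eq_zero_iff]
    exact hp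
  refine ⟨?_, Matrix.det_one, by rw [mul_one, one_mul], ?_⟩
  · simp only [one_pow, Finset.sum_const, Finset.card_range]
    rw [← Nat.cast_smul_eq_nsmul (ResidueField O), hp0, zero_smul]
  · have h := (residue_eq_zero_iff _).2 (han ℓ)
    rw [map_sub, map_pow, map_natCast, sub_eq_zero] at h
    rw [map_natCast, ← h]
    simp [pow_two]

/-- **(a)** `J^1 ≤ 𝔪_P`. -/
theorem twb_qi_Junip_le {p : ℕ} (hp2 : 2 ≤ p) (a : T → O) (n : T → ℕ)
    (han : ∀ ℓ, a ℓ ^ 2 - (n ℓ : O) ∈ maximalIdeal O) :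
    twb_r8_Junip O ι p a n ≤ maximalIdeal (twb_r8_P O T ι) := by
  rw [twb_r8_Junip, Ideal.span_le]
  intro x hx
  obtain ⟨ℓ, hxℓ⟩ := Set.mem_iUnion.mp hx
  rw [SetLike.mem_coe, ← twb_qi_resC_eq_zero_iff]
  refine (twb_r8_unipSet_iff (twb_qi_resC O T ι) p (n ℓ) _ _).2 ?_ x hxℓ
  rw [twb_qi_resC_Sig, twb_qi_resC_Phi]
  refine ⟨?_, Matrix.det_one, by rw [mul_one, one_pow, one_mul], ?_⟩
  · rw [sub_self]
    exact zero_pow (by omega)
  · have h := (residue_eq_zero_iff _).2 (han ℓ)
    rw [map_sub, map_pow, map_natCast, sub_eq_zero] at h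
    rw [← h]
    simp [pow_two]

theorem twb_qi_Jhash_ne_top {p : ℕ} (hp : (p : O) ∈ maximalIdeal O) (a : T → O) (n : T → ℕ)
    (han : ∀ ℓ, a ℓ ^ 2 - (n ℓ : O) ∈ maximalIdeal O) :
    twb_r8_Jhash O ι p a n ≠ ⊤ := fun h =>
  (maximalIdeal.isMaximal (twb_r8_P O T ι)).ne_top
    (top_le_iff.1 (h ▸ twb_qi_Jhash_le hp a n han))

theorem twb_qi_Junip_ne_top {p : ℕ} (hp2 : 2 ≤ p) (a : T → O) (n : T → ℕ)
    (han : ∀ ℓ, a ℓ ^ 2 - (n ℓ : O) ∈ maximalIdeal O) :
    twb_r8_Junip O ι p a n ≠ ⊤ := fun h =>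
  (maximalIdeal.isMaximal (twb_r8_P O T ι)).ne_top
    (top_le_iff.1 (h ▸ twb_qi_Junip_le hp2 a n han))

/-- `R^χ_∞` is local. -/
theorem twb_qi_Rchi_isLocalRing {p : ℕ} (hp : (p : O) ∈ maximalIdeal O) (a : T → O) (n : T → ℕ)
    (han : ∀ ℓ, a ℓ ^ 2 - (n ℓ : O) ∈ maximalIdeal O) :
    IsLocalRing (twb_r8_Rchi O ι p a n) :=
  twb_qi_isLocalRing (twb_qi_Jhash_ne_top hp a n han)

/-- `R^1_∞` is local. -/
theorem twb_qi_R1_isLocalRing {p : ℕ} (hp2 : 2 ≤ p) (a : T → O) (n : T → ℕ)
    (han : ∀ ℓ, a ℓ ^ 2 - (n ℓ : O) ∈ maximalIdeal O) :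
    IsLocalRing (twb_r8_R1 O ι p a n) :=
  twb_qi_isLocalRing (twb_qi_Junip_ne_top hp2 a n han)

section packaged

variable [IsNoetherianRing O] [Finite T] [Finite ι] (p : ℕ) (a : T → O) (n : T → ℕ)

/-- `R^1_∞` is noetherian. -/
theorem twb_qi_R1_isNoetherianRing : IsNoetherianRing (twb_r8_R1 O ι p a n) :=
  inferInstance

/-- `R^χ_∞` is noetherian. -/
theorem twb_qi_Rchi_isNoetherianRing : IsNoetherianRing (twb_r8_Rchi O ι p a n) :=
  inferInstance

/-- `R^1_∞` is complete. -/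
theorem twb_qi_R1_isAdicComplete [IsAdicComplete (maximalIdeal O) O]
    [IsLocalRing (twb_r8_R1 O ι p a n)] :
    IsAdicComplete (maximalIdeal (twb_r8_R1 O ι p a n)) (twb_r8_R1 O ι p a n) :=
  twb_qi_isAdicComplete_mvps _

/-- `R^χ_∞` is complete. -/
theorem twb_qi_Rchi_isAdicComplete [IsAdicComplete (maximalIdeal O) O]
    [IsLocalRing (twb_r8_Rchi O ι p a n)] :
    IsAdicComplete (maximalIdeal (twb_r8_Rchi O ι p a n)) (twb_r8_Rchi O ι p a n) :=
  twb_qi_isAdicComplete_mvps _

/-- `hR1` of `twd_main_supp`. -/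
theorem twb_qi_R1_finite [Finite (ResidueField O)] [IsLocalRing (twb_r8_R1 O ι p a n)] (k : ℕ) :
    Finite (twb_r8_R1 O ι p a n ⧸ maximalIdeal (twb_r8_R1 O ι p a n) ^ k) :=
  twb_qi_finite_quot_pow_mvps _ k

/-- `hRχ` of `twd_main_supp`. -/
theorem twb_qi_Rchi_finite [Finite (ResidueField O)] [IsLocalRing (twb_r8_Rchi O ι p a n)]
    (k : ℕ) :
    Finite (twb_r8_Rchi O ι p a n ⧸ maximalIdeal (twb_r8_Rchi O ι p a n) ^ k) :=
  twb_qi_finite_quot_pow_mvps _ k

/-- `hS`-type statement for the power series ring itself. -/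
theorem twb_qi_mvps_finite [Finite (ResidueField O)] (σ : Type*) [Finite σ] (k : ℕ) :
    Finite (MvPowerSeries σ O ⧸ maximalIdeal (MvPowerSeries σ O) ^ k) := by
  haveI : Finite (ResidueField (MvPowerSeries σ O)) := by
    refine twb_qi_finite_of_surjective
      ((residue (MvPowerSeries σ O)).comp (C (σ := σ) (R := O))) ?_
    intro y
    obtain ⟨f, rfl⟩ := Ideal.Quotient.mk_surjective y
    refine ⟨constantCoeff f, ?_⟩
    have h2 : residue (MvPowerSeries σ O) (f - C (constantCoeff f)) = 0 :=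
      (residue_eq_zero_iff _).2 (twb_qi_sub_C_mem f)
    rw [map_sub, sub_eq_zero] at h2
    exact h2.symm
  exact twb_qi_finite_quot_pow _ k

end packaged

end rel8

end

end Fermat.Agent.TW
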