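import Mathlib

/-!
# TW / Loc : the local ring of the `χ`-system at a hard prime (definitions)

Coordinates (helper4's `sl₂`-coordinates): `S = (u, b, c) = (X 0, X 1, X 2)`,
`F = (v, e, f) = (X 3, X 4, X 5)` in `A[[u,b,c,v,e,f]] = MvPowerSeries (Fin 6) A`;
`d = δ²/4` a non-unit of the base `A`.

* `twb_Ichi A d` : the naive relations `u² + bc = d`, `rank [[u,b,c],[v,e,f]] ≤ 1`.
* `twb_psi A` : the substitution `S ↦ S`, `F ↦ μ S` into `A[[u,b,c,μ]] = MvPowerSeries (Fin 4) A`.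
* `twb_g4 A d` : the quadric `u² + bc - d` in `A[[u,b,c,μ]]`.
* `twb_K A d` : the preimage of `(twb_g4)` under `twb_psi`; a PRIME ideal containing `twb_Ichi`.
* `twb_Rchi A d := A[[u,b,c,v,e,f]] ⧸ twb_K A d` : the local ring (a domain).
-/

namespace Fermat.Agent.TW

open MvPowerSeries

variable (A : Type*) [CommRing A]

/-- The naive relations of the `χ`-condition. -/
noncomputable def twb_Ichi (d : A) : Ideal (MvPowerSeries (Fin 6) A) :=
  Ideal.span {X 0 ^ 2 + X 1 * X 2 - C d, X 3 * X 1 - X 4 * X 0, X 3 * X 2 - X 5 * X 0,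
    X 4 * X 2 - X 5 * X 1}

/-- The quadric `u² + bc - d` in `A[[u,b,c,μ]]`. -/
noncomputable def twb_g4 (d : A) : MvPowerSeries (Fin 4) A := X 0 ^ 2 + X 1 * X 2 - C d

/-- `(u,b,c,v,e,f) ↦ (u, b, c, μu, μb, μc)`. -/
noncomputable def twb_psiFun : Fin 6 → MvPowerSeries (Fin 4) A :=
  ![X 0, X 1, X 2, X 3 * X 0, X 3 * X 1, X 3 * X 2]

theorem twb_psiFun_hasSubst : HasSubst (twb_psiFun A) := by
  apply hasSubst_of_constantCoeff_zero
  intro i
  fin_cases i <;> simp [twb_psiFun]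

/-- The substitution `S ↦ S`, `F ↦ μ S`. -/
noncomputable def twb_psi : MvPowerSeries (Fin 6) A →ₐ[A] MvPowerSeries (Fin 4) A :=
  substAlgHom (twb_psiFun_hasSubst A)

/-- The prime ideal cutting out the `χ`-ring. -/
noncomputable def twb_K (d : A) : Ideal (MvPowerSeries (Fin 6) A) :=
  (Ideal.span {twb_g4 A d}).comap (twb_psi A)

/-- The local ring of the `χ`-system. -/
abbrev twb_Rchi (d : A) : Type _ := MvPowerSeries (Fin 6) A ⧸ twb_K A d

end Fermat.Agent.TW
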