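/-
ONE MACHINE / block [B] LOC, leaf B/Le (helper14).  Prefix `twb_`.

The naive `χ`-relations lie in the prime ideal `twb_K` (the kernel of `S ↦ S, F ↦ μ S` modulo the
quadric): `rank ≤ 1` is visible after the substitution.
-/
import Fermat.Agent.TW.Loc.ChiDefs

set_option autoImplicit false

namespace Fermat.Agent.TW

open MvPowerSeries

variable (A : Type*) [CommRing A]

/-- `ψ (X i)` is the `i`-th substituted series. -/
theorem twb_psi_X (i : Fin 6) : twb_psi A (X i) = twb_psiFun A i := by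
  unfold twb_psi
  exact substAlgHom_X (twb_psiFun_hasSubst A) i

/-- `ψ` fixes the constants. -/
theorem twb_psi_C (a : A) : twb_psi A (C a) = C a := by
  have h : (C a : MvPowerSeries (Fin 6) A) = algebraMap A (MvPowerSeries (Fin 6) A) a := rfl
  rw [h, AlgHom.commutes]
  rfl

theorem twb_psi_X0 : twb_psi A (X 0) = X 0 := by rw [twb_psi_X]; rfl
theorem twb_psi_X1 : twb_psi A (X 1) = X 1 := by rw [twb_psi_X]; rfl
theorem twb_psi_X2 : twb_psi A (X 2) = X 2 := by rw [twb_psi_X]; rfl
theorem twb_psi_X3 : twb_psi A (X 3) = X 3 * X 0 := by rw [twb_psi_X]; rfl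
theorem twb_psi_X4 : twb_psi A (X 4) = X 3 * X 1 := by rw [twb_psi_X]; rfl
theorem twb_psi_X5 : twb_psi A (X 5) = X 3 * X 2 := by rw [twb_psi_X]; rfl

/-- **B/Le.** -/
theorem twb_Ichi_le_K (d : A) : twb_Ichi A d ≤ twb_K A d := by
  unfold twb_Ichi twb_K
  rw [Ideal.span_le]
  intro x hx
  rw [SetLike.mem_coe, Ideal.mem_comap]
  simp only [Set.mem_insert_iff, Set.mem_singleton_iff] at hx
  rcases hx with rfl | rfl | rfl | rfl
  · have : twb_psi A (X 0 ^ 2 + X 1 * X 2 - C d) = twb_g4 A d := by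
      rw [map_sub, map_add, map_pow, map_mul, twb_psi_X0, twb_psi_X1, twb_psi_X2, twb_psi_C]
      rfl
    rw [this]
    exact Ideal.subset_span rfl
  · have : twb_psi A (X 3 * X 1 - X 4 * X 0) = 0 := by
      rw [map_sub, map_mul, map_mul, twb_psi_X0, twb_psi_X1, twb_psi_X3, twb_psi_X4]
      ring
    rw [this]
    exact Ideal.zero_mem _
  · have : twb_psi A (X 3 * X 2 - X 5 * X 0) = 0 := by
      rw [map_sub, map_mul, map_mul, twb_psi_X0, twb_psi_X2, twb_psi_X3, twb_psi_X5]
      ring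
    rw [this]
    exact Ideal.zero_mem _
  · have : twb_psi A (X 4 * X 2 - X 5 * X 1) = 0 := by
      rw [map_sub, map_mul, map_mul, twb_psi_X1, twb_psi_X2, twb_psi_X4, twb_psi_X5]
      ring
    rw [this]
    exact Ideal.zero_mem _

end Fermat.Agent.TW
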