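import Mathlib
import Fermat.Agent.TW.Loc.ChiDefs
import Fermat.Agent.TW.Loc.Le

/-!
# TW / Loc : B/Dim — the dimension bound for the naive `χ`-ring

`ringKrullDim (A[[u,b,c,v,e,f]] ⧸ twb_Ichi A d) ≤ ringKrullDim A + 3` for a noetherian local
ring `A` in which `2` is a unit and `d` a non-unit.

Route: a system of parameters `s` of `A` together with the three elements
`v - b, e - c, f - u` cut the quotient down to a ring with a single prime
(`2u² = d`, `b² = cu`, `c² = ub` there), and Krull's height theorem in the form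
`ringKrullDim_le_ringKrullDim_quotient_add_card` does the rest.
-/

namespace Fermat.Agent.TW

open MvPowerSeries IsLocalRing

section general

variable {R : Type*} [CommRing R]

/-- A noetherian local ring in which the maximal ideal is the only prime containing the finite
set `s` has dimension at most `#s`. -/
theorem twb_dim_le_card_of_primes [IsNoetherianRing R] [IsLocalRing R] (s : Finset R)
    (hs : (s : Set R) ⊆ maximalIdeal R)
    (h : ∀ P : Ideal R, P.IsPrime → (s : Set R) ⊆ P → maximalIdeal R ≤ P) :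
    ringKrullDim R ≤ (s.card : ℕ) := by
  have h1 := ringKrullDim_le_ringKrullDim_quotient_add_card s
    (by rwa [← Ideal.jacobson_bot, IsLocalRing.jacobson_eq_maximalIdeal ⊥ bot_ne_top])
  have h0 : Ring.KrullDimLE 0 (R ⧸ Ideal.span (s : Set R)) := by
    rw [Ring.krullDimLE_zero_iff]
    intro J hJ
    have hP : (J.comap (Ideal.Quotient.mk (Ideal.span (s : Set R)))).IsPrime := hJ.comap _
    have hsP : (s : Set R) ⊆ J.comap (Ideal.Quotient.mk (Ideal.span (s : Set R))) := by
      intro x hx
      have : Ideal.Quotient.mk (Ideal.span (s : Set R)) x = 0 :=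
        Ideal.Quotient.eq_zero_iff_mem.mpr (Ideal.subset_span hx)
      simp only [SetLike.mem_coe, Ideal.mem_comap, this, zero_mem]
    have hm := h _ hP hsP
    have heq : J.comap (Ideal.Quotient.mk (Ideal.span (s : Set R))) = maximalIdeal R :=
      le_antisymm (le_maximalIdeal hP.ne_top) hm
    have hmax : (J.comap (Ideal.Quotient.mk (Ideal.span (s : Set R)))).IsMaximal := by
      rw [heq]; exact maximalIdeal.isMaximal R
    have := Ideal.map_eq_top_or_isMaximal_of_surjective
      (Ideal.Quotient.mk (Ideal.span (s : Set R))) Ideal.Quotient.mk_surjective hmax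
    rw [Ideal.map_comap_of_surjective _ Ideal.Quotient.mk_surjective] at this
    exact this.resolve_left hJ.ne_top
  have h2 : ringKrullDim (R ⧸ Ideal.span (s : Set R)) ≤ 0 := by
    have := Ring.krullDimLE_iff.mp h0
    simpa using this
  calc ringKrullDim R ≤ ringKrullDim (R ⧸ Ideal.span (s : Set R)) + s.card := h1
    _ ≤ 0 + s.card := by gcongr
    _ = (s.card : ℕ) := by simp

/-- The same for a quotient `R ⧸ I`, with the primes of `R` containing `I`. -/
theorem twb_dim_quot_le_card_of_primes [IsNoetherianRing R] [IsLocalRing R] (I : Ideal R)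
    (s : Finset R) (hs : (s : Set R) ⊆ maximalIdeal R)
    (h : ∀ P : Ideal R, P.IsPrime → I ≤ P → (s : Set R) ⊆ P → maximalIdeal R ≤ P) :
    ringKrullDim (R ⧸ I) ≤ (s.card : ℕ) := by
  classical
  by_cases hI : I = ⊤
  · subst hI
    have : Subsingleton (R ⧸ (⊤ : Ideal R)) := Ideal.Quotient.subsingleton_iff.mpr rfl
    rw [ringKrullDim_eq_bot_of_subsingleton]
    exact bot_le
  have hnt : Nontrivial (R ⧸ I) := Ideal.Quotient.nontrivial_iff.mpr hI
  have hloc : IsLocalRing (R ⧸ I) :=
    IsLocalRing.of_surjective' (Ideal.Quotient.mk I) Ideal.Quotient.mk_surjective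
  have hmk : ∀ x : R, Ideal.Quotient.mk I x ∈ maximalIdeal (R ⧸ I) → x ∈ maximalIdeal R := by
    intro x hx
    rw [mem_maximalIdeal, mem_nonunits_iff] at hx ⊢
    exact fun hu => hx (hu.map _)
  have hmk' : ∀ x : R, x ∈ maximalIdeal R → Ideal.Quotient.mk I x ∈ maximalIdeal (R ⧸ I) := by
    intro x hx
    have hIm : I ≤ maximalIdeal R := le_maximalIdeal hI
    rw [mem_maximalIdeal, mem_nonunits_iff]
    intro hu
    obtain ⟨y, hy⟩ := hu.exists_right_inv
    obtain ⟨y, rfl⟩ := Ideal.Quotient.mk_surjective y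
    rw [← map_mul, ← map_one (Ideal.Quotient.mk I), Ideal.Quotient.eq] at hy
    have h1 : x * y - 1 ∈ maximalIdeal R := hIm hy
    have h2 : x * y ∈ maximalIdeal R := Ideal.mul_mem_right _ _ hx
    have h3 : (1 : R) ∈ maximalIdeal R := by
      have h4 := sub_mem h2 h1
      rwa [sub_sub_cancel] at h4
    exact (maximalIdeal.isMaximal R).ne_top ((Ideal.eq_top_iff_one _).mpr h3)
  have key := twb_dim_le_card_of_primes (R := R ⧸ I) (s.image (Ideal.Quotient.mk I))
    (by
      intro y hy
      simp only [Finset.coe_image, Set.mem_image, Finset.mem_coe] at hy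
      obtain ⟨x, hx, rfl⟩ := hy
      exact hmk' x (hs hx))
    (by
      intro P hP hsP y hy
      obtain ⟨x, rfl⟩ := Ideal.Quotient.mk_surjective y
      have hx := hmk x hy
      have hP' : (P.comap (Ideal.Quotient.mk I)).IsPrime := hP.comap _
      have hIP : I ≤ P.comap (Ideal.Quotient.mk I) := by
        intro z hz
        simp only [Ideal.mem_comap, Ideal.Quotient.eq_zero_iff_mem.mpr hz, zero_mem]
      have hsP' : (s : Set R) ⊆ P.comap (Ideal.Quotient.mk I) := by
        intro z hz
        simp only [SetLike.mem_coe, Ideal.mem_comap]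
        exact hsP (by simp only [Finset.coe_image, Set.mem_image, Finset.mem_coe]; exact ⟨z, hz, rfl⟩)
      exact h _ hP' hIP hsP' hx)
  refine key.trans ?_
  exact_mod_cast Finset.card_image_le

/-- A system of parameters of a noetherian local ring. -/
theorem twb_dim_exists_sop (A : Type*) [CommRing A] [IsNoetherianRing A] [IsLocalRing A] :
    ∃ s : Finset A, (s : Set A) ⊆ maximalIdeal A ∧
      ((s.card : ℕ) : WithBot ℕ∞) = ringKrullDim A ∧
      ∀ P : Ideal A, P.IsPrime → (s : Set A) ⊆ P → maximalIdeal A ≤ P := by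
  obtain ⟨s, hmin, hcard⟩ :=
    Ideal.exists_finset_card_eq_height_of_isNoetherianRing (maximalIdeal A)
  refine ⟨s, ?_, ?_, ?_⟩
  · intro x hx
    exact hmin.1.2 (Ideal.subset_span hx)
  · rw [← IsLocalRing.maximalIdeal_height_eq_ringKrullDim, ← hcard]
    rfl
  · intro P hP hsP
    exact hmin.2 ⟨hP, Ideal.span_le.mpr hsP⟩ (le_maximalIdeal hP.ne_top)

end general

section restrict

variable {σ : Type*} {A : Type*} [CommRing A]

open Classical in
/-- Kill the monomials involving a variable of `T`. -/
noncomputable def twb_dim_res (T : Finset σ) (f : MvPowerSeries σ A) : MvPowerSeries σ A :=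
  fun m => if ∀ s ∈ T, m s = 0 then coeff m f else 0

theorem twb_dim_coeff_res (T : Finset σ) (f : MvPowerSeries σ A) (m : σ →₀ ℕ) :
    coeff m (twb_dim_res T f) = if ∀ s ∈ T, m s = 0 then coeff m f else 0 := by
  classical
  rfl

theorem twb_dim_sub_res_mem (P : Ideal (MvPowerSeries σ A)) (T : Finset σ)
    (hT : ∀ i ∈ T, (X i : MvPowerSeries σ A) ∈ P) (f : MvPowerSeries σ A) :
    f - twb_dim_res T f ∈ P := by
  classical
  induction T using Finset.induction_on with
  | empty =>
    have : twb_dim_res (∅ : Finset σ) f = f := by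
      ext m
      rw [twb_dim_coeff_res]
      simp
    rw [this, sub_self]
    exact zero_mem _
  | insert a T ha ih =>
    have h1 : f - twb_dim_res T f ∈ P := ih fun i hi => hT i (Finset.mem_insert_of_mem hi)
    have h2 : (X a : MvPowerSeries σ A) ∣ twb_dim_res T f - twb_dim_res (insert a T) f := by
      rw [X_dvd_iff]
      intro m hm
      rw [map_sub, twb_dim_coeff_res, twb_dim_coeff_res]
      have : (∀ s ∈ insert a T, m s = 0) ↔ ∀ s ∈ T, m s = 0 := by
        simp only [Finset.mem_insert, forall_eq_or_imp, hm, true_and]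
      simp only [this, sub_self]
    have h3 : twb_dim_res T f - twb_dim_res (insert a T) f ∈ P := by
      obtain ⟨g, hg⟩ := h2
      rw [hg]
      exact Ideal.mul_mem_right _ _ (hT a (Finset.mem_insert_self a T))
    have := add_mem h1 h3
    simpa using this

/-- An ideal containing all the variables contains `f - C (constantCoeff f)`. -/
theorem twb_dim_sub_C_mem [Fintype σ] (P : Ideal (MvPowerSeries σ A))
    (hX : ∀ i, (X i : MvPowerSeries σ A) ∈ P) (f : MvPowerSeries σ A) :
    f - C (constantCoeff f) ∈ P := by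
  classical
  have h := twb_dim_sub_res_mem P Finset.univ (fun i _ => hX i) f
  have : twb_dim_res Finset.univ f = C (constantCoeff f) := by
    ext m
    rw [twb_dim_coeff_res, coeff_C]
    by_cases hm : m = 0
    · subst hm
      simp
    · rw [if_neg hm, if_neg]
      intro h0
      exact hm (Finsupp.ext fun s => h0 s (Finset.mem_univ s))
  rwa [this] at h

/-- The maximal ideal of a power series ring over a local ring is the only prime containing
the variables and the maximal ideal of the coefficients. -/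
theorem twb_dim_maximalIdeal_le [Fintype σ] [IsLocalRing A] (P : Ideal (MvPowerSeries σ A))
    (hX : ∀ i, (X i : MvPowerSeries σ A) ∈ P)
    (hC : ∀ a ∈ maximalIdeal A, (C a : MvPowerSeries σ A) ∈ P) :
    maximalIdeal (MvPowerSeries σ A) ≤ P := by
  intro f hf
  have h1 := twb_dim_sub_C_mem P hX f
  have h2 : (C (constantCoeff f) : MvPowerSeries σ A) ∈ P := by
    apply hC
    rw [mem_maximalIdeal, mem_nonunits_iff] at hf ⊢
    intro hu
    exact hf (MvPowerSeries.isUnit_iff_constantCoeff.mpr hu)
  have := add_mem h1 h2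
  simpa using this

end restrict

section main

variable (A : Type*) [CommRing A]

/-- **B/Dim.** The naive `χ`-ring has dimension at most `dim A + 3`. -/
theorem twb_dim_quot_Ichi_le [IsNoetherianRing A] [IsLocalRing A] (h2 : IsUnit (2 : A)) {d : A}
    (hd : d ∈ maximalIdeal A) :
    ringKrullDim (MvPowerSeries (Fin 6) A ⧸ twb_Ichi A d) ≤ ringKrullDim A + 3 := by
  classical
  obtain ⟨sA, hsA, hcard, hprime⟩ := twb_dim_exists_sop A
  let t : Finset (MvPowerSeries (Fin 6) A) :=
    sA.image (C (σ := Fin 6) (R := A)) ∪ {X 3 - X 1, X 4 - X 2, X 5 - X 0}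
  have hCmem : ∀ a ∈ maximalIdeal A, (C a : MvPowerSeries (Fin 6) A) ∈
      maximalIdeal (MvPowerSeries (Fin 6) A) := by
    intro a ha
    rw [mem_maximalIdeal, mem_nonunits_iff] at ha ⊢
    intro hu
    apply ha
    have := MvPowerSeries.isUnit_iff_constantCoeff.mp hu
    simpa using this
  have hXmem : ∀ i : Fin 6, (X i : MvPowerSeries (Fin 6) A) ∈
      maximalIdeal (MvPowerSeries (Fin 6) A) := by
    intro i
    rw [mem_maximalIdeal, mem_nonunits_iff]
    intro hu
    have := MvPowerSeries.isUnit_iff_constantCoeff.mp hu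
    rw [constantCoeff_X] at this
    exact not_isUnit_zero this
  have ht : (t : Set (MvPowerSeries (Fin 6) A)) ⊆ maximalIdeal (MvPowerSeries (Fin 6) A) := by
    intro x hx
    simp only [t, Finset.coe_union, Finset.coe_image, Finset.coe_insert, Finset.coe_singleton,
      Set.mem_union, Set.mem_image, Finset.mem_coe, Set.mem_insert_iff,
      Set.mem_singleton_iff] at hx
    rcases hx with ⟨a, ha, rfl⟩ | rfl | rfl | rfl
    · exact hCmem a (hsA ha)
    · exact sub_mem (hXmem _) (hXmem _)
    · exact sub_mem (hXmem _) (hXmem _)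
    · exact sub_mem (hXmem _) (hXmem _)
  have key := twb_dim_quot_le_card_of_primes (twb_Ichi A d) t ht (by
    intro P hP hIP htP
    -- the contraction of `P` to `A` is the maximal ideal
    have hPc : (P.comap (C (σ := Fin 6) (R := A))).IsPrime := hP.comap _
    have hmA : maximalIdeal A ≤ P.comap (C (σ := Fin 6) (R := A)) := by
      apply hprime _ hPc
      intro a ha
      simp only [SetLike.mem_coe, Ideal.mem_comap]
      apply htP
      simp only [t, Finset.coe_union, Finset.coe_image, Set.mem_union, Set.mem_image,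
        Finset.mem_coe]
      exact Or.inl ⟨a, ha, rfl⟩
    have hC : ∀ a ∈ maximalIdeal A, (C a : MvPowerSeries (Fin 6) A) ∈ P := fun a ha => hmA ha
    have e1 : (X 3 - X 1 : MvPowerSeries (Fin 6) A) ∈ P := htP (by simp [t])
    have e2 : (X 4 - X 2 : MvPowerSeries (Fin 6) A) ∈ P := htP (by simp [t])
    have e3 : (X 5 - X 0 : MvPowerSeries (Fin 6) A) ∈ P := htP (by simp [t])
    have g1 : (X 0 ^ 2 + X 1 * X 2 - C d : MvPowerSeries (Fin 6) A) ∈ P :=
      hIP (Ideal.subset_span (by simp))
    have g2 : (X 3 * X 1 - X 4 * X 0 : MvPowerSeries (Fin 6) A) ∈ P :=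
      hIP (Ideal.subset_span (by simp))
    have g3 : (X 3 * X 2 - X 5 * X 0 : MvPowerSeries (Fin 6) A) ∈ P :=
      hIP (Ideal.subset_span (by simp))
    have g4 : (X 4 * X 2 - X 5 * X 1 : MvPowerSeries (Fin 6) A) ∈ P :=
      hIP (Ideal.subset_span (by simp))
    have hCd : (C d : MvPowerSeries (Fin 6) A) ∈ P := hC d hd
    -- `2 u² ∈ P`
    have hu2 : (C 2 * X 0 ^ 2 : MvPowerSeries (Fin 6) A) ∈ P := by
      have : (C 2 * X 0 ^ 2 : MvPowerSeries (Fin 6) A) =
          (X 0 ^ 2 + X 1 * X 2 - C d) + C d - (X 3 * X 2 - X 5 * X 0)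
            + (X 3 - X 1) * X 2 - (X 5 - X 0) * X 0 := by
        rw [map_ofNat]; ring
      rw [this]
      exact sub_mem (add_mem (sub_mem (add_mem g1 hCd) g3) (Ideal.mul_mem_right _ _ e1))
        (Ideal.mul_mem_right _ _ e3)
    have hC2 : (C 2 : MvPowerSeries (Fin 6) A) ∉ P := by
      intro hmem
      have hu : IsUnit (C 2 : MvPowerSeries (Fin 6) A) := h2.map C
      exact hP.ne_top (Ideal.eq_top_of_isUnit_mem _ hmem hu)
    have hx0 : (X 0 : MvPowerSeries (Fin 6) A) ∈ P :=
      hP.mem_of_pow_mem 2 ((hP.mem_or_mem hu2).resolve_left hC2)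
    have hx5 : (X 5 : MvPowerSeries (Fin 6) A) ∈ P := by
      have := add_mem e3 hx0
      simpa using this
    have hx1 : (X 1 : MvPowerSeries (Fin 6) A) ∈ P := by
      apply hP.mem_of_pow_mem 2
      have : (X 1 ^ 2 : MvPowerSeries (Fin 6) A) =
          (X 3 * X 1 - X 4 * X 0) - (X 3 - X 1) * X 1 + X 4 * X 0 := by ring
      rw [this]
      exact add_mem (sub_mem g2 (Ideal.mul_mem_right _ _ e1)) (Ideal.mul_mem_left _ _ hx0)
    have hx3 : (X 3 : MvPowerSeries (Fin 6) A) ∈ P := by
      have := add_mem e1 hx1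
      simpa using this
    have hx2 : (X 2 : MvPowerSeries (Fin 6) A) ∈ P := by
      apply hP.mem_of_pow_mem 2
      have : (X 2 ^ 2 : MvPowerSeries (Fin 6) A) =
          (X 4 * X 2 - X 5 * X 1) - (X 4 - X 2) * X 2 + X 5 * X 1 := by ring
      rw [this]
      exact add_mem (sub_mem g4 (Ideal.mul_mem_right _ _ e2)) (Ideal.mul_mem_left _ _ hx1)
    have hx4 : (X 4 : MvPowerSeries (Fin 6) A) ∈ P := by
      have := add_mem e2 hx2
      simpa using this
    apply twb_dim_maximalIdeal_le P _ hC
    intro i
    fin_cases i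
    · exact hx0
    · exact hx1
    · exact hx2
    · exact hx3
    · exact hx4
    · exact hx5)
  refine key.trans ?_
  have hle : t.card ≤ sA.card + 3 := by
    refine (Finset.card_union_le _ _).trans ?_
    refine add_le_add Finset.card_image_le ?_
    exact Finset.card_le_three
  rw [← hcard]
  exact_mod_cast hle

/-- Corollary for the `χ`-ring itself (given B/Le). -/
theorem twb_dim_Rchi_le_of_le [IsNoetherianRing A] [IsLocalRing A] (h2 : IsUnit (2 : A)) {d : A}
    (hd : d ∈ maximalIdeal A) (hle : twb_Ichi A d ≤ twb_K A d) :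
    ringKrullDim (twb_Rchi A d) ≤ ringKrullDim A + 3 :=
  (ringKrullDim_le_of_surjective (Ideal.Quotient.factor hle)
    (Ideal.Quotient.factor_surjective hle)).trans (twb_dim_quot_Ichi_le A h2 hd)

/-- **B/Dim, corollary.** The `χ`-ring has dimension at most `dim A + 3`. -/
theorem twb_dim_Rchi_le [IsNoetherianRing A] [IsLocalRing A] (h2 : IsUnit (2 : A)) {d : A}
    (hd : d ∈ maximalIdeal A) : ringKrullDim (twb_Rchi A d) ≤ ringKrullDim A + 3 :=
  twb_dim_Rchi_le_of_le A h2 hd (twb_Ichi_le_K A d)

end main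

end Fermat.Agent.TW
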