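import Mathlib

/-!
# TW / Loc : monomial substitutions of multivariate power series

For a substitution `a : σ → MvPowerSeries τ R` by MONOMIALS `a s = monomial (E₀ s) 1`:
* `twb_coeff_subst_monomial` : `coeff e (subst a f) = ∑ᶠ m, if E m = e then coeff m f else 0`,
  `E m = ∑ s, m s • E₀ s` the induced map on exponents;
* `twb_subst_wHC` : such a substitution is GRADED for compatible weights:
  `subst a (weightedHomogeneousComponent w n f) = weightedHomogeneousComponent w' n (subst a f)`.
-/

namespace Fermat.Agent.TW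

open MvPowerSeries

variable {σ τ R : Type*} [CommRing R]

/-- The map on exponents induced by a monomial substitution. -/
noncomputable def twb_expMap (E₀ : σ → (τ →₀ ℕ)) (m : σ →₀ ℕ) : τ →₀ ℕ :=
  m.sum fun s k => k • E₀ s

theorem twb_weight_expMap (E₀ : σ → (τ →₀ ℕ)) (w : σ → ℕ) (w' : τ → ℕ)
    (hw : ∀ s, Finsupp.weight w' (E₀ s) = w s) (m : σ →₀ ℕ) :
    Finsupp.weight w' (twb_expMap E₀ m) = Finsupp.weight w m := by
  classical
  rw [twb_expMap, Finsupp.sum, map_sum, Finsupp.weight_apply w m, Finsupp.sum]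
  refine Finset.sum_congr rfl fun s _ => ?_
  rw [map_nsmul, hw]

theorem twb_prod_monomial_pow (E₀ : σ → (τ →₀ ℕ)) (m : σ →₀ ℕ) :
    (m.prod fun s k => (monomial (E₀ s) (1 : R)) ^ k) = monomial (twb_expMap E₀ m) 1 := by
  classical
  rw [Finsupp.prod, twb_expMap, Finsupp.sum]
  have : ∀ s ∈ m.support, (monomial (E₀ s) (1 : R)) ^ (m s) = monomial (m s • E₀ s) 1 := by
    intro s _
    rw [monomial_pow, one_pow]
  rw [Finset.prod_congr rfl this, prod_monomial]
  simp

open scoped Classical in
theorem twb_coeff_subst_monomial {a : σ → MvPowerSeries τ R} (ha : HasSubst a)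
    (E₀ : σ → (τ →₀ ℕ)) (hmon : ∀ s, a s = monomial (E₀ s) 1) (f : MvPowerSeries σ R)
    (e : τ →₀ ℕ) :
    coeff e (subst a f) = finsum fun m : σ →₀ ℕ => if twb_expMap E₀ m = e then coeff m f else 0 := by
  classical
  rw [coeff_subst ha]
  refine finsum_congr fun m => ?_
  have h1 : (m.prod fun s k => (a s) ^ k) = monomial (twb_expMap E₀ m) (1 : R) := by
    rw [← twb_prod_monomial_pow]
    refine Finsupp.prod_congr fun s _ => ?_
    rw [hmon]
  rw [h1, coeff_monomial]
  by_cases h2 : twb_expMap E₀ m = e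
  · rw [if_pos h2, if_pos h2.symm]; simp
  · rw [if_neg h2, if_neg (fun h => h2 h.symm)]; simp

/-- A monomial substitution is graded for compatible weights. -/
theorem twb_subst_wHC {a : σ → MvPowerSeries τ R} (ha : HasSubst a)
    (E₀ : σ → (τ →₀ ℕ)) (hmon : ∀ s, a s = monomial (E₀ s) 1) (w : σ → ℕ) (w' : τ → ℕ)
    (hw : ∀ s, Finsupp.weight w' (E₀ s) = w s) (n : ℕ) (f : MvPowerSeries σ R) :
    subst a (weightedHomogeneousComponent w n f) =
      weightedHomogeneousComponent w' n (subst a f) := by
  classical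
  ext e
  rw [twb_coeff_subst_monomial ha E₀ hmon, coeff_weightedHomogeneousComponent,
    twb_coeff_subst_monomial ha E₀ hmon]
  by_cases hn : Finsupp.weight w' e = n
  · rw [if_pos hn]
    refine finsum_congr fun m => ?_
    by_cases hm : twb_expMap E₀ m = e
    · rw [if_pos hm, if_pos hm, coeff_weightedHomogeneousComponent, if_pos]
      rw [← twb_weight_expMap E₀ w w' hw, hm, hn]
    · rw [if_neg hm, if_neg hm]
  · rw [if_neg hn]
    have : (fun m : σ →₀ ℕ => if twb_expMap E₀ m = e then
        coeff m (weightedHomogeneousComponent w n f) else 0) = fun _ => 0 := by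
      funext m
      by_cases hm : twb_expMap E₀ m = e
      · rw [if_pos hm, coeff_weightedHomogeneousComponent, if_neg]
        rw [← twb_weight_expMap E₀ w w' hw, hm]
        exact hn
      · rw [if_neg hm]
    rw [this, finsum_zero]

end Fermat.Agent.TW
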