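import Mathlib

/-!
# TW / Loc : order, powers of the variable ideal, and ring homs out of power series rings

* `twb_mem_pow_of_le_order` : `n ≤ order f → f ∈ (span (range X)) ^ n` (finitely many variables);
* `twb_map_mem_pow` : a ring hom to a local ring sending the variables into the maximal ideal
  sends series of order `≥ n` into `𝔪 ^ n`;
* `twb_ringHom_ext_of_local` : two ring homs `A[[σ]] → D` (`D` noetherian local) that agree on
  constants and variables (variables going to `𝔪_D`) are equal;
* `twb_map_eq_zero_of_forall` : `φ f = 0` as soon as `φ` kills all weighted homogeneous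
  components of `f` (for a weight `w` with `w ≤ degree`, e.g. `0/1`-weights).
-/

namespace Fermat.Agent.TW

open MvPowerSeries IsLocalRing

variable {σ A : Type*} [CommRing A]

section decomposition

variable [Fintype σ]

open scoped Classical in
/-- A chosen index of the support of a nonzero exponent. -/
noncomputable def twb_pick (m : σ →₀ ℕ) : Option σ :=
  if h : ∃ i, m i ≠ 0 then some (Classical.choose h) else none

theorem twb_pick_some {m : σ →₀ ℕ} {i : σ} (h : twb_pick m = some i) : m i ≠ 0 := by
  unfold twb_pick at h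
  split_ifs at h with h'
  · have := Classical.choose_spec h'
    rw [Option.some.injEq] at h
    rwa [h] at this

theorem twb_pick_none {m : σ →₀ ℕ} (h : twb_pick m = none) : m = 0 := by
  unfold twb_pick at h
  split_ifs at h with h'
  ext i
  by_contra hi
  exact h' ⟨i, hi⟩

open scoped Classical in
/-- The `i`-th part of `f` (so that `f = ∑ i, X i * twb_part f i` when `f` has no constant term). -/
noncomputable def twb_part (f : MvPowerSeries σ A) (i : σ) : MvPowerSeries σ A :=
  fun m' => if twb_pick (m' + Finsupp.single i 1) = some i then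
    coeff (m' + Finsupp.single i 1) f else 0

open scoped Classical in
theorem twb_coeff_part (f : MvPowerSeries σ A) (i : σ) (m' : σ →₀ ℕ) :
    coeff m' (twb_part f i) = if twb_pick (m' + Finsupp.single i 1) = some i then
      coeff (m' + Finsupp.single i 1) f else 0 := rfl

theorem twb_eq_sum_X_mul_part (f : MvPowerSeries σ A) (hf : coeff 0 f = 0) :
    f = ∑ i, X i * twb_part f i := by
  classical
  ext m
  rw [map_sum]
  have hterm : ∀ i, coeff m (X i * twb_part f i) =
      if twb_pick m = some i then coeff m f else 0 := by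
    intro i
    rw [X_def, coeff_monomial_mul, one_mul]
    by_cases hle : Finsupp.single i 1 ≤ m
    · rw [if_pos hle, twb_coeff_part, tsub_add_cancel_of_le hle]
    · rw [if_neg hle, if_neg]
      intro hp
      apply hle
      have := twb_pick_some hp
      intro j
      by_cases hj : j = i
      · subst hj
        simp only [Finsupp.single_eq_same]
        omega
      · simp [Finsupp.single_eq_of_ne hj]
  simp_rw [hterm]
  cases hp : twb_pick m with
  | none =>
    have := twb_pick_none hp
    subst this
    simp [hf]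
  | some i₀ =>
    rw [Finset.sum_eq_single i₀]
    · simp
    · intro b _ hb
      rw [if_neg]
      intro h
      exact hb (Option.some.inj h).symm
    · intro h
      exact absurd (Finset.mem_univ _) h

theorem twb_le_order_part (f : MvPowerSeries σ A) (i : σ) (n : ℕ)
    (h : ((n + 1 : ℕ) : ℕ∞) ≤ f.order) : (n : ℕ∞) ≤ (twb_part f i).order := by
  classical
  apply nat_le_order
  intro d hd
  rw [twb_coeff_part]
  split_ifs
  · apply coeff_of_lt_order
    refine lt_of_lt_of_le ?_ h
    have : Finsupp.degree (d + Finsupp.single i 1) = Finsupp.degree d + 1 := by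
      rw [map_add, Finsupp.degree_single]
    rw [this]
    exact_mod_cast Nat.add_lt_add_right hd 1
  · rfl

theorem twb_mem_pow_of_le_order_aux (n : ℕ) : ∀ (f : MvPowerSeries σ A), (n : ℕ∞) ≤ f.order →
    f ∈ (Ideal.span (Set.range (X : σ → MvPowerSeries σ A))) ^ n := by
  induction n with
  | zero => intro f _; simp
  | succ n ih =>
    intro f hf
    have h0 : coeff 0 f = 0 := by
      apply coeff_of_lt_order
      refine lt_of_lt_of_le ?_ hf
      simp
    rw [twb_eq_sum_X_mul_part f h0, pow_succ']
    refine Ideal.sum_mem _ fun i _ => ?_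
    exact Ideal.mul_mem_mul (Ideal.subset_span ⟨i, rfl⟩) (ih _ (twb_le_order_part f i n hf))

end decomposition

/-- `n ≤ order f → f ∈ (X) ^ n`. -/
theorem twb_mem_pow_of_le_order [Finite σ] (f : MvPowerSeries σ A) (n : ℕ)
    (h : (n : ℕ∞) ≤ f.order) : f ∈ (Ideal.span (Set.range (X : σ → MvPowerSeries σ A))) ^ n := by
  classical
  have := Fintype.ofFinite σ
  exact twb_mem_pow_of_le_order_aux n f h

/-- Continuity of ring homs to local rings. -/
theorem twb_map_mem_pow [Finite σ] {D : Type*} [CommRing D] [IsLocalRing D]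
    (φ : MvPowerSeries σ A →+* D) (hm : ∀ i, φ (X i) ∈ maximalIdeal D) (f : MvPowerSeries σ A)
    (n : ℕ) (h : (n : ℕ∞) ≤ f.order) : φ f ∈ maximalIdeal D ^ n := by
  have h1 := twb_mem_pow_of_le_order f n h
  have h2 : φ f ∈ ((Ideal.span (Set.range (X : σ → MvPowerSeries σ A))) ^ n).map φ :=
    Ideal.mem_map_of_mem φ h1
  rw [Ideal.map_pow] at h2
  refine Ideal.pow_right_mono ?_ n h2
  rw [Ideal.map_span, Ideal.span_le]
  rintro _ ⟨_, ⟨i, rfl⟩, rfl⟩
  exact hm i

/-- `f` minus its truncation has large order. -/
theorem twb_le_order_sub_truncTotal [Finite σ] (f : MvPowerSeries σ A) (n : ℕ) :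
    (n : ℕ∞) ≤ (f - ((truncTotal n f : MvPolynomial σ A) : MvPowerSeries σ A)).order := by
  apply nat_le_order
  intro d hd
  rw [map_sub, MvPolynomial.coeff_coe, coeff_truncTotal _ hd, sub_self]

/-- Ring homs out of a power series ring into a noetherian local ring are determined by their
values on constants and variables. -/
theorem twb_ringHom_ext_of_local [Finite σ] {D : Type*} [CommRing D] [IsNoetherianRing D]
    [IsLocalRing D] (φ₁ φ₂ : MvPowerSeries σ A →+* D) (hC : ∀ a, φ₁ (C a) = φ₂ (C a))
    (hX : ∀ i, φ₁ (X i) = φ₂ (X i)) (hm : ∀ i, φ₁ (X i) ∈ maximalIdeal D) : φ₁ = φ₂ := by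
  have hm2 : ∀ i, φ₂ (X i) ∈ maximalIdeal D := fun i => hX i ▸ hm i
  have hpoly : ∀ p : MvPolynomial σ A, φ₁ (p : MvPowerSeries σ A) = φ₂ (p : MvPowerSeries σ A) := by
    intro p
    have : φ₁.comp (MvPolynomial.coeToMvPowerSeries.ringHom) =
        φ₂.comp (MvPolynomial.coeToMvPowerSeries.ringHom) := by
      apply MvPolynomial.ringHom_ext
      · intro a; simpa using hC a
      · intro i; simpa using hX i
    exact congrArg (fun ψ => ψ p) this
  ext f
  have hmem : ∀ n : ℕ, φ₁ f - φ₂ f ∈ maximalIdeal D ^ n := by
    intro n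
    have h1 := twb_map_mem_pow φ₁ hm _ n (twb_le_order_sub_truncTotal f n)
    have h2 := twb_map_mem_pow φ₂ hm2 _ n (twb_le_order_sub_truncTotal f n)
    have : φ₁ f - φ₂ f = φ₁ (f - ((truncTotal n f : MvPolynomial σ A) : MvPowerSeries σ A)) -
        φ₂ (f - ((truncTotal n f : MvPolynomial σ A) : MvPowerSeries σ A)) := by
      rw [map_sub, map_sub, hpoly]; ring
    rw [this]
    exact Ideal.sub_mem _ h1 h2
  have hbot : φ₁ f - φ₂ f ∈ (⨅ i : ℕ, maximalIdeal D ^ i : Ideal D) := by
    rw [Ideal.mem_iInf]; exact hmem
  rw [Ideal.iInf_pow_eq_bot_of_isLocalRing _ (Ideal.IsPrime.ne_top inferInstance)] at hbot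
  exact sub_eq_zero.mp hbot

end Fermat.Agent.TW
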