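import Fermat.Agent.TW.Loc.ChiDefs
import Fermat.Agent.TW.Loc.MonoSubst
import Fermat.Agent.TW.Loc.OrderMem

/-!
# TW / Loc : B/Factor — the universal property of `twb_K` for local domains

`twb_K_le_ker`: a ring hom `φ : A[[u,b,c,v,e,f]] → D` to a noetherian local DOMAIN, sending the
variables into `𝔪_D`, killing the naive `χ`-relations `twb_Ichi A d` and with `φ (C d) ≠ 0`,
kills the prime ideal `twb_K A d`.  Hence every such point factors through `twb_Rchi A d`; by
embedding a reduced `λ`-torsion-free noetherian local ring into the product of its domain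
quotients, so does every Hecke algebra.

Proof: `twb_K` is `F`-homogeneous (`twb_wHC_mem_K`); for an `F`-homogeneous `a_n ∈ twb_K` of
degree `n` and `s₀ = φ (S_{i₀}) ≠ 0`:  `s₀ ^ n * φ a_n = φ (σ₁ a_n) = φ (θ (ψ a_n)) = 0`, where
`σ₁ : F ↦ S_{i₀} F` and `θ ∘ ψ : F ↦ F_{i₀} S` agree after `φ` on the variables (the minors!),
hence everywhere (`twb_ringHom_ext_of_local`), and `θ (ψ a_n) ∈ (u² + bc - d)`.  Finally
`φ a = 0` because `φ` is continuous (`twb_map_eq_zero_of_wHC`).
-/

namespace Fermat.Agent.TW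

open MvPowerSeries IsLocalRing

section general

variable {σ R : Type*} [CommRing R]

/-- Multiplication by a weight-`0` homogeneous series commutes with taking homogeneous components. -/
theorem twb_wHC_mul_of_homog_zero (w : σ → ℕ) {g : MvPowerSeries σ R}
    (hg : g.IsWeightedHomogeneous w 0) (n : ℕ) (h : MvPowerSeries σ R) :
    weightedHomogeneousComponent w n (g * h) = g * weightedHomogeneousComponent w n h := by
  classical
  ext e
  rw [coeff_weightedHomogeneousComponent, coeff_mul, coeff_mul]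
  by_cases hn : Finsupp.weight w e = n
  · rw [if_pos hn]
    refine Finset.sum_congr rfl fun x hx => ?_
    have hx := Finset.HasAntidiagonal.mem_antidiagonal.mp hx
    by_cases h0 : coeff x.1 g = 0
    · rw [h0, zero_mul, zero_mul]
    · have h1 : Finsupp.weight w x.1 = 0 := hg h0
      have h2 : Finsupp.weight w x.2 = n := by
        rw [← hn, ← hx, map_add, h1, zero_add]
      rw [coeff_weightedHomogeneousComponent, if_pos h2]
  · rw [if_neg hn]
    symm
    refine Finset.sum_eq_zero fun x hx => ?_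
    have hx := Finset.HasAntidiagonal.mem_antidiagonal.mp hx
    by_cases h0 : coeff x.1 g = 0
    · rw [h0, zero_mul]
    · have h1 : Finsupp.weight w x.1 = 0 := hg h0
      have h2 : Finsupp.weight w x.2 ≠ n := by
        intro h2
        apply hn
        rw [← h2, ← hx, map_add, h1, zero_add]
      rw [coeff_weightedHomogeneousComponent, if_neg h2, mul_zero]

/-- The scaling substitution `X s ↦ X i₀ ^ (w s) * X s` multiplies a `w`-homogeneous series of
degree `n` by `X i₀ ^ n`. -/
theorem twb_subst_scale [Finite σ] (w : σ → ℕ) (i₀ : σ) {a : σ → MvPowerSeries σ R}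
    (ha : HasSubst a)
    (hmon : ∀ s, a s = monomial (Finsupp.single s 1 + Finsupp.single i₀ (w s)) 1)
    {f : MvPowerSeries σ R} {n : ℕ} (hf : f.IsWeightedHomogeneous w n) :
    subst a f = X i₀ ^ n * f := by
  classical
  ext e
  rw [twb_coeff_subst_monomial ha _ hmon, X_pow_eq, coeff_monomial_mul, one_mul]
  have hE : ∀ m : σ →₀ ℕ, twb_expMap (fun s => Finsupp.single s 1 + Finsupp.single i₀ (w s)) m =
      m + Finsupp.single i₀ (Finsupp.weight w m) := by
    intro m
    rw [twb_expMap, Finsupp.sum]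
    simp only [smul_add, Finset.sum_add_distrib]
    congr 1
    · conv_rhs => rw [← Finsupp.sum_single m]
      rw [Finsupp.sum]
      refine Finset.sum_congr rfl fun s _ => ?_
      rw [Finsupp.smul_single, smul_eq_mul, mul_one]
    · rw [Finsupp.weight_apply, Finsupp.sum, Finsupp.single_finsetSum]
      refine Finset.sum_congr rfl fun s _ => ?_
      rw [Finsupp.smul_single]
  have hterm : ∀ m : σ →₀ ℕ,
      (if twb_expMap (fun s => Finsupp.single s 1 + Finsupp.single i₀ (w s)) m = e then
        coeff m f else 0) = if m + Finsupp.single i₀ n = e then coeff m f else 0 := by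
    intro m
    by_cases h0 : coeff m f = 0
    · simp [h0]
    · rw [hE, hf h0]
  simp_rw [hterm]
  by_cases hle : Finsupp.single i₀ n ≤ e
  · rw [if_pos hle, finsum_eq_single _ (e - Finsupp.single i₀ n), if_pos (tsub_add_cancel_of_le hle)]
    intro m hm
    rw [if_neg]
    intro h
    apply hm
    rw [← h, add_tsub_cancel_right]
  · rw [if_neg hle]
    apply finsum_eq_zero_of_forall_eq_zero
    intro m
    rw [if_neg]
    intro h
    apply hle
    rw [← h]
    exact le_add_left le_rfl


theorem twb_weight_le_degree (w : σ → ℕ) (hw : ∀ i, w i ≤ 1) (m : σ →₀ ℕ) :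
    Finsupp.weight w m ≤ Finsupp.degree m := by
  classical
  rw [Finsupp.weight_apply, Finsupp.sum, Finsupp.degree_apply]
  refine Finset.sum_le_sum fun i _ => ?_
  rw [smul_eq_mul]
  calc m i * w i ≤ m i * 1 := Nat.mul_le_mul_left _ (hw i)
    _ = m i := mul_one _

/-- A ring hom to a noetherian local ring (variables going to `𝔪`) that kills all the weighted
homogeneous components of `f` (for a `0/1`-weight) kills `f`. -/
theorem twb_map_eq_zero_of_wHC [Finite σ] (w : σ → ℕ) (hw : ∀ i, w i ≤ 1) {D : Type*}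
    [CommRing D] [IsNoetherianRing D] [IsLocalRing D] (φ : MvPowerSeries σ R →+* D)
    (hm : ∀ i, φ (X i) ∈ maximalIdeal D) (f : MvPowerSeries σ R)
    (h : ∀ n, φ (weightedHomogeneousComponent w n f) = 0) : φ f = 0 := by
  classical
  have hmem : ∀ N : ℕ, φ f ∈ maximalIdeal D ^ N := by
    intro N
    have hord : (N : ℕ∞) ≤
        (f - ∑ n ∈ Finset.range N, weightedHomogeneousComponent w n f).order := by
      apply nat_le_order
      intro m hmN
      rw [map_sub, map_sum]
      simp_rw [coeff_weightedHomogeneousComponent]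
      rw [Finset.sum_ite_eq, if_pos, sub_self]
      rw [Finset.mem_range]
      exact lt_of_le_of_lt (twb_weight_le_degree w hw m) hmN
    have h1 := twb_map_mem_pow φ hm _ N hord
    rw [map_sub, map_sum, Finset.sum_eq_zero (fun n _ => h n), sub_zero] at h1
    exact h1
  have hbot : φ f ∈ (⨅ i : ℕ, maximalIdeal D ^ i : Ideal D) := by
    rw [Ideal.mem_iInf]; exact hmem
  rw [Ideal.iInf_pow_eq_bot_of_isLocalRing _ (Ideal.IsPrime.ne_top inferInstance)] at hbot
  exact hbot

end general

section factor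

variable {A : Type*} [CommRing A]

/-- The `F`-weights on `A[[u,b,c,v,e,f]]`. -/
def twb_w6 : Fin 6 → ℕ := ![0, 0, 0, 1, 1, 1]

/-- The `μ`-weight on `A[[u,b,c,μ]]`. -/
def twb_w4 : Fin 4 → ℕ := ![0, 0, 0, 1]

/-- The exponents of the monomials `twb_psiFun`. -/
noncomputable def twb_psiExp : Fin 6 → (Fin 4 →₀ ℕ) :=
  ![Finsupp.single 0 1, Finsupp.single 1 1, Finsupp.single 2 1,
    Finsupp.single 3 1 + Finsupp.single 0 1, Finsupp.single 3 1 + Finsupp.single 1 1,
    Finsupp.single 3 1 + Finsupp.single 2 1]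

theorem twb_psiFun_monomial (s : Fin 6) : twb_psiFun A s = monomial (twb_psiExp s) 1 := by
  fin_cases s <;> simp [twb_psiFun, twb_psiExp, X_def, monomial_mul_monomial]

theorem twb_psiExp_weight (s : Fin 6) : Finsupp.weight twb_w4 (twb_psiExp s) = twb_w6 s := by
  fin_cases s <;> simp [twb_psiExp, twb_w4, twb_w6, Finsupp.weight_single]

theorem twb_psi_apply (f : MvPowerSeries (Fin 6) A) :
    twb_psi A f = subst (twb_psiFun A) f := by
  rw [twb_psi, substAlgHom_apply]

/-- `twb_psi` is graded: `F`-degree on the source, `μ`-degree on the target. -/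
theorem twb_psi_wHC (n : ℕ) (f : MvPowerSeries (Fin 6) A) :
    twb_psi A (weightedHomogeneousComponent twb_w6 n f) =
      weightedHomogeneousComponent twb_w4 n (twb_psi A f) := by
  rw [twb_psi_apply, twb_psi_apply]
  exact twb_subst_wHC (twb_psiFun_hasSubst A) twb_psiExp (twb_psiFun_monomial) twb_w6 twb_w4
    twb_psiExp_weight n f


theorem twb_g4_homog (d : A) : (twb_g4 A d).IsWeightedHomogeneous twb_w4 0 := by
  classical
  intro m hm
  have hg : twb_g4 A d = monomial (Finsupp.single 0 2) 1 +
      monomial (Finsupp.single 1 1 + Finsupp.single 2 1) 1 - monomial 0 d := by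
    rw [twb_g4, X_pow_eq, X_def, X_def, monomial_mul_monomial, mul_one]
    rfl
  rw [hg, map_sub, map_add, coeff_monomial, coeff_monomial, coeff_monomial] at hm
  by_cases h1 : m = Finsupp.single 0 2
  · subst h1; simp [twb_w4, Finsupp.weight_single]
  by_cases h2 : m = Finsupp.single 1 1 + Finsupp.single 2 1
  · subst h2; simp [twb_w4, Finsupp.weight_single]
  by_cases h3 : m = 0
  · subst h3; simp
  · rw [if_neg h1, if_neg h2, if_neg h3] at hm
    simp at hm

/-- `twb_K` is an `F`-homogeneous ideal. -/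
theorem twb_wHC_mem_K {d : A} {a : MvPowerSeries (Fin 6) A} (ha : a ∈ twb_K A d) (n : ℕ) :
    weightedHomogeneousComponent twb_w6 n a ∈ twb_K A d := by
  rw [twb_K, Ideal.mem_comap, Ideal.mem_span_singleton] at ha ⊢
  obtain ⟨h, hh⟩ := ha
  refine ⟨weightedHomogeneousComponent twb_w4 n h, ?_⟩
  rw [twb_psi_wHC, hh, twb_wHC_mul_of_homog_zero twb_w4 (twb_g4_homog d)]

/-- Indices of the `S`-variables. -/
def twb_iS : Fin 3 → Fin 6 := ![0, 1, 2]

/-- Indices of the `F`-variables. -/
def twb_iF : Fin 3 → Fin 6 := ![3, 4, 5]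

/-- The scaling substitution `S ↦ S`, `F ↦ S_{i₀} F`. -/
noncomputable def twb_scaleFun (i₀ : Fin 3) : Fin 6 → MvPowerSeries (Fin 6) A :=
  fun s => monomial (Finsupp.single s 1 + Finsupp.single (twb_iS i₀) (twb_w6 s)) 1

theorem twb_scaleFun_hasSubst (i₀ : Fin 3) : HasSubst (twb_scaleFun (A := A) i₀) := by
  classical
  apply hasSubst_of_constantCoeff_zero
  intro s
  rw [twb_scaleFun, ← coeff_zero_eq_constantCoeff_apply, coeff_monomial, if_neg]
  intro h
  have := congrArg (fun m : Fin 6 →₀ ℕ => m s) h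
  simp at this
  omega

/-- The substitution `(u,b,c,μ) ↦ (u,b,c,F_{i₀})`. -/
noncomputable def twb_thetaFun (i₀ : Fin 3) : Fin 4 → MvPowerSeries (Fin 6) A :=
  ![X 0, X 1, X 2, X (twb_iF i₀)]

theorem twb_thetaFun_hasSubst (i₀ : Fin 3) : HasSubst (twb_thetaFun (A := A) i₀) := by
  apply hasSubst_of_constantCoeff_zero
  intro s
  fin_cases s <;> simp [twb_thetaFun]

theorem twb_scaleFun_S (i₀ : Fin 3) (j : Fin 3) :
    twb_scaleFun (A := A) i₀ (twb_iS j) = X (twb_iS j) := by
  fin_cases j <;> simp [twb_scaleFun, twb_iS, twb_w6, X_def]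

theorem twb_scaleFun_F (i₀ : Fin 3) (j : Fin 3) :
    twb_scaleFun (A := A) i₀ (twb_iF j) = X (twb_iF j) * X (twb_iS i₀) := by
  fin_cases j <;> simp [twb_scaleFun, twb_iF, twb_w6, X_def, monomial_mul_monomial]

end factor

section main

variable {A : Type*} [CommRing A] {D : Type*} [CommRing D] [IsDomain D] [IsNoetherianRing D]
  [IsLocalRing D]

set_option linter.unreachableTactic false in
set_option linter.unusedTactic false in
theorem twb_factor_aux (d : A) (φ : MvPowerSeries (Fin 6) A →+* D)
    (hX : ∀ i, φ (X i) ∈ maximalIdeal D) (hI : twb_Ichi A d ≤ RingHom.ker φ) (i₀ : Fin 3)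
    (hs₀ : φ (X (twb_iS i₀)) ≠ 0) : twb_K A d ≤ RingHom.ker φ := by
  have hg : φ (X 0 ^ 2 + X 1 * X 2 - C d) = 0 :=
    hI (Ideal.subset_span (by simp))
  have hm1 : φ (X 3 * X 1 - X 4 * X 0) = 0 := hI (Ideal.subset_span (by simp))
  have hm2 : φ (X 3 * X 2 - X 5 * X 0) = 0 := hI (Ideal.subset_span (by simp))
  have hm3 : φ (X 4 * X 2 - X 5 * X 1) = 0 := hI (Ideal.subset_span (by simp))
  have hm1' : φ (X 3) * φ (X 1) - φ (X 4) * φ (X 0) = 0 := by simpa using hm1
  have hm2' : φ (X 3) * φ (X 2) - φ (X 5) * φ (X 0) = 0 := by simpa using hm2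
  have hm3' : φ (X 4) * φ (X 2) - φ (X 5) * φ (X 1) = 0 := by simpa using hm3
  set σ₁ : MvPowerSeries (Fin 6) A →ₐ[A] MvPowerSeries (Fin 6) A :=
    substAlgHom (twb_scaleFun_hasSubst (A := A) i₀) with hσ₁
  set θ : MvPowerSeries (Fin 4) A →ₐ[A] MvPowerSeries (Fin 6) A :=
    substAlgHom (twb_thetaFun_hasSubst (A := A) i₀) with hθ
  have hCalg : ∀ a : A, (C a : MvPowerSeries (Fin 6) A) = algebraMap A _ a := fun a => rfl
  have hCalg4 : ∀ a : A, (C a : MvPowerSeries (Fin 4) A) = algebraMap A _ a := fun a => rfl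
  have hσS : ∀ j : Fin 3, σ₁ (X (twb_iS j)) = X (twb_iS j) := by
    intro j; rw [hσ₁, substAlgHom_X, twb_scaleFun_S]
  have hσF : ∀ j : Fin 3, σ₁ (X (twb_iF j)) = X (twb_iF j) * X (twb_iS i₀) := by
    intro j; rw [hσ₁, substAlgHom_X, twb_scaleFun_F]
  have hψ : ∀ s : Fin 6, twb_psi A (X s) = twb_psiFun A s := by
    intro s; rw [twb_psi, substAlgHom_X]
  have hθX : ∀ s : Fin 4, θ (X s) = twb_thetaFun i₀ s := by
    intro s; rw [hθ, substAlgHom_X]
  have hcomp : φ.comp σ₁.toRingHom = φ.comp (θ.toRingHom.comp (twb_psi A).toRingHom) := by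
    apply twb_ringHom_ext_of_local
    · intro a
      simp only [RingHom.coe_comp, Function.comp_apply, AlgHom.toRingHom_eq_coe, RingHom.coe_coe]
      rw [hCalg, AlgHom.commutes, AlgHom.commutes, AlgHom.commutes]
    · intro s
      simp only [RingHom.coe_comp, Function.comp_apply, AlgHom.toRingHom_eq_coe, RingHom.coe_coe]
      fin_cases s
      · have : σ₁ (X (0 : Fin 6)) = X 0 := hσS 0
        simp [this, hψ, twb_psiFun, hθX, twb_thetaFun]
      · have : σ₁ (X (1 : Fin 6)) = X 1 := hσS 1
        simp [this, hψ, twb_psiFun, hθX, twb_thetaFun]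
      · have : σ₁ (X (2 : Fin 6)) = X 2 := hσS 2
        simp [this, hψ, twb_psiFun, hθX, twb_thetaFun]
      · have : σ₁ (X (3 : Fin 6)) = X 3 * X (twb_iS i₀) := hσF 0
        fin_cases i₀ <;>
          simp [this, hψ, twb_psiFun, hθX, twb_thetaFun, twb_iS, twb_iF] <;>
          (first | ring | linear_combination hm1' | linear_combination hm2' |
            linear_combination hm3' | linear_combination -hm1' | linear_combination -hm2' |
            linear_combination -hm3')
      · have : σ₁ (X (4 : Fin 6)) = X 4 * X (twb_iS i₀) := hσF 1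
        fin_cases i₀ <;>
          simp [this, hψ, twb_psiFun, hθX, twb_thetaFun, twb_iS, twb_iF] <;>
          (first | ring | linear_combination hm1' | linear_combination hm2' |
            linear_combination hm3' | linear_combination -hm1' | linear_combination -hm2' |
            linear_combination -hm3')
      · have : σ₁ (X (5 : Fin 6)) = X 5 * X (twb_iS i₀) := hσF 2
        fin_cases i₀ <;>
          simp [this, hψ, twb_psiFun, hθX, twb_thetaFun, twb_iS, twb_iF] <;>
          (first | ring | linear_combination hm1' | linear_combination hm2' |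
            linear_combination hm3' | linear_combination -hm1' | linear_combination -hm2' |
            linear_combination -hm3')
    · intro s
      simp only [RingHom.coe_comp, Function.comp_apply, AlgHom.toRingHom_eq_coe, RingHom.coe_coe]
      rw [hσ₁, substAlgHom_X, twb_scaleFun]
      have : (monomial (Finsupp.single s 1 + Finsupp.single (twb_iS i₀) (twb_w6 s)) (1 : A) :
          MvPowerSeries (Fin 6) A) = X s * monomial (Finsupp.single (twb_iS i₀) (twb_w6 s)) 1 := by
        rw [X_def, monomial_mul_monomial, mul_one]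
      rw [this, map_mul]
      exact Ideal.mul_mem_right _ _ (hX s)
  intro a ha
  rw [RingHom.mem_ker]
  apply twb_map_eq_zero_of_wHC twb_w6 (by intro i; fin_cases i <;> simp [twb_w6]) φ hX a
  intro n
  have han : weightedHomogeneousComponent twb_w6 n a ∈ twb_K A d := twb_wHC_mem_K ha n
  have h1 : σ₁ (weightedHomogeneousComponent twb_w6 n a) =
      X (twb_iS i₀) ^ n * weightedHomogeneousComponent twb_w6 n a := by
    rw [hσ₁, substAlgHom_apply]
    exact twb_subst_scale twb_w6 (twb_iS i₀) (twb_scaleFun_hasSubst i₀) (fun s => rfl)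
      (isWeightedHomogeneous_weightedHomogeneousComponent _ _ _)
  have h2 : φ (θ (twb_psi A (weightedHomogeneousComponent twb_w6 n a))) = 0 := by
    obtain ⟨h', hh'⟩ := Ideal.mem_span_singleton.mp (Ideal.mem_comap.mp han)
    rw [hh', map_mul, map_mul]
    have : θ (twb_g4 A d) = X 0 ^ 2 + X 1 * X 2 - C d := by
      rw [twb_g4, map_sub, map_add, map_pow, map_mul, hθX, hθX, hθX, hCalg4, AlgHom.commutes]
      simp [twb_thetaFun, hCalg]
    rw [this, hg, zero_mul]
  have h3 : φ (σ₁ (weightedHomogeneousComponent twb_w6 n a)) =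
      φ (θ (twb_psi A (weightedHomogeneousComponent twb_w6 n a))) :=
    RingHom.congr_fun hcomp _
  rw [h1, map_mul, map_pow, h2] at h3
  exact (mul_eq_zero.mp h3).resolve_left (pow_ne_zero _ hs₀)

/-- **B/Factor.** The universal property of `twb_K` with respect to local domains: a ring hom to
a noetherian local domain which kills the naive relations and does not kill `d` kills `twb_K`. -/
theorem twb_K_le_ker (d : A) (φ : MvPowerSeries (Fin 6) A →+* D)
    (hX : ∀ i, φ (X i) ∈ maximalIdeal D) (hI : twb_Ichi A d ≤ RingHom.ker φ)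
    (hd : φ (C d) ≠ 0) : twb_K A d ≤ RingHom.ker φ := by
  have hg : φ (X 0 ^ 2 + X 1 * X 2 - C d) = 0 :=
    hI (Ideal.subset_span (by simp))
  by_cases h0 : φ (X 0) ≠ 0
  · exact twb_factor_aux d φ hX hI 0 (by simpa [twb_iS] using h0)
  by_cases h1 : φ (X 1) ≠ 0
  · exact twb_factor_aux d φ hX hI 1 (by simpa [twb_iS] using h1)
  by_cases h2 : φ (X 2) ≠ 0
  · exact twb_factor_aux d φ hX hI 2 (by simpa [twb_iS] using h2)
  exfalso
  have h0 := not_not.mp h0
  have h1 := not_not.mp h1
  have h2 := not_not.mp h2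
  apply hd
  have : φ (C d) = φ (X 0) ^ 2 + φ (X 1) * φ (X 2) - φ (X 0 ^ 2 + X 1 * X 2 - C d) := by
    simp only [map_sub, map_add, map_pow, map_mul]; ring
  rw [this, hg, h0, h1, h2]; ring

end main

end Fermat.Agent.TW
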