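import Mathlib

/-!
# TW / Loc : the quadric `u² + bc = d` over a noetherian base domain — core lemma

`twb_sq_eq_core`: over a noetherian domain `A`, for a NON-UNIT `d`, and two distinct
variables `i ≠ j`, the equation `x² = (d - X_i X_j) · y²` has only the trivial solution in
`A[[σ]]`.  (So `T² - (d - X_i X_j)` has no root in the fraction field: the quadric
`u² + bc = d` is integral.)  Proof: pass to a valuation ring of `Frac A` in which `d` is a
non-unit, divide by contents, reduce to the residue field, and compare `X_i`-adic orders.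
-/

namespace Fermat.Agent.TW

open MvPowerSeries

section content

variable {σ : Type*} {A V : Type*} [CommRing A] [IsNoetherianRing A]
  [CommRing V] [IsDomain V] [ValuationRing V]

theorem twb_exists_dvd_all (s : Finset V) (hs : s.Nonempty) : ∃ a ∈ s, ∀ b ∈ s, a ∣ b := by
  classical
  induction hs using Finset.Nonempty.cons_induction with
  | singleton a => exact ⟨a, by simp, by simp⟩
  | cons a s ha hs ih =>
    obtain ⟨m, hm, hmin⟩ := ih
    rcases ValuationRing.dvd_total a m with h | h
    · refine ⟨a, by simp, ?_⟩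
      intro b hb
      rcases Finset.mem_cons.mp hb with rfl | hb
      · exact dvd_rfl
      · exact h.trans (hmin b hb)
    · refine ⟨m, by simp [hm], ?_⟩
      intro b hb
      rcases Finset.mem_cons.mp hb with rfl | hb
      · exact h
      · exact hmin b hb

/-- Contents are principal after passing to a valuation ring: a nonzero power series over a
noetherian ring `A ⊆ V` is `α • x₁` with `x₁` over `V` having a coefficient equal to `1`. -/
theorem twb_exists_primitive (ι : A →+* V) (hι : Function.Injective ι)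
    {x : MvPowerSeries σ A} (hx : x ≠ 0) :
    ∃ (α : V) (x₁ : MvPowerSeries σ V), α ≠ 0 ∧ MvPowerSeries.map ι x = C α * x₁ ∧
      ∃ n, coeff n x₁ = 1 := by
  classical
  set S : Set A := Set.range fun n => coeff n x with hS
  have hfg : (Ideal.span S).FG := IsNoetherian.noetherian _
  obtain ⟨s, hsS, hspan⟩ := (Submodule.fg_span_iff_fg_span_finset_subset S).mp hfg
  have hsne : s.Nonempty := by
    rw [Finset.nonempty_iff_ne_empty]
    rintro rfl
    apply hx
    ext n
    have : coeff n x ∈ Ideal.span S := Ideal.subset_span ⟨n, rfl⟩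
    have h0 : coeff n x ∈ (Submodule.span A (↑(∅ : Finset A) : Set A)) := by
      rw [← hspan]; exact this
    simpa using h0
  obtain ⟨α, hαs, hαmin⟩ := twb_exists_dvd_all (s.image ι) (hsne.image ι)
  obtain ⟨a₀, ha₀s, rfl⟩ := Finset.mem_image.mp hαs
  obtain ⟨n₀, hn₀⟩ : ∃ n₀, coeff n₀ x = a₀ := hsS ha₀s
  have hdvd : ∀ n, ι a₀ ∣ ι (coeff n x) := by
    intro n
    have hmem : coeff n x ∈ Ideal.span (↑s : Set A) := by
      have : coeff n x ∈ Ideal.span S := Ideal.subset_span ⟨n, rfl⟩
      have h2 : Ideal.span S = Ideal.span (↑s : Set A) := hspan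
      rw [← h2]; exact this
    have hle : Ideal.span (↑s : Set A) ≤ (Ideal.span {ι a₀}).comap ι := by
      rw [Ideal.span_le]
      intro b hb
      have : ι a₀ ∣ ι b := hαmin (ι b) (Finset.mem_image_of_mem ι hb)
      exact Ideal.mem_span_singleton.mpr this
    exact Ideal.mem_span_singleton.mp (hle hmem)
  have hα0 : ι a₀ ≠ 0 := by
    intro h0
    apply hx
    ext n
    have := hdvd n
    rw [h0, zero_dvd_iff] at this
    have : coeff n x = 0 := hι (by rw [this, map_zero])
    simpa using this
  choose c hc using hdvd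
  have hx₁ : ∃ x₁ : MvPowerSeries σ V, ∀ n, coeff n x₁ = c n := ⟨fun n => c n, fun n => rfl⟩
  obtain ⟨x₁, hx₁⟩ := hx₁
  refine ⟨ι a₀, x₁, hα0, ?_, n₀, ?_⟩
  · ext n
    rw [coeff_map, coeff_C_mul, hx₁]
    exact hc n
  · have h1 : ι a₀ * c n₀ = ι a₀ * 1 := by
      rw [mul_one, ← hc n₀, hn₀]
    rw [hx₁]
    exact mul_left_cancel₀ hα0 h1

end content


theorem twb_parity {σ κ : Type*} [CommRing κ] [IsDomain κ] {i j : σ} (hij : i ≠ j)
    {x y : MvPowerSeries σ κ} (hx : x ≠ 0) (hy : y ≠ 0) {s t : κ} (hst : s ≠ 0 ∨ t ≠ 0) :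
    (C s * x) ^ 2 ≠ -(X i * X j) * (C t * y) ^ 2 := by
  classical
  intro h
  have hX : ∀ k : σ, (X k : MvPowerSeries σ κ) ≠ 0 := by
    intro k h0
    have := congrArg (coeff (Finsupp.single k 1)) h0
    rw [coeff_X] at this
    simp at this
  have hXi := hX i
  have hXj := hX j
  by_cases hs : s = 0
  · have ht : t ≠ 0 := hst.resolve_left (fun h' => h' hs)
    subst hs
    simp only [map_zero, zero_mul, ne_eq, OfNat.ofNat_ne_zero, not_false_eq_true, zero_pow] at h
    have hCt : (C t : MvPowerSeries σ κ) ≠ 0 := by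
      intro h0; apply ht
      have := congrArg (coeff (0 : σ →₀ ℕ)) h0
      simpa using this
    have : -(X i * X j) * (C t * y) ^ 2 ≠ 0 :=
      mul_ne_zero (neg_ne_zero.mpr (mul_ne_zero hXi hXj)) (pow_ne_zero _ (mul_ne_zero hCt hy))
    exact this h.symm
  by_cases ht : t = 0
  · subst ht
    simp only [map_zero, zero_mul, ne_eq, OfNat.ofNat_ne_zero, not_false_eq_true, zero_pow,
      mul_zero] at h
    have hCs : (C s : MvPowerSeries σ κ) ≠ 0 := by
      intro h0; apply hs
      have := congrArg (coeff (0 : σ →₀ ℕ)) h0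
      simpa using this
    exact pow_ne_zero _ (mul_ne_zero hCs hx) h
  -- both nonzero: parity of the `X i`-adic order
  set w : σ → ℕ := fun k => if k = i then 1 else 0 with hw
  have hwC : ∀ a : κ, a ≠ 0 → (C a : MvPowerSeries σ κ).weightedOrder w = 0 := by
    intro a ha
    have : (C a : MvPowerSeries σ κ) = monomial (0 : σ →₀ ℕ) a := rfl
    rw [this, weightedOrder_monomial_of_ne_zero w ha]
    simp
  have hwXi : (X i : MvPowerSeries σ κ).weightedOrder w = 1 := by
    have : (X i : MvPowerSeries σ κ) = monomial (Finsupp.single i 1) (1 : κ) := rfl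
    rw [this, weightedOrder_monomial_of_ne_zero w one_ne_zero, Finsupp.weight_single]
    simp [hw]
  have hwXj : (X j : MvPowerSeries σ κ).weightedOrder w = 0 := by
    have : (X j : MvPowerSeries σ κ) = monomial (Finsupp.single j 1) (1 : κ) := rfl
    rw [this, weightedOrder_monomial_of_ne_zero w one_ne_zero, Finsupp.weight_single]
    simp [hw, Ne.symm hij]
  have h1 := congrArg (weightedOrder w) h
  rw [pow_two, pow_two, weightedOrder_mul, weightedOrder_mul, weightedOrder_mul,
    weightedOrder_mul, weightedOrder_mul, weightedOrder_neg, weightedOrder_mul, hwC s hs,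
    hwC t ht, hwXi, hwXj] at h1
  obtain ⟨a, ha⟩ : ∃ a : ℕ, x.weightedOrder w = a :=
    ⟨_, ((ne_zero_iff_weightedOrder_finite w).mp hx).symm⟩
  obtain ⟨b, hb⟩ : ∃ b : ℕ, y.weightedOrder w = b :=
    ⟨_, ((ne_zero_iff_weightedOrder_finite w).mp hy).symm⟩
  rw [ha, hb] at h1
  have h2 : ((0 + a + (0 + a) : ℕ) : ℕ∞) = ((1 + 0 + (0 + b + (0 + b)) : ℕ) : ℕ∞) := by
    push_cast; exact h1
  have h3 := Nat.cast_injective h2
  omega

section core

variable {σ : Type*} {A : Type*} [CommRing A] [IsDomain A] [IsNoetherianRing A]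

omit [IsDomain A] in
/-- The core lemma over a valuation ring `V ⊇ A` in which `d` is a non-unit. -/
theorem twb_sq_eq_core_val {V : Type*} [CommRing V] [IsDomain V] [ValuationRing V]
    (ι : A →+* V) (hι : Function.Injective ι) {d : A} (hd : ¬ IsUnit (ι d)) {i j : σ}
    (hij : i ≠ j) {x y : MvPowerSeries σ A} (h : x ^ 2 = (C d - X i * X j) * y ^ 2) :
    y = 0 := by
  classical
  by_contra hy
  let r : V →+* IsLocalRing.ResidueField V := IsLocalRing.residue V
  have hrd : r (ι d) = 0 := by
    rw [IsLocalRing.residue_eq_zero_iff]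
    exact (IsLocalRing.mem_maximalIdeal _).mpr hd
  have hbar : ∀ z : MvPowerSeries σ V, (∃ n, coeff n z = 1) → MvPowerSeries.map r z ≠ 0 := by
    rintro z ⟨n, hn⟩ h0
    have := congrArg (coeff n) h0
    rw [coeff_map, hn, map_one] at this
    simp at this
  have hebar : MvPowerSeries.map r (C (ι d) - X i * X j) = -(X i * X j) := by
    rw [map_sub, map_mul, map_C, map_X, map_X, hrd, map_zero, zero_sub]
  have hx : x ≠ 0 := by
    intro hx0
    rw [hx0] at h
    obtain ⟨β, y₁, hβ, hy₁, hm⟩ := twb_exists_primitive ι hι hy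
    have h2 : (0 : MvPowerSeries σ V) = (C (ι d) - X i * X j) * (C β * y₁) ^ 2 := by
      have := congrArg (MvPowerSeries.map ι) h
      rw [map_mul, map_pow, map_pow, hy₁, map_sub, map_mul, map_C, map_X, map_X] at this
      simpa using this
    have hCβ : (C β : MvPowerSeries σ V) ≠ 0 := by
      intro h0; apply hβ
      have := congrArg (coeff (0 : σ →₀ ℕ)) h0
      simpa using this
    have h3 : (C (ι d) - X i * X j : MvPowerSeries σ V) * y₁ ^ 2 = 0 := by
      have h4 : (C β) ^ 2 * ((C (ι d) - X i * X j : MvPowerSeries σ V) * y₁ ^ 2) = 0 := by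
        rw [h2]; ring
      exact (mul_eq_zero.mp h4).resolve_left (pow_ne_zero _ hCβ)
    have h5 := congrArg (MvPowerSeries.map r) h3
    rw [map_mul, hebar, map_pow, map_zero] at h5
    have := twb_parity (κ := IsLocalRing.ResidueField V) hij (hbar y₁ hm) (hbar y₁ hm)
      (s := 0) (t := 1) (Or.inr one_ne_zero)
    apply this
    simp only [map_zero, zero_mul, ne_eq, OfNat.ofNat_ne_zero, not_false_eq_true, zero_pow,
      map_one, one_mul]
    exact h5.symm
  obtain ⟨α, x₁, hα, hx₁, hn⟩ := twb_exists_primitive ι hι hx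
  obtain ⟨β, y₁, hβ, hy₁, hm⟩ := twb_exists_primitive ι hι hy
  have hV : (C α * x₁) ^ 2 = (C (ι d) - X i * X j) * (C β * y₁) ^ 2 := by
    have := congrArg (MvPowerSeries.map ι) h
    rw [map_pow, map_mul, map_pow, hx₁, hy₁, map_sub, map_mul, map_C, map_X, map_X] at this
    exact this
  have hCne : ∀ a : V, a ≠ 0 → (C a : MvPowerSeries σ V) ≠ 0 := by
    intro a ha h0; apply ha
    have := congrArg (coeff (0 : σ →₀ ℕ)) h0
    simpa using this
  rcases ValuationRing.dvd_total α β with ⟨t, rfl⟩ | ⟨t, rfl⟩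
  · -- β = α * t
    have h1 : x₁ ^ 2 = (C (ι d) - X i * X j) * (C t * y₁) ^ 2 := by
      have h4 : (C α) ^ 2 * (x₁ ^ 2) =
          (C α) ^ 2 * ((C (ι d) - X i * X j : MvPowerSeries σ V) * (C t * y₁) ^ 2) := by
        rw [map_mul] at hV
        linear_combination hV
      exact mul_left_cancel₀ (pow_ne_zero _ (hCne α hα)) h4
    have h5 := congrArg (MvPowerSeries.map r) h1
    rw [map_mul, hebar, map_pow, map_pow, map_mul, map_C] at h5
    have := twb_parity (κ := IsLocalRing.ResidueField V) hij (hbar x₁ hn) (hbar y₁ hm)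
      (s := 1) (t := r t) (Or.inl one_ne_zero)
    apply this
    rw [map_one, one_mul]
    exact h5
  · -- α = β * t
    have h1 : (C t * x₁) ^ 2 = (C (ι d) - X i * X j) * y₁ ^ 2 := by
      have h4 : (C β) ^ 2 * ((C t * x₁) ^ 2) =
          (C β) ^ 2 * ((C (ι d) - X i * X j : MvPowerSeries σ V) * y₁ ^ 2) := by
        rw [map_mul] at hV
        linear_combination hV
      exact mul_left_cancel₀ (pow_ne_zero _ (hCne β hβ)) h4
    have h5 := congrArg (MvPowerSeries.map r) h1
    rw [map_mul, hebar, map_pow, map_pow, map_mul, map_C] at h5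
    have := twb_parity (κ := IsLocalRing.ResidueField V) hij (hbar x₁ hn) (hbar y₁ hm)
      (s := r t) (t := 1) (Or.inr one_ne_zero)
    apply this
    rw [map_one, one_mul]
    exact h5

/-- **Core lemma.** Over a noetherian domain `A`, for a non-unit `d` and two distinct variables,
`x² = (d - X_i X_j) y²` forces `y = 0` (and then `x = 0`). -/
theorem twb_sq_eq_core {d : A} (hd : ¬ IsUnit d) {i j : σ} (hij : i ≠ j)
    {x y : MvPowerSeries σ A} (h : x ^ 2 = (C d - X i * X j) * y ^ 2) : y = 0 := by
  classical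
  let K := FractionRing A
  let A₀ : Subring K := (algebraMap A K).range
  have hinj : Function.Injective (algebraMap A K) := IsFractionRing.injective A K
  let d₀ : A₀ := ⟨algebraMap A K d, ⟨d, rfl⟩⟩
  have hI : Ideal.span {d₀} ≠ (⊤ : Ideal A₀) := by
    intro htop
    have h1 : (1 : A₀) ∈ Ideal.span {d₀} := by rw [htop]; trivial
    obtain ⟨⟨a', a, rfl⟩, ha⟩ := Ideal.mem_span_singleton'.mp h1
    have h2 : algebraMap A K (a * d) = 1 := by
      have := congrArg Subtype.val ha
      simpa [d₀] using this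
    have h3 : a * d = 1 := hinj (by rw [h2, map_one])
    exact hd (IsUnit.of_mul_eq_one a (by rw [mul_comm]; exact h3))
  obtain ⟨B, hAB, hnon⟩ := Ideal.image_subset_nonunits_valuationSubring _ hI
  let ι : A →+* B := (algebraMap A K).codRestrict B.toSubring (fun a => hAB ⟨a, rfl⟩)
  have hι : Function.Injective ι := by
    intro a b hab
    apply hinj
    exact congrArg Subtype.val hab
  have hdn : ¬ IsUnit (ι d) := by
    have h1 : algebraMap A K d ∈ B.nonunits :=
      hnon ⟨d₀, Ideal.subset_span rfl, rfl⟩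
    obtain ⟨hmem, hmax⟩ := ValuationSubring.mem_nonunits_iff_exists_mem_maximalIdeal.mp h1
    exact (IsLocalRing.mem_maximalIdeal _).mp hmax
  exact twb_sq_eq_core_val ι hι hdn hij h

theorem twb_sq_eq_core' {d : A} (hd : ¬ IsUnit d) {i j : σ} (hij : i ≠ j)
    {x y : MvPowerSeries σ A} (h : x ^ 2 = (C d - X i * X j) * y ^ 2) : x = 0 ∧ y = 0 := by
  have hy := twb_sq_eq_core hd hij h
  refine ⟨?_, hy⟩
  rw [hy] at h
  simpa using h

end core

end Fermat.Agent.TW
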