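import Fermat.Agent.TW.Loc.ChiDefs
import Fermat.Agent.TW.Loc.QuadCore

/-!
# TW / Loc : the quadric `u² + bc - d` generates a prime ideal of `A[[u,b,c,μ]]`

`A` a complete noetherian local domain, `d` in its maximal ideal.  Route: `A[[u,b,c,μ]] = P[[u]]`
with `P = A[[b,c,μ]]` (`MvPowerSeries.finSuccEquiv`), the quadric becomes `u² - e`,
`e = d - bc`; Weierstrass (`Polynomial.IsDistinguishedAt.algEquivQuotient`) identifies
`P[[u]]/(u² - e)` with `P[u]/(u² - e)`, which is a domain by the norm form and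
`twb_sq_eq_core`.
-/

open Polynomial

namespace Fermat.Agent.TW

/-- `X² - e` generates a prime ideal of `P[X]` as soon as `x² = e y²` has only the trivial solution. -/
theorem twb_quad_prime_poly {P : Type*} [CommRing P] [IsDomain P] (e : P)
    (he : ∀ x y : P, x ^ 2 = e * y ^ 2 → y = 0) :
    (Ideal.span {(X ^ 2 - C e : P[X])}).IsPrime := by
  set g₀ : P[X] := X ^ 2 - C e with hg₀
  have hmon : g₀.Monic := monic_X_pow_sub_C e (by norm_num)
  have hdeg : g₀.natDegree = 2 := natDegree_X_pow_sub_C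
  have hdeg' : g₀.degree = 2 := by
    rw [degree_eq_natDegree hmon.ne_zero, hdeg]; rfl
  -- small remainders
  have key : ∀ x₁ y₁ x₂ y₂ : P, g₀ ∣ (C x₁ + C y₁ * X) * (C x₂ + C y₂ * X) →
      (x₁ = 0 ∧ y₁ = 0) ∨ (x₂ = 0 ∧ y₂ = 0) := by
    intro x₁ y₁ x₂ y₂ hdvd
    have hrew : (C x₁ + C y₁ * X) * (C x₂ + C y₂ * X) =
        g₀ * C (y₁ * y₂) + (C (x₁ * y₂ + x₂ * y₁) * X + C (x₁ * x₂ + e * y₁ * y₂)) := by
      simp only [hg₀, map_add, map_mul]; ring
    have hdvd2 : g₀ ∣ (C (x₁ * y₂ + x₂ * y₁) * X + C (x₁ * x₂ + e * y₁ * y₂)) := by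
      rw [hrew] at hdvd
      exact (dvd_add_right (dvd_mul_right _ _)).mp hdvd
    have hlt : (C (x₁ * y₂ + x₂ * y₁) * X + C (x₁ * x₂ + e * y₁ * y₂) : P[X]).degree < g₀.degree := by
      rw [hdeg']
      calc (C (x₁ * y₂ + x₂ * y₁) * X + C (x₁ * x₂ + e * y₁ * y₂) : P[X]).degree
          ≤ 1 := degree_linear_le
        _ < 2 := by norm_num
    have hzero := eq_zero_of_dvd_of_degree_lt hdvd2 hlt
    have h0 : x₁ * x₂ + e * y₁ * y₂ = 0 := by
      have := congrArg (fun p : P[X] => p.coeff 0) hzero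
      simpa using this
    have h1 : x₁ * y₂ + x₂ * y₁ = 0 := by
      have := congrArg (fun p : P[X] => p.coeff 1) hzero
      simpa using this
    have hN : (x₁ ^ 2 - e * y₁ ^ 2) * (x₂ ^ 2 - e * y₂ ^ 2) = 0 := by
      have : (x₁ ^ 2 - e * y₁ ^ 2) * (x₂ ^ 2 - e * y₂ ^ 2) =
          (x₁ * x₂ + e * y₁ * y₂) ^ 2 - e * (x₁ * y₂ + x₂ * y₁) ^ 2 := by ring
      rw [this, h0, h1]; ring
    rcases mul_eq_zero.mp hN with h | h
    · left
      have hx : x₁ ^ 2 = e * y₁ ^ 2 := sub_eq_zero.mp h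
      have hy := he _ _ hx
      refine ⟨?_, hy⟩
      rw [hy] at hx
      simpa using hx
    · right
      have hx : x₂ ^ 2 = e * y₂ ^ 2 := sub_eq_zero.mp h
      have hy := he _ _ hx
      refine ⟨?_, hy⟩
      rw [hy] at hx
      simpa using hx
  have hrem : ∀ p : P[X], ∃ x y : P, p %ₘ g₀ = C x + C y * X := by
    intro p
    have hlt : (p %ₘ g₀).degree < 2 := by
      have := degree_modByMonic_lt p hmon
      rwa [hdeg'] at this
    have hle : (p %ₘ g₀).natDegree ≤ 1 := by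
      have hne1 : g₀ ≠ 1 := by
        intro h1
        rw [h1, natDegree_one] at hdeg
        omega
      have := natDegree_modByMonic_lt p hmon hne1
      omega
    refine ⟨(p %ₘ g₀).coeff 0, (p %ₘ g₀).coeff 1, ?_⟩
    have := eq_X_add_C_of_natDegree_le_one hle
    rw [add_comm]; exact this
  rw [Ideal.isPrime_iff]
  constructor
  · rw [Ne, Ideal.span_singleton_eq_top]
    intro hu
    have := natDegree_eq_zero_of_isUnit hu
    omega
  · intro p q hpq
    rw [Ideal.mem_span_singleton] at hpq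
    simp only [Ideal.mem_span_singleton]
    obtain ⟨x₁, y₁, hp⟩ := hrem p
    obtain ⟨x₂, y₂, hq⟩ := hrem q
    have hdvd : g₀ ∣ (p %ₘ g₀) * (q %ₘ g₀) := by
      have hp' : p %ₘ g₀ = p - g₀ * (p /ₘ g₀) := modByMonic_eq_sub_mul_div p g₀
      have hq' : q %ₘ g₀ = q - g₀ * (q /ₘ g₀) := modByMonic_eq_sub_mul_div q g₀
      have : (p %ₘ g₀) * (q %ₘ g₀) =
          p * q - g₀ * ((p /ₘ g₀) * q + p * (q /ₘ g₀) - g₀ * (p /ₘ g₀) * (q /ₘ g₀)) := by
        rw [hp', hq']
        ring
      rw [this]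
      exact dvd_sub hpq (dvd_mul_right _ _)
    rw [hp, hq] at hdvd
    rcases key x₁ y₁ x₂ y₂ hdvd with ⟨h1, h2⟩ | ⟨h1, h2⟩
    · left
      rw [← modByMonic_eq_zero_iff_dvd hmon, hp, h1, h2]; simp
    · right
      rw [← modByMonic_eq_zero_iff_dvd hmon, hq, h1, h2]; simp


/-- Power series version, by Weierstrass division: if `P` is `I`-adically complete and `e ∈ I`. -/
theorem twb_quad_prime_ps {P : Type*} [CommRing P] [IsDomain P] (I : Ideal P)
    [IsAdicComplete I P] (e : P) (heI : e ∈ I) (he : ∀ x y : P, x ^ 2 = e * y ^ 2 → y = 0) :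
    (Ideal.span {(PowerSeries.X ^ 2 - PowerSeries.C e : PowerSeries P)}).IsPrime := by
  have hprime := twb_quad_prime_poly e he
  set g₀ : P[X] := X ^ 2 - C e with hg₀
  have hmon : g₀.Monic := monic_X_pow_sub_C e (by norm_num)
  have hdeg : g₀.natDegree = 2 := natDegree_X_pow_sub_C
  have H : g₀.IsDistinguishedAt I := by
    refine ⟨⟨?_⟩, hmon⟩
    intro n hn
    rw [hdeg] at hn
    interval_cases n
    · simp [hg₀, heI]
    · simp [hg₀, coeff_X_pow]
  have hcoe : ((g₀ : P[X]) : PowerSeries P) = PowerSeries.X ^ 2 - PowerSeries.C e := by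
    simp [hg₀]
  have hdom : IsDomain (P[X] ⧸ Ideal.span {g₀}) := (Ideal.Quotient.isDomain_iff_prime _).mpr hprime
  have e1 := H.algEquivQuotient
  have hdom2 : IsDomain (PowerSeries P ⧸ Ideal.span {((g₀ : P[X]) : PowerSeries P)}) :=
    e1.toRingEquiv.symm.toMulEquiv.isDomain _
  rw [hcoe] at hdom2
  exact (Ideal.Quotient.isDomain_iff_prime _).mp hdom2

section main

open MvPowerSeries IsLocalRing

variable {A : Type*} [CommRing A]

/-- The image of the quadric under `finSuccEquiv`. -/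
theorem twb_finSuccEquiv_g4 (d : A) :
    MvPowerSeries.finSuccEquiv A 3 (twb_g4 A d) =
      PowerSeries.X ^ 2 - PowerSeries.C (MvPowerSeries.C d - MvPowerSeries.X 0 * MvPowerSeries.X 1) := by
  have h1 : (1 : Fin 4) = Fin.succ (0 : Fin 3) := rfl
  have h2 : (2 : Fin 4) = Fin.succ (1 : Fin 3) := rfl
  rw [twb_g4, map_sub, map_add, map_pow, map_mul, h1, h2, finSuccEquiv_X_zero,
    finSuccEquiv_X_succ, finSuccEquiv_X_succ, finSuccEquiv_C, map_sub, map_mul]
  ring

/-- **B/Prime**, with the completeness of `A[[b,c,μ]]` as an explicit hypothesis. -/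
theorem twb_g4_prime_of_complete [IsDomain A] [IsNoetherianRing A] [IsLocalRing A]
    (hc : IsAdicComplete (maximalIdeal (MvPowerSeries (Fin 3) A)) (MvPowerSeries (Fin 3) A))
    {d : A} (hd : d ∈ maximalIdeal A) : (Ideal.span {twb_g4 A d}).IsPrime := by
  have hdu : ¬ IsUnit d := (mem_maximalIdeal d).mp hd
  have : IsDomain (MvPowerSeries (Fin 3) A) := NoZeroDivisors.to_isDomain _
  set e : MvPowerSeries (Fin 3) A := MvPowerSeries.C d - MvPowerSeries.X 0 * MvPowerSeries.X 1
    with he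
  have heI : e ∈ maximalIdeal (MvPowerSeries (Fin 3) A) := by
    rw [mem_maximalIdeal, mem_nonunits_iff, MvPowerSeries.isUnit_iff_constantCoeff]
    simpa [he] using hdu
  have hcore : ∀ x y : MvPowerSeries (Fin 3) A, x ^ 2 = e * y ^ 2 → y = 0 := by
    intro x y h
    exact twb_sq_eq_core hdu (i := (0 : Fin 3)) (j := 1) (by decide) h
  have hp := twb_quad_prime_ps (maximalIdeal (MvPowerSeries (Fin 3) A)) e heI hcore
  have hmap : Ideal.span {twb_g4 A d} =
      (Ideal.span {(PowerSeries.X ^ 2 - PowerSeries.C e :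
        PowerSeries (MvPowerSeries (Fin 3) A))}).comap
        (MvPowerSeries.finSuccEquiv A 3).toRingEquiv := by
    ext x
    rw [Ideal.mem_comap, Ideal.mem_span_singleton, Ideal.mem_span_singleton,
      ← twb_finSuccEquiv_g4]
    constructor
    · rintro ⟨c, rfl⟩
      exact ⟨MvPowerSeries.finSuccEquiv A 3 c, by simp⟩
    · rintro ⟨c, hc⟩
      refine ⟨(MvPowerSeries.finSuccEquiv A 3).symm c, ?_⟩
      apply (MvPowerSeries.finSuccEquiv A 3).injective
      simpa using hc
  rw [hmap]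
  exact Ideal.comap_isPrime _ _

/-- `twb_K` is prime. -/
theorem twb_K_prime_of_complete [IsDomain A] [IsNoetherianRing A] [IsLocalRing A]
    (hc : IsAdicComplete (maximalIdeal (MvPowerSeries (Fin 3) A)) (MvPowerSeries (Fin 3) A))
    {d : A} (hd : d ∈ maximalIdeal A) : (twb_K A d).IsPrime := by
  have := twb_g4_prime_of_complete hc hd
  exact Ideal.comap_isPrime _ _

end main

end Fermat.Agent.TW
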