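/-
ONE MACHINE / block [B] LOC, leaf B/Tau (helper14).  Prefix `twb_` (auxiliaries `twb_tau_`).

`τ̄ = Q(F) = v² + ef` is NOT nilpotent on the locus `S = 0, λ = 0` of the `χ`-ring:
`Q(F)^m ∉ twb_K A d + (u, b, c, λ)` for every `m`, as soon as `d ≠ 0` and `(d, λ) ≠ (1)`.

Proof: apply `ψ` (`S ↦ S`, `F ↦ μ S`).  Every series in the image of `ψ` only contains monomials
`u^i b^j c^k μ^n` with `n ≤ i + j + k` ("good" series).  Comparing the coefficients of
`u^t μ^(2m)`, `t ≤ 2m`, in `μ^(2m) Q(S)^m = (Q(S) - d) h + u ψ(a₀) + b ψ(a₁) + c ψ(a₂) + λ ψ(a₃)`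
gives `d h_t = h_(t-2)` for `t < 2m`, hence `h_t = 0` there, and `1 = - d h_(2m) + λ z` for `t = 2m`.
-/
import Fermat.Agent.TW.Loc.Le

set_option autoImplicit false

namespace Fermat.Agent.TW

open MvPowerSeries

variable {A : Type*} [CommRing A]

/-- the exponent of `u^t μ^n`. -/
noncomputable def twb_tau_E (t n : ℕ) : Fin 4 →₀ ℕ := Finsupp.single 0 t + Finsupp.single 3 n

theorem twb_tau_E_0 (t n : ℕ) : twb_tau_E t n 0 = t := by simp [twb_tau_E]
theorem twb_tau_E_1 (t n : ℕ) : twb_tau_E t n 1 = 0 := by simp [twb_tau_E]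
theorem twb_tau_E_2 (t n : ℕ) : twb_tau_E t n 2 = 0 := by simp [twb_tau_E]
theorem twb_tau_E_3 (t n : ℕ) : twb_tau_E t n 3 = n := by simp [twb_tau_E]

/-- a series all of whose monomials `u^i b^j c^k μ^n` have `n ≤ i + j + k`. -/
def twb_tau_Good (f : MvPowerSeries (Fin 4) A) : Prop :=
  ∀ e : Fin 4 →₀ ℕ, e 0 + e 1 + e 2 < e 3 → coeff e f = 0

theorem twb_tau_good_mul {f g : MvPowerSeries (Fin 4) A} (hf : twb_tau_Good f)
    (hg : twb_tau_Good g) : twb_tau_Good (f * g) := by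
  classical
  intro e he
  rw [coeff_mul]
  refine Finset.sum_eq_zero fun p hp => ?_
  rw [Finset.HasAntidiagonal.mem_antidiagonal] at hp
  have h0 : p.1 0 + p.2 0 = e 0 := by rw [← hp]; rfl
  have h1 : p.1 1 + p.2 1 = e 1 := by rw [← hp]; rfl
  have h2 : p.1 2 + p.2 2 = e 2 := by rw [← hp]; rfl
  have h3 : p.1 3 + p.2 3 = e 3 := by rw [← hp]; rfl
  by_cases hp1 : p.1 0 + p.1 1 + p.1 2 < p.1 3
  · rw [hf p.1 hp1, zero_mul]
  · have hp2 : p.2 0 + p.2 1 + p.2 2 < p.2 3 := by omega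
    rw [hg p.2 hp2, mul_zero]

theorem twb_tau_good_one : twb_tau_Good (1 : MvPowerSeries (Fin 4) A) := by
  classical
  intro e he
  rw [coeff_one, if_neg]
  rintro rfl
  simp at he

theorem twb_tau_good_pow {f : MvPowerSeries (Fin 4) A} (hf : twb_tau_Good f) (n : ℕ) :
    twb_tau_Good (f ^ n) := by
  induction n with
  | zero => rw [pow_zero]; exact twb_tau_good_one
  | succ n ih => rw [pow_succ]; exact twb_tau_good_mul ih hf

theorem twb_tau_good_monomial (n : Fin 4 →₀ ℕ) (hn : n 3 ≤ n 0 + n 1 + n 2) (a : A) :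
    twb_tau_Good (monomial n a) := by
  classical
  intro e he
  rw [coeff_monomial, if_neg]
  rintro rfl
  omega

theorem twb_tau_good_X {i : Fin 4} (hi : i ≠ 3) : twb_tau_Good (X i : MvPowerSeries (Fin 4) A) := by
  rw [X_def]
  apply twb_tau_good_monomial
  rw [Finsupp.single_eq_of_ne (Ne.symm hi)]
  exact Nat.zero_le _

theorem twb_tau_good_X3_mul {i : Fin 4} (hi : i ≠ 3) :
    twb_tau_Good (X 3 * X i : MvPowerSeries (Fin 4) A) := by
  rw [X_def, X_def, monomial_mul_monomial]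
  apply twb_tau_good_monomial
  fin_cases i <;> simp at hi ⊢

theorem twb_tau_good_psiFun (s : Fin 6) : twb_tau_Good (twb_psiFun A s) := by
  fin_cases s
  · exact twb_tau_good_X (by decide)
  · exact twb_tau_good_X (by decide)
  · exact twb_tau_good_X (by decide)
  · exact twb_tau_good_X3_mul (by decide)
  · exact twb_tau_good_X3_mul (by decide)
  · exact twb_tau_good_X3_mul (by decide)

/-- everything in the image of `ψ` is good. -/
theorem twb_tau_good_psi (a : MvPowerSeries (Fin 6) A) : twb_tau_Good (twb_psi A a) := by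
  intro e he
  have h : twb_psi A a = subst (twb_psiFun A) a := by
    unfold twb_psi
    rw [← coe_substAlgHom (twb_psiFun_hasSubst A)]
  rw [h, coeff_subst (twb_psiFun_hasSubst A)]
  apply finsum_eq_zero_of_forall_eq_zero
  intro x
  have hx : twb_tau_Good (x.prod fun s n => (twb_psiFun A s) ^ n) := by
    unfold Finsupp.prod
    refine Finset.prod_induction _ twb_tau_Good (fun _ _ => twb_tau_good_mul) twb_tau_good_one ?_
    intro s _
    exact twb_tau_good_pow (twb_tau_good_psiFun s) _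
  rw [hx e he, smul_zero]

/-! ### coefficient extraction at `u^t μ^n` -/

theorem twb_tau_single02_le (t n : ℕ) :
    (Finsupp.single 0 2 : Fin 4 →₀ ℕ) ≤ twb_tau_E t n ↔ 2 ≤ t := by
  rw [Finsupp.le_def]
  constructor
  · intro h
    have := h 0
    rwa [Finsupp.single_eq_same, twb_tau_E_0] at this
  · intro h i
    fin_cases i <;> simp [twb_tau_E] <;> omega

theorem twb_tau_E_sub_single02 {t : ℕ} (n : ℕ) (_ht : 2 ≤ t) :
    twb_tau_E t n - Finsupp.single 0 2 = twb_tau_E (t - 2) n := by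
  ext i
  fin_cases i <;> simp [twb_tau_E]

theorem twb_tau_single01_le (t n : ℕ) :
    (Finsupp.single 0 1 : Fin 4 →₀ ℕ) ≤ twb_tau_E t n ↔ 1 ≤ t := by
  rw [Finsupp.le_def]
  constructor
  · intro h
    have := h 0
    rwa [Finsupp.single_eq_same, twb_tau_E_0] at this
  · intro h i
    fin_cases i <;> simp [twb_tau_E] <;> omega

theorem twb_tau_E_sub_single01 {t : ℕ} (n : ℕ) (_ht : 1 ≤ t) :
    twb_tau_E t n - Finsupp.single 0 1 = twb_tau_E (t - 1) n := by
  ext i
  fin_cases i <;> simp [twb_tau_E]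

/-- `coeff_(u^t μ^n) (h * u²) = h_(t-2)`. -/
theorem twb_tau_coeff_mul_X0_sq (h : MvPowerSeries (Fin 4) A) (t n : ℕ) :
    coeff (twb_tau_E t n) (h * X 0 ^ 2) = if 2 ≤ t then coeff (twb_tau_E (t - 2) n) h else 0 := by
  rw [X_pow_eq, coeff_mul_monomial]
  by_cases ht : 2 ≤ t
  · rw [if_pos ((twb_tau_single02_le t n).2 ht), if_pos ht, twb_tau_E_sub_single02 n ht, mul_one]
  · rw [if_neg (fun h' => ht ((twb_tau_single02_le t n).1 h')), if_neg ht]

/-- `coeff_(u^t μ^n) (h * u) = h_(t-1)`. -/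
theorem twb_tau_coeff_mul_X0 (h : MvPowerSeries (Fin 4) A) (t n : ℕ) :
    coeff (twb_tau_E t n) (h * X 0) = if 1 ≤ t then coeff (twb_tau_E (t - 1) n) h else 0 := by
  rw [X_def, coeff_mul_monomial]
  by_cases ht : 1 ≤ t
  · rw [if_pos ((twb_tau_single01_le t n).2 ht), if_pos ht, twb_tau_E_sub_single01 n ht, mul_one]
  · rw [if_neg (fun h' => ht ((twb_tau_single01_le t n).1 h')), if_neg ht]

/-- `coeff_(u^t μ^n) (h * b) = 0`. -/
theorem twb_tau_coeff_mul_X1 (h : MvPowerSeries (Fin 4) A) (t n : ℕ) :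
    coeff (twb_tau_E t n) (h * X 1) = 0 := by
  rw [X_def, coeff_mul_monomial, if_neg]
  intro hle
  have := Finsupp.le_def.1 hle 1
  rw [Finsupp.single_eq_same, twb_tau_E_1] at this
  omega

/-- `coeff_(u^t μ^n) (h * c) = 0`. -/
theorem twb_tau_coeff_mul_X2 (h : MvPowerSeries (Fin 4) A) (t n : ℕ) :
    coeff (twb_tau_E t n) (h * X 2) = 0 := by
  rw [X_def, coeff_mul_monomial, if_neg]
  intro hle
  have := Finsupp.le_def.1 hle 2
  rw [Finsupp.single_eq_same, twb_tau_E_2] at this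
  omega

/-- `coeff_(u^t μ^n) ((Q(S) - d) h) = h_(t-2) - d h_t`. -/
theorem twb_tau_coeff_mul_g4 (d : A) (h : MvPowerSeries (Fin 4) A) (t n : ℕ) :
    coeff (twb_tau_E t n) (h * twb_g4 A d)
      = (if 2 ≤ t then coeff (twb_tau_E (t - 2) n) h else 0) - coeff (twb_tau_E t n) h * d := by
  unfold twb_g4
  rw [mul_sub, mul_add, map_sub, map_add, twb_tau_coeff_mul_X0_sq, ← mul_assoc,
    twb_tau_coeff_mul_X2, add_zero, coeff_mul_C]

/-- the series `μ² Q(S) = ψ (Q(F))`. -/
theorem twb_tau_psi_Q :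
    twb_psi A (X 3 ^ 2 + X 4 * X 5) = (X 3 * X 0) ^ 2 + (X 3 * X 1) * (X 3 * X 2) := by
  rw [map_add, map_pow, map_mul, twb_psi_X3, twb_psi_X4, twb_psi_X5]

/-- the coefficient of `u^(2m) μ^(2m)` in `(μ² Q(S))^m` is `1`. -/
theorem twb_tau_coeff_top (m : ℕ) :
    coeff (twb_tau_E (2 * m) (2 * m))
      (((X 3 * X 0) ^ 2 + (X 3 * X 1) * (X 3 * X 2) : MvPowerSeries (Fin 4) A) ^ m) = 1 := by
  classical
  induction m with
  | zero =>
    rw [pow_zero, coeff_one, if_pos]
    ext i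
    fin_cases i <;> simp [twb_tau_E]
  | succ m ih =>
    have e1 : ((X 3 * X 0) ^ 2 : MvPowerSeries (Fin 4) A)
        = monomial (Finsupp.single 3 2 + Finsupp.single 0 2) 1 := by
      rw [mul_pow, X_pow_eq, X_pow_eq, monomial_mul_monomial, one_mul]
    have e2 : ((X 3 * X 1) * (X 3 * X 2) : MvPowerSeries (Fin 4) A)
        = monomial ((Finsupp.single 3 1 + Finsupp.single 1 1)
            + (Finsupp.single 3 1 + Finsupp.single 2 1)) 1 := by
      rw [X_def, X_def, X_def, monomial_mul_monomial, monomial_mul_monomial,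
        monomial_mul_monomial, one_mul, one_mul]
    have hstep : (((X 3 * X 0) ^ 2 + (X 3 * X 1) * (X 3 * X 2) : MvPowerSeries (Fin 4) A) ^ m
          * ((X 3 * X 0) ^ 2 + (X 3 * X 1) * (X 3 * X 2)))
        = ((X 3 * X 0) ^ 2 + (X 3 * X 1) * (X 3 * X 2) : MvPowerSeries (Fin 4) A) ^ m
            * monomial (Finsupp.single 3 2 + Finsupp.single 0 2) 1
          + ((X 3 * X 0) ^ 2 + (X 3 * X 1) * (X 3 * X 2) : MvPowerSeries (Fin 4) A) ^ m
            * monomial ((Finsupp.single 3 1 + Finsupp.single 1 1)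
              + (Finsupp.single 3 1 + Finsupp.single 2 1)) 1 := by
      rw [← mul_add, ← e1, ← e2]
    rw [pow_succ, hstep, map_add, coeff_mul_monomial, coeff_mul_monomial]
    have hle : (Finsupp.single 3 2 + Finsupp.single 0 2 : Fin 4 →₀ ℕ)
        ≤ twb_tau_E (2 * (m + 1)) (2 * (m + 1)) := by
      rw [Finsupp.le_def]
      intro i
      fin_cases i <;> simp [twb_tau_E]
    have hsub : twb_tau_E (2 * (m + 1)) (2 * (m + 1))
        - (Finsupp.single 3 2 + Finsupp.single 0 2) = twb_tau_E (2 * m) (2 * m) := by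
      ext i
      fin_cases i <;> simp [twb_tau_E] <;> omega
    have hnle : ¬ ((Finsupp.single 3 1 + Finsupp.single 1 1)
        + (Finsupp.single 3 1 + Finsupp.single 2 1) : Fin 4 →₀ ℕ)
        ≤ twb_tau_E (2 * (m + 1)) (2 * (m + 1)) := by
      intro hle'
      have := Finsupp.le_def.1 hle' 1
      simp [twb_tau_E] at this
    rw [if_pos hle, if_neg hnle, hsub, ih, mul_one, add_zero]

/-- **B/Tau.** `Q(F)^m ∉ twb_K A d + (u, b, c, λ)`: `τ̄` is not nilpotent on `V(S, λ)`. -/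
theorem twb_tau_pow_not_mem [IsDomain A] {d lam : A} (hd0 : d ≠ 0)
    (hdl : Ideal.span {d, lam} ≠ ⊤) (m : ℕ) :
    (X 3 ^ 2 + X 4 * X 5 : MvPowerSeries (Fin 6) A) ^ m
      ∉ twb_K A d ⊔ Ideal.span {X 0, X 1, X 2, C lam} := by
  intro hmem
  obtain ⟨y, hy, z, hz, hyz⟩ := Submodule.mem_sup.1 hmem
  obtain ⟨a0, z1, hz1, rfl⟩ := Ideal.mem_span_insert.1 hz
  obtain ⟨a1, z2, hz2, rfl⟩ := Ideal.mem_span_insert.1 hz1
  obtain ⟨a2, z3, hz3, rfl⟩ := Ideal.mem_span_insert.1 hz2
  obtain ⟨a3, rfl⟩ := Ideal.mem_span_singleton'.1 hz3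
  -- `ψ y = h * g`
  have hy' : twb_psi A y ∈ Ideal.span {twb_g4 A d} := hy
  obtain ⟨h, hh⟩ := Ideal.mem_span_singleton'.1 hy'
  -- apply `ψ`
  have key : h * twb_g4 A d + (twb_psi A a0 * X 0 + (twb_psi A a1 * X 1
      + (twb_psi A a2 * X 2 + twb_psi A a3 * C lam)))
      = ((X 3 * X 0) ^ 2 + (X 3 * X 1) * (X 3 * X 2)) ^ m := by
    have := congrArg (twb_psi A) hyz
    rw [map_add, map_add, map_add, map_add, map_mul, map_mul, map_mul, map_mul, map_pow,
      twb_psi_X0, twb_psi_X1, twb_psi_X2, twb_psi_C, twb_tau_psi_Q, ← hh] at this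
    exact this
  -- goodness of the pieces
  have hg0 := twb_tau_good_psi a0
  have hg3 := twb_tau_good_psi a3
  have hgR : twb_tau_Good
      (((X 3 * X 0) ^ 2 + (X 3 * X 1) * (X 3 * X 2) : MvPowerSeries (Fin 4) A) ^ m) := by
    rw [← twb_tau_psi_Q, ← map_pow]
    exact twb_tau_good_psi _
  -- the coefficient identity at `u^t μ^(2m)`
  have hcoef : ∀ t : ℕ, t ≤ 2 * m →
      (if 2 ≤ t then coeff (twb_tau_E (t - 2) (2 * m)) h else 0)
        - coeff (twb_tau_E t (2 * m)) h * d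
        + coeff (twb_tau_E t (2 * m)) (twb_psi A a3) * lam
      = coeff (twb_tau_E t (2 * m))
          (((X 3 * X 0) ^ 2 + (X 3 * X 1) * (X 3 * X 2) : MvPowerSeries (Fin 4) A) ^ m) := by
    intro t ht
    have := congrArg (coeff (twb_tau_E t (2 * m))) key
    rw [map_add, map_add, map_add, map_add, twb_tau_coeff_mul_g4, twb_tau_coeff_mul_X0,
      twb_tau_coeff_mul_X1, twb_tau_coeff_mul_X2, coeff_mul_C] at this
    have h0 : (if 1 ≤ t then coeff (twb_tau_E (t - 1) (2 * m)) (twb_psi A a0) else 0) = 0 := by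
      split_ifs with h1
      · apply hg0
        rw [twb_tau_E_0, twb_tau_E_1, twb_tau_E_2, twb_tau_E_3]
        omega
      · rfl
    rw [h0, zero_add, zero_add, zero_add] at this
    exact this
  -- `h_t = 0` for `t < 2m`
  have hzero : ∀ t : ℕ, t < 2 * m → coeff (twb_tau_E t (2 * m)) h = 0 := by
    intro t
    induction t using Nat.strong_induction_on with
    | _ t ih =>
      intro ht
      have h1 := hcoef t ht.le
      have hR : coeff (twb_tau_E t (2 * m))
          (((X 3 * X 0) ^ 2 + (X 3 * X 1) * (X 3 * X 2) : MvPowerSeries (Fin 4) A) ^ m) = 0 := by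
        apply hgR
        rw [twb_tau_E_0, twb_tau_E_1, twb_tau_E_2, twb_tau_E_3]
        omega
      have h3 : coeff (twb_tau_E t (2 * m)) (twb_psi A a3) = 0 := by
        apply hg3
        rw [twb_tau_E_0, twb_tau_E_1, twb_tau_E_2, twb_tau_E_3]
        omega
      have h2 : (if 2 ≤ t then coeff (twb_tau_E (t - 2) (2 * m)) h else 0) = 0 := by
        split_ifs with h2
        · exact ih (t - 2) (by omega) (by omega)
        · rfl
      rw [hR, h3, h2, zero_mul, add_zero, zero_sub, neg_eq_zero] at h1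
      exact (mul_eq_zero.1 h1).resolve_right hd0
  -- the top coefficient
  have htop := hcoef (2 * m) le_rfl
  rw [twb_tau_coeff_top] at htop
  have h2 : (if 2 ≤ 2 * m then coeff (twb_tau_E (2 * m - 2) (2 * m)) h else 0) = 0 := by
    split_ifs with h2
    · exact hzero _ (by omega)
    · rfl
  rw [h2, zero_sub] at htop
  apply hdl
  rw [Ideal.eq_top_iff_one, Ideal.mem_span_pair]
  exact ⟨- coeff (twb_tau_E (2 * m) (2 * m)) h,
    coeff (twb_tau_E (2 * m) (2 * m)) (twb_psi A a3), by rw [← htop]; ring⟩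

end Fermat.Agent.TW
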