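import Fermat.Agent.TW.Loc.ChiDefs
import Fermat.Agent.TW.Loc.QuadPrime
import Fermat.Agent.TW.Loc.Complete
import Fermat.Agent.TW.Loc.Le
import Fermat.Agent.TW.Loc.Tau
import Fermat.Agent.TW.Loc.Dim
import Fermat.Agent.TW.Loc.Factor
import Fermat.Agent.TW.Patch.DimIrred

/-!
# TW / Loc : B/Assemble — the `χ`-ring and the point `η`

`A` a complete noetherian local domain, `d, lam ∈ 𝔪_A`, `2 ∈ Aˣ`.

* `twb_K_prime` : `twb_K A d` is prime; `twb_Rchi A d` is a domain of dimension `≤ dim A + 3`.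
* `twb_chi_ker_eq` : a SURJECTIVE ring hom `φ : A[[u,b,c,v,e,f]] → D` onto a noetherian local
  domain which kills the naive `χ`-relations, with `φ d ≠ 0` and `dim A + 3 ≤ dim D`, has kernel
  EXACTLY `twb_K A d` (so `D = twb_Rchi A d`).
* `twb_chi_exists_prime` : in that situation there is a prime `η` of `D` containing
  `φ u, φ b, φ c, φ lam` and NOT containing `φ (v² + ef)`  (the point `η` of the endgame:
  `Σ = 1`, `λ = 0`, `τ ≠ 0`).
-/

namespace Fermat.Agent.TW

open MvPowerSeries IsLocalRing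

section ring

variable (A : Type*) [CommRing A] [IsDomain A] [IsNoetherianRing A] [IsLocalRing A]
  [IsAdicComplete (maximalIdeal A) A]

/-- **B/Prime**, closed form. -/
theorem twb_g4_prime {d : A} (hd : d ∈ maximalIdeal A) : (Ideal.span {twb_g4 A d}).IsPrime :=
  twb_g4_prime_of_complete (twb_mvps_isAdicComplete A) hd

/-- `twb_K A d` is a prime ideal. -/
theorem twb_K_prime {d : A} (hd : d ∈ maximalIdeal A) : (twb_K A d).IsPrime :=
  twb_K_prime_of_complete (twb_mvps_isAdicComplete A) hd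

/-- `twb_Rchi A d` is a domain. -/
theorem twb_Rchi_isDomain {d : A} (hd : d ∈ maximalIdeal A) : IsDomain (twb_Rchi A d) :=
  (Ideal.Quotient.isDomain_iff_prime _).mpr (twb_K_prime A hd)

end ring

section point

variable {A : Type*} [CommRing A] [IsDomain A] [IsNoetherianRing A] [IsLocalRing A]
  [IsAdicComplete (maximalIdeal A) A]
  {D : Type*} [CommRing D] [IsDomain D] [IsNoetherianRing D] [IsLocalRing D]

/-- A surjection from the `χ`-relations onto a local domain of the maximal possible dimension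
has kernel exactly `twb_K A d`. -/
theorem twb_chi_ker_eq (h2 : IsUnit (2 : A)) {d : A} (hd : d ∈ maximalIdeal A)
    (φ : MvPowerSeries (Fin 6) A →+* D) (hφ : Function.Surjective φ)
    (hX : ∀ i, φ (X i) ∈ maximalIdeal D) (hI : twb_Ichi A d ≤ RingHom.ker φ)
    (hd0 : φ (C d) ≠ 0) (hdim : ringKrullDim A + 3 ≤ ringKrullDim D) :
    RingHom.ker φ = twb_K A d := by
  have hK : twb_K A d ≤ RingHom.ker φ := twb_K_le_ker d φ hX hI hd0
  refine le_antisymm ?_ hK
  have hdom : IsDomain (twb_Rchi A d) := twb_Rchi_isDomain A hd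
  let φb : twb_Rchi A d →+* D := Ideal.Quotient.lift (twb_K A d) φ (fun a ha => hK ha)
  have hφb : Function.Surjective φb := by
    intro y
    obtain ⟨x, rfl⟩ := hφ y
    exact ⟨Ideal.Quotient.mk _ x, Ideal.Quotient.lift_mk _ _ _⟩
  have hker : RingHom.ker φb = ⊥ := by
    by_contra hne
    have hnil : nilradical (twb_Rchi A d) = ⊥ := nilradical_eq_zero _
    have hirr : (nilradical (twb_Rchi A d)).IsPrime := by
      rw [hnil]; exact Ideal.isPrime_bot
    have hnot : ¬ RingHom.ker φb ≤ nilradical (twb_Rchi A d) := by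
      rw [hnil, le_bot_iff]; exact hne
    have h1 := twd_dim_quot_add_one_le hirr (RingHom.ker φb) hnot
    have h2' : ringKrullDim (twb_Rchi A d ⧸ RingHom.ker φb) = ringKrullDim D :=
      ringKrullDim_eq_of_ringEquiv (RingHom.quotientKerEquivOfSurjective hφb)
    rw [h2'] at h1
    have h3 : ringKrullDim (twb_Rchi A d) ≤ ringKrullDim A + 3 := twb_dim_Rchi_le A h2 hd
    have h4 : ringKrullDim D + 1 ≤ ringKrullDim D := h1.trans (h3.trans hdim)
    have hfin : ringKrullDim D ≠ ⊤ := ringKrullDim_ne_top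
    have hbot : ringKrullDim D ≠ ⊥ := ringKrullDim_ne_bot
    obtain ⟨x, hx⟩ := WithBot.ne_bot_iff_exists.mp hbot
    rw [← hx] at h4 hfin
    have hxtop : x ≠ ⊤ := by
      intro h; apply hfin; rw [h]; rfl
    obtain ⟨n, rfl⟩ := ENat.ne_top_iff_exists.mp hxtop
    have h5 : ((n + 1 : ℕ) : WithBot ℕ∞) ≤ ((n : ℕ) : WithBot ℕ∞) := by
      have : ((n + 1 : ℕ) : WithBot ℕ∞) = ((n : ℕ∞) : WithBot ℕ∞) + 1 := by push_cast; rfl
      rw [this]; exact h4
    have h6 : n + 1 ≤ n := by exact_mod_cast h5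
    omega
  intro x hx
  have h1 : φb (Ideal.Quotient.mk _ x) = 0 := (Ideal.Quotient.lift_mk _ _ _).trans hx
  have h2' : Ideal.Quotient.mk (twb_K A d) x ∈ RingHom.ker φb := h1
  rw [hker, Ideal.mem_bot] at h2'
  exact Ideal.Quotient.eq_zero_iff_mem.mp h2'

/-- **The point `η`.** -/
theorem twb_chi_exists_prime (h2 : IsUnit (2 : A)) {d lam : A} (hd : d ∈ maximalIdeal A)
    (hlam : lam ∈ maximalIdeal A) (φ : MvPowerSeries (Fin 6) A →+* D)
    (hφ : Function.Surjective φ) (hX : ∀ i, φ (X i) ∈ maximalIdeal D)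
    (hI : twb_Ichi A d ≤ RingHom.ker φ) (hd0 : φ (C d) ≠ 0)
    (hdim : ringKrullDim A + 3 ≤ ringKrullDim D) :
    ∃ η : Ideal D, η.IsPrime ∧ φ (X 0) ∈ η ∧ φ (X 1) ∈ η ∧ φ (X 2) ∈ η ∧ φ (C lam) ∈ η ∧
      φ (X 3 ^ 2 + X 4 * X 5) ∉ η := by
  have hker := twb_chi_ker_eq h2 hd φ hφ hX hI hd0 hdim
  have hdne : d ≠ 0 := by
    rintro rfl
    exact hd0 (by simp)
  have hdl : Ideal.span {d, lam} ≠ ⊤ := by
    intro htop
    have hle : Ideal.span {d, lam} ≤ maximalIdeal A := by
      rw [Ideal.span_le]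
      intro x hx
      rcases hx with rfl | rfl
      · exact hd
      · exact hlam
    rw [htop] at hle
    exact (Ideal.IsPrime.ne_top inferInstance) (top_le_iff.mp hle)
  set J : Ideal (MvPowerSeries (Fin 6) A) := twb_K A d ⊔ Ideal.span {X 0, X 1, X 2, C lam} with hJ
  set Q : MvPowerSeries (Fin 6) A := X 3 ^ 2 + X 4 * X 5 with hQ
  have hdisj : Disjoint (J : Set (MvPowerSeries (Fin 6) A)) (Submonoid.powers Q) := by
    rw [Set.disjoint_left]
    rintro x hxJ ⟨m, rfl⟩
    exact twb_tau_pow_not_mem hdne hdl m hxJ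
  obtain ⟨η', hη'prime, hJη', hη'disj⟩ := Ideal.exists_le_prime_disjoint J (Submonoid.powers Q) hdisj
  have hQη' : Q ∉ η' := by
    intro h
    exact Set.disjoint_left.mp hη'disj h (Submonoid.mem_powers Q)
  have hkη' : RingHom.ker φ ≤ η' := by
    rw [hker]; exact le_sup_left.trans hJη'
  have hspan : ∀ x ∈ ({X 0, X 1, X 2, C lam} : Set (MvPowerSeries (Fin 6) A)), x ∈ η' := by
    intro x hx
    exact hJη' (Ideal.mem_sup_right (Ideal.subset_span hx))
  refine ⟨η'.map φ, Ideal.map_isPrime_of_surjective hφ hkη', ?_, ?_, ?_, ?_, ?_⟩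
  · exact Ideal.mem_map_of_mem φ (hspan _ (by simp))
  · exact Ideal.mem_map_of_mem φ (hspan _ (by simp))
  · exact Ideal.mem_map_of_mem φ (hspan _ (by simp))
  · exact Ideal.mem_map_of_mem φ (hspan _ (by simp))
  · intro h
    apply hQη'
    have h1 : Q ∈ (η'.map φ).comap φ := h
    rw [Ideal.comap_map_of_surjective φ hφ] at h1
    have h2' : η' ⊔ Ideal.comap φ ⊥ = η' := by
      rw [sup_eq_left]
      exact hkη'
    rw [h2'] at h1
    exact h1

end point

end Fermat.Agent.TW
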