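import Mathlib

/-!
# TW / Loc : B/Dim8, auxiliary algebra (Mathlib only)

Pure algebra over a domain used by `TW/Loc/Dim8.lean`:

* `twb_d8_charP` : a nontrivial ring in which the prime `p` vanishes has characteristic `p`;
* `twb_d8_nilp` : over a domain with `p = 0`, a `2 × 2` matrix `N` with
  `∑_{k<p} (1+N)^k = 0` has `tr N = 0` and `det N = 0` (indeed `N^p = (1+N)^p - 1 = 0`);
* `twb_d8_core` : the entry computation: `tr N = det N = 0`, `M N = N M` and the three linear
  conditions `m₀₁ = n₁₀`, `m₁₀ = n₀₀`, `m₀₀ - m₁₁ = 2 n₀₁` force `N = 0` and `M` scalar.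
-/

namespace Fermat.Agent.TW

/-- A nontrivial ring in which the prime `p` vanishes has characteristic `p`. -/
theorem twb_d8_charP {D : Type*} [CommRing D] [Nontrivial D] {p : ℕ} (hp : p.Prime)
    (h : (p : D) = 0) : CharP D p := by
  obtain ⟨c, hc⟩ := CharP.exists D
  have hdvd : c ∣ p := (CharP.cast_eq_zero_iff D c p).mp h
  rcases (Nat.dvd_prime hp).mp hdvd with rfl | rfl
  · exact absurd rfl (CharP.char_ne_one D 1)
  · exact hc

/-- Over a domain with `p = 0`: `∑_{k<p} (1+N)^k = 0` forces `tr N = 0 = det N`. -/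
theorem twb_d8_nilp {D : Type*} [CommRing D] [IsDomain D] {p : ℕ} (hp : p.Prime)
    (hpD : (p : D) = 0) (N : Matrix (Fin 2) (Fin 2) D)
    (hG : ∑ k ∈ Finset.range p, (1 + N) ^ k = 0) : N.trace = 0 ∧ N.det = 0 := by
  have := twb_d8_charP hp hpD
  have : Fact p.Prime := ⟨hp⟩
  have h1 : N ^ p = 0 := by
    have h2 : ((1 + N) - 1) * ∑ k ∈ Finset.range p, (1 + N) ^ k = (1 + N) ^ p - 1 :=
      mul_geom_sum _ _
    rw [hG, mul_zero] at h2
    have h3 : (1 + N) ^ p = 1 + N ^ p := by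
      rw [add_pow_char_of_commute _ (Commute.one_left N), one_pow]
    rw [h3] at h2
    simpa using h2.symm
  have hnil : IsNilpotent N := ⟨p, h1⟩
  refine ⟨(Matrix.isNilpotent_trace_of_isNilpotent hnil).eq_zero, ?_⟩
  have h4 : N.det ^ p = 0 := by
    rw [← Matrix.det_pow, h1, Matrix.det_zero]
  exact (pow_eq_zero_iff hp.ne_zero).mp h4

/-- The entry computation of B/Dim8. -/
theorem twb_d8_core {D : Type*} [CommRing D] [IsDomain D] (h2 : (2 : D) ≠ 0)
    {n00 n01 n10 n11 m00 m01 m10 m11 : D}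
    (htr : n00 + n11 = 0) (hdet : n00 * n11 - n01 * n10 = 0)
    (e00 : m00 * n00 + m01 * n10 = n00 * m00 + n01 * m10)
    (e01 : m00 * n01 + m01 * n11 = n00 * m01 + n01 * m11)
    (e10 : m10 * n00 + m11 * n10 = n10 * m00 + n11 * m10)
    (p1 : m01 - n10 = 0) (p2 : m10 - n00 = 0) (p3 : m00 - m11 - 2 * n01 = 0) :
    n00 = 0 ∧ n01 = 0 ∧ n10 = 0 ∧ n11 = 0 ∧ m01 = 0 ∧ m10 = 0 ∧ m00 = m11 := by
  have hm01 : m01 = n10 := sub_eq_zero.mp p1
  have hm10 : m10 = n00 := sub_eq_zero.mp p2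
  have hm00 : m00 = m11 + 2 * n01 := by linear_combination p3
  have hn11 : n11 = -n00 := by linear_combination htr
  rw [hm01, hm10, hm00] at e00
  rw [hm01, hm00, hn11] at e01
  rw [hm10, hm00, hn11] at e10
  rw [hn11] at hdet
  -- n² = -bc and n² = bc
  have hA : n00 ^ 2 = -(n01 * n10) := by linear_combination -hdet
  have hB : 2 * n00 ^ 2 = 2 * (n01 * n10) := by linear_combination e10
  have hn : n00 = 0 := by
    have h : 2 * (2 * n00 ^ 2) = 0 := by linear_combination hB + 2 * hA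
    have h' : 2 * n00 ^ 2 = 0 := (mul_eq_zero.mp h).resolve_left h2
    have h'' : n00 ^ 2 = 0 := (mul_eq_zero.mp h').resolve_left h2
    exact (pow_eq_zero_iff two_ne_zero).mp h''
  rw [hn] at e00 e01 e10
  have hb : n01 = 0 := by
    have h : 2 * n01 ^ 2 = 0 := by linear_combination e01
    have h' : n01 ^ 2 = 0 := (mul_eq_zero.mp h).resolve_left h2
    exact (pow_eq_zero_iff two_ne_zero).mp h'
  rw [hb] at e00
  have hc : n10 = 0 := by
    have h : n10 ^ 2 = 0 := by linear_combination e00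
    exact (pow_eq_zero_iff two_ne_zero).mp h
  refine ⟨hn, hb, hc, by rw [hn11, hn, neg_zero], by rw [hm01, hc], by rw [hm10, hn], ?_⟩
  rw [hm00, hb, mul_zero, add_zero]

end Fermat.Agent.TW
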