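import Mathlib
import Fermat.Agent.TW.Loc.Dim
import Fermat.Agent.TW.Loc.Rel8
import Fermat.Agent.TW.Loc.Dim8Aux

/-!
# TW / Loc : B/Dim8 — the dimension bound for the `8`-coordinate `χ`-ring `R^χ_∞ = P / J^#`

Vocabulary of `TW/Loc/Rel8.lean` (helper4): `P = twb_r8_P O T ι = O[[(T × Fin 2 × Fin 2 × Fin 2) ⊕ ι]]`
([C]'s coordinates: `X (t, 0, i, j)` = entries of `Σ_t - 1`, `X (t, 1, i, j)` = entries of
`Φ_t - a_t`), `twb_r8_Sig`, `twb_r8_Phi`, `twb_r8_Jhash`.

* `twb_d8_dim_quot_le` : for ANY ideal `J` of `P` containing, for every `t`, the entries of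
  `∑_{k<p} Σ_t ^ k`, the entries of `Φ_t Σ_t - Σ_t Φ_t` and `det Φ_t - n_t`:
  `ringKrullDim (P ⧸ J) ≤ 1 + 3 |T| + |ι|`, for `O` noetherian local with maximal ideal `(λ)`,
  `p ∈ (λ)` a prime, `2` a unit and `n_t ≡ 1 mod λ`.
* `twb_d8_dim_Rchi_le` : **B/Dim8**, `ringKrullDim (twb_r8_Rchi O ι p a n) ≤ 1 + 3 |T| + |ι|`.

Route (as in B/Dim): the `1 + |ι| + 3 |T|` parameters `λ`, `x_k`,
`X(t,1,0,1) - X(t,0,1,0)`, `X(t,1,1,0) - X(t,0,0,0)`, `X(t,1,0,0) - X(t,1,1,1) - 2 X(t,0,0,1)`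
cut `P ⧸ J` down to a ring whose only prime is the maximal ideal: in a domain quotient where they
vanish, `N = Σ - 1` has `N^p = (Σ - 1) ∑_{k<p} Σ^k = 0` (characteristic `p`), so `tr N = det N = 0`,
the commutation relations become `n² = bc = -n²`, `b² = nc`, `c² = bn`, whence `N = 0`, `Φ` is
scalar and `(a + m)² = 1` forces `m = 0`.
-/

namespace Fermat.Agent.TW

open MvPowerSeries IsLocalRing

section d8

variable {O : Type*} [CommRing O] {T : Type*} {ι : Type*}

theorem twb_d8_mem_maximalIdeal [IsLocalRing O] {σ : Type*} (f : MvPowerSeries σ O)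
    (hf : constantCoeff f ∈ maximalIdeal O) : f ∈ maximalIdeal (MvPowerSeries σ O) := by
  rw [mem_maximalIdeal, mem_nonunits_iff] at hf ⊢
  intro hu
  exact hf (MvPowerSeries.isUnit_iff_constantCoeff.mp hu)

/-- The local computation at one `t`: a prime containing the relations and the three parameters
(and `λ`) contains the eight coordinates of `t`. -/
theorem twb_d8_local [IsLocalRing O] {lam : O}
    (hmax : maximalIdeal O = Ideal.span {lam}) {p : ℕ} (hp : p.Prime)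
    (hpl : (p : O) ∈ Ideal.span {lam}) (h2 : IsUnit (2 : O))
    (a : T → O) (n : T → ℕ) (t : T) (hn : ((n t : O) - 1) ∈ Ideal.span {lam})
    (𝔭 : Ideal (twb_r8_P O T ι)) (h𝔭 : 𝔭.IsPrime)
    (hlam : (C lam : twb_r8_P O T ι) ∈ 𝔭)
    (hG : ∀ i j, (∑ k ∈ Finset.range p, twb_r8_Sig O ι t ^ k) i j ∈ 𝔭)
    (hcomm : ∀ i j,
      (twb_r8_Phi O ι a t * twb_r8_Sig O ι t - twb_r8_Sig O ι t * twb_r8_Phi O ι a t) i j ∈ 𝔭)
    (hdet : (twb_r8_Phi O ι a t).det - ((n t : ℕ) : twb_r8_P O T ι) ∈ 𝔭)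
    (hq1 : (X (Sum.inl (t, 1, 0, 1)) - X (Sum.inl (t, 0, 1, 0)) : twb_r8_P O T ι) ∈ 𝔭)
    (hq2 : (X (Sum.inl (t, 1, 1, 0)) - X (Sum.inl (t, 0, 0, 0)) : twb_r8_P O T ι) ∈ 𝔭)
    (hq3 : (X (Sum.inl (t, 1, 0, 0)) - X (Sum.inl (t, 1, 1, 1))
      - C 2 * X (Sum.inl (t, 0, 0, 1)) : twb_r8_P O T ι) ∈ 𝔭) :
    ∀ e i j : Fin 2, (X (Sum.inl (t, e, i, j)) : twb_r8_P O T ι) ∈ 𝔭 := by
  classical
  have hCspan : ∀ b ∈ Ideal.span {lam}, (C b : twb_r8_P O T ι) ∈ 𝔭 := by
    intro b hb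
    obtain ⟨c, rfl⟩ := Ideal.mem_span_singleton'.mp hb
    rw [map_mul]
    exact Ideal.mul_mem_left _ _ hlam
  have hCmax : ∀ b ∈ maximalIdeal O, (C b : twb_r8_P O T ι) ∈ 𝔭 := by
    intro b hb
    rw [hmax] at hb
    exact hCspan b hb
  let π := Ideal.Quotient.mk 𝔭
  have hπ : ∀ x, π x = 0 ↔ x ∈ 𝔭 := fun x => Ideal.Quotient.eq_zero_iff_mem
  have : IsDomain (twb_r8_P O T ι ⧸ 𝔭) := Ideal.Quotient.isDomain 𝔭
  let N : Matrix (Fin 2) (Fin 2) (twb_r8_P O T ι ⧸ 𝔭) :=
    Matrix.of fun i j => π (X (Sum.inl (t, 0, i, j)))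
  let M : Matrix (Fin 2) (Fin 2) (twb_r8_P O T ι ⧸ 𝔭) :=
    Matrix.of fun i j => π (X (Sum.inl (t, 1, i, j)))
  have hS' : π.mapMatrix (twb_r8_Sig O ι t) = 1 + N := by
    ext i j
    simp only [twb_r8_Sig, RingHom.mapMatrix_apply, Matrix.map_apply, Matrix.add_apply,
      Matrix.one_apply, Matrix.of_apply, map_add, N]
    split_ifs <;> simp
  have hF' : π.mapMatrix (twb_r8_Phi O ι a t) = Matrix.scalar (Fin 2) (π (C (a t))) + M := by
    ext i j
    simp only [twb_r8_Phi, RingHom.mapMatrix_apply, Matrix.map_apply, Matrix.add_apply,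
      Matrix.scalar_apply, Matrix.diagonal_apply, Matrix.of_apply, map_add, M]
    split_ifs <;> simp
  have hpD : ((p : ℕ) : twb_r8_P O T ι ⧸ 𝔭) = 0 := by
    have h := (hπ _).mpr (hCspan _ hpl)
    rwa [map_natCast, map_natCast] at h
  have hG' : ∑ k ∈ Finset.range p, (1 + N) ^ k = 0 := by
    rw [← hS']
    simp only [← map_pow, ← map_sum]
    ext i j
    rw [RingHom.mapMatrix_apply, Matrix.map_apply, Matrix.zero_apply]
    exact (hπ _).mpr (hG i j)
  obtain ⟨htr, hdetN⟩ := twb_d8_nilp hp hpD N hG'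
  rw [Matrix.trace_fin_two] at htr
  rw [Matrix.det_fin_two] at hdetN
  have h0 : (Matrix.scalar (Fin 2) (π (C (a t))) + M) * (1 + N)
      - (1 + N) * (Matrix.scalar (Fin 2) (π (C (a t))) + M) = 0 := by
    rw [← hS', ← hF', ← map_mul, ← map_mul, ← map_sub]
    ext i j
    rw [RingHom.mapMatrix_apply, Matrix.map_apply, Matrix.zero_apply]
    exact (hπ _).mpr (hcomm i j)
  have e00 : M 0 0 * N 0 0 + M 0 1 * N 1 0 = N 0 0 * M 0 0 + N 0 1 * M 1 0 := by
    have h := congrFun (congrFun h0 0) 0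
    simp [Matrix.mul_apply, Fin.sum_univ_two, Matrix.add_apply, Matrix.one_apply,
      Matrix.sub_apply] at h
    linear_combination h
  have e01 : M 0 0 * N 0 1 + M 0 1 * N 1 1 = N 0 0 * M 0 1 + N 0 1 * M 1 1 := by
    have h := congrFun (congrFun h0 0) 1
    simp [Matrix.mul_apply, Fin.sum_univ_two, Matrix.add_apply, Matrix.one_apply,
      Matrix.sub_apply] at h
    linear_combination h
  have e10 : M 1 0 * N 0 0 + M 1 1 * N 1 0 = N 1 0 * M 0 0 + N 1 1 * M 1 0 := by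
    have h := congrFun (congrFun h0 1) 0
    simp [Matrix.mul_apply, Fin.sum_univ_two, Matrix.add_apply, Matrix.one_apply,
      Matrix.sub_apply] at h
    linear_combination h
  have hp1 : M 0 1 - N 1 0 = 0 := by
    have h := (hπ _).mpr hq1
    rwa [map_sub] at h
  have hp2 : M 1 0 - N 0 0 = 0 := by
    have h := (hπ _).mpr hq2
    rwa [map_sub] at h
  have hp3 : M 0 0 - M 1 1 - 2 * N 0 1 = 0 := by
    have h := (hπ _).mpr hq3
    rwa [map_sub, map_sub, map_mul, map_ofNat, map_ofNat] at h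
  have hunitC : ∀ u : O, IsUnit u → ∀ f : twb_r8_P O T ι, constantCoeff f = u → f ∉ 𝔭 := by
    intro u hu f hf hmem
    have : IsUnit f := MvPowerSeries.isUnit_iff_constantCoeff.mpr (hf ▸ hu)
    exact h𝔭.ne_top (Ideal.eq_top_of_isUnit_mem _ hmem this)
  have h2D : (2 : twb_r8_P O T ι ⧸ 𝔭) ≠ 0 := by
    intro h
    have h' : π (C (2 : O)) = 0 := by rw [map_ofNat, map_ofNat]; exact h
    exact hunitC 2 h2 _ (by simp) ((hπ _).mp h')
  obtain ⟨z00, z01, z10, z11, y01, y10, y⟩ :=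
    twb_d8_core h2D htr hdetN e00 e01 e10 hp1 hp2 hp3
  -- the determinant of `Φ`
  have hdet' : (π (C (a t)) + M 0 0) * (π (C (a t)) + M 1 1) - M 0 1 * M 1 0
      = ((n t : ℕ) : twb_r8_P O T ι ⧸ 𝔭) := by
    have h := (hπ _).mpr hdet
    rw [map_sub, sub_eq_zero, RingHom.map_det, hF', Matrix.det_fin_two] at h
    simp [Matrix.add_apply] at h
    linear_combination h
  have hnD : ((n t : ℕ) : twb_r8_P O T ι ⧸ 𝔭) = 1 := by
    have h := (hπ _).mpr (hCspan _ hn)
    rw [map_sub, map_sub, map_one, map_one, map_natCast, map_natCast] at h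
    exact sub_eq_zero.mp h
  -- the element `f = X (C (2a) + X) - C (1 - a²)` lies in `𝔭`
  have hf : (X (Sum.inl (t, 1, 0, 0)) * (C (2 * a t) + X (Sum.inl (t, 1, 0, 0)))
      - C (1 - a t ^ 2) : twb_r8_P O T ι) ∈ 𝔭 := by
    rw [← hπ]
    simp only [map_sub, map_mul, map_add, map_one, map_pow, map_ofNat]
    have hM00 : π (X (Sum.inl (t, 1, 0, 0))) = M 0 0 := rfl
    rw [hM00]
    rw [hnD, y01, ← y] at hdet'
    linear_combination hdet'
  have hx00 : (X (Sum.inl (t, 1, 0, 0)) : twb_r8_P O T ι) ∈ 𝔭 := by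
    by_cases hu : IsUnit (1 - a t ^ 2)
    · exact absurd hf (hunitC (-(1 - a t ^ 2)) hu.neg _ (by simp))
    · have hmem : 1 - a t ^ 2 ∈ maximalIdeal O := hu
      have hau : IsUnit (a t) := by
        by_contra hna
        have ha : a t ∈ maximalIdeal O := hna
        have h1 : (1 : O) ∈ maximalIdeal O := by
          have := add_mem hmem (Ideal.mul_mem_left _ (a t) ha)
          have e : 1 - a t ^ 2 + a t * a t = 1 := by ring
          rwa [e] at this
        exact (maximalIdeal.isMaximal O).ne_top ((Ideal.eq_top_iff_one _).mpr h1)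
      have hprod : (X (Sum.inl (t, 1, 0, 0)) * (C (2 * a t) + X (Sum.inl (t, 1, 0, 0)))
          : twb_r8_P O T ι) ∈ 𝔭 := by
        have := add_mem hf (hCmax _ hmem)
        simpa using this
      exact (h𝔭.mem_or_mem hprod).resolve_right
        (hunitC (2 * a t) (h2.mul hau) _ (by simp))
  have hx11 : (X (Sum.inl (t, 1, 1, 1)) : twb_r8_P O T ι) ∈ 𝔭 := by
    rw [← hπ]
    have h1 : π (X (Sum.inl (t, 1, 1, 1))) = M 1 1 := rfl
    have h0' : π (X (Sum.inl (t, 1, 0, 0))) = M 0 0 := rfl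
    rw [h1, ← y, ← h0']
    exact (hπ _).mpr hx00
  intro e i j
  fin_cases e <;> fin_cases i <;> fin_cases j
  · exact (hπ _).mp z00
  · exact (hπ _).mp z01
  · exact (hπ _).mp z10
  · exact (hπ _).mp z11
  · exact hx00
  · exact (hπ _).mp y01
  · exact (hπ _).mp y10
  · exact hx11

/-- **B/Dim8, general form**: any ideal containing the `#`-relations (the relation `det Σ = 1` is
not even needed) has a quotient of dimension at most `1 + 3 |T| + |ι|`. -/
theorem twb_d8_dim_quot_le [Fintype T] [Fintype ι] [IsNoetherianRing O] [IsLocalRing O] {lam : O}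
    (hmax : maximalIdeal O = Ideal.span {lam}) {p : ℕ} (hp : p.Prime)
    (hpl : (p : O) ∈ Ideal.span {lam}) (h2 : IsUnit (2 : O))
    (a : T → O) (n : T → ℕ) (hn : ∀ t, ((n t : O) - 1) ∈ Ideal.span {lam})
    (J : Ideal (twb_r8_P O T ι))
    (hG : ∀ t i j, (∑ k ∈ Finset.range p, twb_r8_Sig O ι t ^ k) i j ∈ J)
    (hcomm : ∀ t i j,
      (twb_r8_Phi O ι a t * twb_r8_Sig O ι t - twb_r8_Sig O ι t * twb_r8_Phi O ι a t) i j ∈ J)
    (hdet : ∀ t, (twb_r8_Phi O ι a t).det - ((n t : ℕ) : twb_r8_P O T ι) ∈ J) :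
    ringKrullDim (twb_r8_P O T ι ⧸ J) ≤
      ((1 + 3 * Fintype.card T + Fintype.card ι : ℕ) : WithBot ℕ∞) := by
  classical
  let q1 : T → twb_r8_P O T ι := fun t => X (Sum.inl (t, 1, 0, 1)) - X (Sum.inl (t, 0, 1, 0))
  let q2 : T → twb_r8_P O T ι := fun t => X (Sum.inl (t, 1, 1, 0)) - X (Sum.inl (t, 0, 0, 0))
  let q3 : T → twb_r8_P O T ι := fun t =>
    X (Sum.inl (t, 1, 0, 0)) - X (Sum.inl (t, 1, 1, 1)) - C 2 * X (Sum.inl (t, 0, 0, 1))
  let s : Finset (twb_r8_P O T ι) :=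
    insert (C lam) (Finset.univ.image (fun k : ι => (X (Sum.inr k) : twb_r8_P O T ι)) ∪
      (Finset.univ.image q1 ∪ (Finset.univ.image q2 ∪ Finset.univ.image q3)))
  have hlamM : lam ∈ maximalIdeal O := by
    rw [hmax]; exact Ideal.mem_span_singleton_self lam
  have hs : (s : Set (twb_r8_P O T ι)) ⊆ maximalIdeal (twb_r8_P O T ι) := by
    intro x hx
    apply twb_d8_mem_maximalIdeal
    simp only [s, Finset.coe_insert, Finset.coe_union, Finset.coe_image, Finset.coe_univ,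
      Set.image_univ, Set.mem_insert_iff, Set.mem_union, Set.mem_range] at hx
    rcases hx with rfl | ⟨k, rfl⟩ | ⟨t, rfl⟩ | ⟨t, rfl⟩ | ⟨t, rfl⟩
    · simpa using hlamM
    · simp
    · simp [q1]
    · simp [q2]
    · simp [q3]
  have key := twb_dim_quot_le_card_of_primes J s hs (by
    intro 𝔭 h𝔭 hJ𝔭 hs𝔭
    have hlam : (C lam : twb_r8_P O T ι) ∈ 𝔭 := hs𝔭 (by simp [s])
    have hC : ∀ b ∈ maximalIdeal O, (C b : twb_r8_P O T ι) ∈ 𝔭 := by
      intro b hb
      rw [hmax] at hb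
      obtain ⟨c, rfl⟩ := Ideal.mem_span_singleton'.mp hb
      rw [map_mul]
      exact Ideal.mul_mem_left _ _ hlam
    apply twb_dim_maximalIdeal_le 𝔭 _ hC
    rintro (⟨t, e, i, j⟩ | k)
    · refine twb_d8_local hmax hp hpl h2 a n t (hn t) 𝔭 h𝔭 hlam (fun i j => hJ𝔭 (hG t i j))
        (fun i j => hJ𝔭 (hcomm t i j)) (hJ𝔭 (hdet t)) ?_ ?_ ?_ e i j
      · apply hs𝔭
        simp only [s, Finset.coe_insert, Finset.coe_union, Finset.coe_image, Finset.coe_univ,
          Set.image_univ, Set.mem_insert_iff, Set.mem_union, Set.mem_range]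
        exact Or.inr (Or.inr (Or.inl ⟨t, rfl⟩))
      · apply hs𝔭
        simp only [s, Finset.coe_insert, Finset.coe_union, Finset.coe_image, Finset.coe_univ,
          Set.image_univ, Set.mem_insert_iff, Set.mem_union, Set.mem_range]
        exact Or.inr (Or.inr (Or.inr (Or.inl ⟨t, rfl⟩)))
      · apply hs𝔭
        simp only [s, Finset.coe_insert, Finset.coe_union, Finset.coe_image, Finset.coe_univ,
          Set.image_univ, Set.mem_insert_iff, Set.mem_union, Set.mem_range]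
        exact Or.inr (Or.inr (Or.inr (Or.inr ⟨t, rfl⟩)))
    · apply hs𝔭
      simp only [s, Finset.coe_insert, Finset.coe_union, Finset.coe_image, Finset.coe_univ,
        Set.image_univ, Set.mem_insert_iff, Set.mem_union, Set.mem_range]
      exact Or.inr (Or.inl ⟨k, rfl⟩))
  refine key.trans ?_
  have hcard : s.card ≤ 1 + 3 * Fintype.card T + Fintype.card ι := by
    have h1 := Finset.card_insert_le (C lam : twb_r8_P O T ι)
      (Finset.univ.image (fun k : ι => (X (Sum.inr k) : twb_r8_P O T ι)) ∪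
      (Finset.univ.image q1 ∪ (Finset.univ.image q2 ∪ Finset.univ.image q3)))
    have h2 := Finset.card_union_le
      (Finset.univ.image (fun k : ι => (X (Sum.inr k) : twb_r8_P O T ι)))
      (Finset.univ.image q1 ∪ (Finset.univ.image q2 ∪ Finset.univ.image q3))
    have h3 := Finset.card_union_le (Finset.univ.image q1)
      (Finset.univ.image q2 ∪ Finset.univ.image q3)
    have h4 := Finset.card_union_le (Finset.univ.image q2) (Finset.univ.image q3)
    have h5 := Finset.card_image_le (s := (Finset.univ : Finset ι))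
      (f := fun k : ι => (X (Sum.inr k) : twb_r8_P O T ι))
    have h6 := Finset.card_image_le (s := (Finset.univ : Finset T)) (f := q1)
    have h7 := Finset.card_image_le (s := (Finset.univ : Finset T)) (f := q2)
    have h8 := Finset.card_image_le (s := (Finset.univ : Finset T)) (f := q3)
    rw [Finset.card_univ] at h5 h6 h7 h8
    have hs_def : s.card = (insert (C lam : twb_r8_P O T ι)
      (Finset.univ.image (fun k : ι => (X (Sum.inr k) : twb_r8_P O T ι)) ∪
      (Finset.univ.image q1 ∪ (Finset.univ.image q2 ∪ Finset.univ.image q3)))).card := rfl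
    omega
  exact_mod_cast hcard

/-- **B/Dim8**: `ringKrullDim R^χ_∞ ≤ 1 + 3 |T| + |ι|` for the `8`-coordinate ring
`R^χ_∞ = P / J^#` of `TW/Loc/Rel8.lean`. -/
theorem twb_d8_dim_Rchi_le [Fintype T] [Fintype ι] [IsNoetherianRing O] [IsLocalRing O] {lam : O}
    (hmax : maximalIdeal O = Ideal.span {lam}) {p : ℕ} (hp : p.Prime)
    (hpl : (p : O) ∈ Ideal.span {lam}) (h2 : IsUnit (2 : O))
    (a : T → O) (n : T → ℕ) (hn : ∀ t, n t % p = 1) :
    ringKrullDim (twb_r8_Rchi O ι p a n) ≤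
      ((1 + 3 * Fintype.card T + Fintype.card ι : ℕ) : WithBot ℕ∞) := by
  have hn' : ∀ t, ((n t : O) - 1) ∈ Ideal.span {lam} := by
    intro t
    have h : n t = p * (n t / p) + 1 := by
      have := Nat.div_add_mod (n t) p
      rw [hn t] at this
      exact this.symm
    have e : (n t : O) - 1 = (p : O) * ((n t / p : ℕ) : O) := by
      conv_lhs => rw [h]
      push_cast
      ring
    rw [e]
    exact Ideal.mul_mem_right _ _ hpl
  have hmem : ∀ t x, x ∈ twb_r8_hashSet p ((n t : ℕ) : twb_r8_P O T ι) (twb_r8_Sig O ι t)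
      (twb_r8_Phi O ι a t) → x ∈ twb_r8_Jhash O ι p a n := by
    intro t x hx
    exact Ideal.subset_span (Set.mem_iUnion.mpr ⟨t, hx⟩)
  refine twb_d8_dim_quot_le hmax hp hpl h2 a n hn' (twb_r8_Jhash O ι p a n) ?_ ?_ ?_
  · intro t i j
    apply hmem t
    exact Or.inl (Or.inl (Or.inl ⟨(i, j), rfl⟩))
  · intro t i j
    apply hmem t
    exact Or.inl (Or.inr ⟨(i, j), rfl⟩)
  · intro t
    apply hmem t
    exact Or.inr rfl

end d8

end Fermat.Agent.TW
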