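import Mathlib
import Fermat.Agent.TW.Loc.ChiDefs

/-!
# TW / Loc : B/Trans — from the matrix relations to the `sl₂`-coordinates

`Σ, Φ` are `2 × 2` matrices over a commutative ring in which `2` is invertible (`h = 1/2`).
Traceless coordinates: `S = Σ - (tr Σ / 2) = [[u, b], [c, -u]]`, `F = Φ - (tr Φ / 2) = [[v, e], [f, -v]]`.

* `twb_tr_pow_eq` : `charpoly Σ = (X - z)(X - w)` with `z ^ q = z`, `w ^ q = w`, `z - w` regular in
  the coefficient ring `O` ⟹ `Σ ^ q = Σ` (so the tame relation `Φ Σ = Σ ^ q Φ` says `Φ Σ = Σ Φ`).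
* `twb_tr_Q` : `u² + bc = (tr Σ)² / 4 - det Σ`.
* `twb_tr_minors` : `Φ Σ = Σ Φ` ⟹ the three `2 × 2` minors of `[[u,b,c],[v,e,f]]` vanish
  (converse `twb_tr_comm_of_minors` when `2 h = 1`).
* `twb_tr_Ichi_le_ker` : hence a ring hom from `A[[u,b,c,v,e,f]]` sending the variables to these
  coordinates kills `twb_Ichi A d`.
-/

namespace Fermat.Agent.TW

open Matrix Polynomial

section pow

variable {O : Type*} [CommRing O]

/-- `(X - z)(X - w) ∣ X ^ q - X` when `z ^ q = z`, `w ^ q = w` and `z - w` is regular. -/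
theorem twb_tr_dvd (z w : O) (hreg : z - w ∈ nonZeroDivisors O) (q : ℕ) (hz : z ^ q = z)
    (hw : w ^ q = w) : (X - C z) * (X - C w) ∣ (X ^ q - X : O[X]) := by
  have h1 : (X - C z) ∣ (X ^ q - X : O[X]) := by
    rw [Polynomial.dvd_iff_isRoot]
    simp [hz]
  obtain ⟨g, hg⟩ := h1
  have h2 : (X - C w) ∣ g := by
    rw [Polynomial.dvd_iff_isRoot, Polynomial.IsRoot.def]
    have := congrArg (Polynomial.eval w) hg
    simp only [eval_sub, eval_pow, eval_X, hw, sub_self, eval_mul, eval_C] at this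
    have h3 : (z - w) * eval w g = 0 := by linear_combination this
    have h4 : eval w g * (z - w) = 0 := by rw [mul_comm]; exact h3
    exact (mem_nonZeroDivisors_iff_right.mp hreg) _ h4
  obtain ⟨g', hg'⟩ := h2
  exact ⟨g', by rw [hg, hg']; ring⟩

variable {R : Type*} [CommRing R]

/-- A matrix killed by its characteristic polynomial `(X - z)(X - w)` with `z ^ q = z`,
`w ^ q = w`, `z - w` regular in `O`, satisfies `M ^ q = M`. -/
theorem twb_tr_pow_eq {n : Type*} [Fintype n] [DecidableEq n] (φ : O →+* R) (z w : O)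
    (hreg : z - w ∈ nonZeroDivisors O)
    (q : ℕ) (hz : z ^ q = z) (hw : w ^ q = w) (M : Matrix n n R)
    (hM : M.charpoly = (X - C (φ z)) * (X - C (φ w))) : M ^ q = M := by
  obtain ⟨g, hg⟩ := twb_tr_dvd z w hreg q hz hw
  have h1 : (X ^ q - X : R[X]) = M.charpoly * g.map φ := by
    have := congrArg (Polynomial.map φ) hg
    simp only [Polynomial.map_sub, Polynomial.map_pow, Polynomial.map_X, Polynomial.map_mul,
      Polynomial.map_C] at this
    rw [this, hM]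
  have h2 := congrArg (Polynomial.aeval M) h1
  rw [map_mul, Matrix.aeval_self_charpoly, zero_mul] at h2
  simp only [map_sub, map_pow, aeval_X] at h2
  exact sub_eq_zero.mp h2

/-- The characteristic polynomial of a `2 × 2` matrix with `tr = z + w`, `det = z w`. -/
theorem twb_tr_charpoly (M : Matrix (Fin 2) (Fin 2) R) (z w : R) (htr : M.trace = z + w)
    (hdet : M.det = z * w) : M.charpoly = (X - C z) * (X - C w) := by
  nontriviality R
  rw [Matrix.charpoly_fin_two, htr, hdet]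
  simp only [map_add, map_mul]
  ring

/-- For a `2 × 2` matrix: `charpoly = (X - z)(X - w)` gives `tr = z + w` and `det = z w`. -/
theorem twb_tr_trace_det (M : Matrix (Fin 2) (Fin 2) R) (z w : R)
    (h : M.charpoly = (X - C z) * (X - C w)) : M.trace = z + w ∧ M.det = z * w := by
  rcases subsingleton_or_nontrivial R with hs | hn
  · exact ⟨Subsingleton.elim _ _, Subsingleton.elim _ _⟩
  rw [Matrix.charpoly_fin_two] at h
  have h0 := congrArg (fun p => Polynomial.coeff p 0) h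
  have h1 := congrArg (fun p => Polynomial.coeff p 1) h
  have e : ((X - C z) * (X - C w) : R[X]) = X ^ 2 - C (z + w) * X + C (z * w) := by
    simp only [map_add, map_mul]; ring
  rw [e] at h0 h1
  simp only [coeff_add, coeff_sub, coeff_X_pow, coeff_C_mul, coeff_X_zero, coeff_X_one,
    coeff_C_zero, mul_zero, mul_one, coeff_C_succ] at h0 h1
  norm_num at h0 h1
  exact ⟨by linear_combination -h1, h0⟩

end pow

section coords

variable {R : Type*} [CommRing R]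

/-- `u² + bc = (tr Σ)²/4 - det Σ` (`h = 1/2`). -/
theorem twb_tr_Q (Sg : Matrix (Fin 2) (Fin 2) R) (h : R) (h2 : 2 * h = 1) :
    (h * (Sg 0 0 - Sg 1 1)) ^ 2 + Sg 0 1 * Sg 1 0 = h ^ 2 * Sg.trace ^ 2 - Sg.det := by
  rw [Matrix.det_fin_two, Matrix.trace_fin_two]
  have e : (4 : R) * h ^ 2 = 1 := by linear_combination (2 * h + 1) * h2
  linear_combination (-(Sg 0 0 * Sg 1 1)) * e

/-- `u² + bc = d` when `tr Σ = z + w`, `det Σ = z w = 1` and `d = ((z - w)/2)²`. -/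
theorem twb_tr_Q_eq (Sg : Matrix (Fin 2) (Fin 2) R) (h : R) (h2 : 2 * h = 1) (z w d : R)
    (htr : Sg.trace = z + w) (hdet : Sg.det = z * w) (hd : d = (h * (z - w)) ^ 2) :
    (h * (Sg 0 0 - Sg 1 1)) ^ 2 + Sg 0 1 * Sg 1 0 - d = 0 := by
  rw [twb_tr_Q Sg h h2, htr, hdet, hd]
  have e : (4 : R) * h ^ 2 = 1 := by linear_combination (2 * h + 1) * h2
  linear_combination (z * w) * e

/-- `det Φ = q` in traceless coordinates: `(tr Φ)²/4 = q + Q(F)`. -/
theorem twb_tr_detPhi (Φ : Matrix (Fin 2) (Fin 2) R) (h : R) (h2 : 2 * h = 1) (q : R)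
    (hdet : Φ.det = q) :
    h ^ 2 * Φ.trace ^ 2 = q + ((h * (Φ 0 0 - Φ 1 1)) ^ 2 + Φ 0 1 * Φ 1 0) := by
  rw [twb_tr_Q Φ h h2, hdet]; ring

/-- `Φ Σ = Σ Φ` ⟹ the three minors vanish (`h = 1/2`). -/
theorem twb_tr_minors (Φ Sg : Matrix (Fin 2) (Fin 2) R) (h : R)
    (hcomm : Φ * Sg = Sg * Φ) :
    (h * (Φ 0 0 - Φ 1 1)) * Sg 0 1 - Φ 0 1 * (h * (Sg 0 0 - Sg 1 1)) = 0 ∧
    (h * (Φ 0 0 - Φ 1 1)) * Sg 1 0 - Φ 1 0 * (h * (Sg 0 0 - Sg 1 1)) = 0 ∧
    Φ 0 1 * Sg 1 0 - Φ 1 0 * Sg 0 1 = 0 := by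
  have h00 := congrFun (congrFun hcomm 0) 0
  have h01 := congrFun (congrFun hcomm 0) 1
  have h10 := congrFun (congrFun hcomm 1) 0
  simp only [Matrix.mul_apply, Fin.sum_univ_two] at h00 h01 h10
  refine ⟨?_, ?_, ?_⟩
  · linear_combination h * h01
  · linear_combination (-h) * h10
  · linear_combination h00

/-- Conversely the vanishing of the minors gives `Φ Σ = Σ Φ`. -/
theorem twb_tr_comm_of_minors (Φ Sg : Matrix (Fin 2) (Fin 2) R) (h : R) (h2 : 2 * h = 1)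
    (m1 : (h * (Φ 0 0 - Φ 1 1)) * Sg 0 1 - Φ 0 1 * (h * (Sg 0 0 - Sg 1 1)) = 0)
    (m2 : (h * (Φ 0 0 - Φ 1 1)) * Sg 1 0 - Φ 1 0 * (h * (Sg 0 0 - Sg 1 1)) = 0)
    (m3 : Φ 0 1 * Sg 1 0 - Φ 1 0 * Sg 0 1 = 0) : Φ * Sg = Sg * Φ := by
  ext i j
  fin_cases i <;> fin_cases j <;> simp only [Matrix.mul_apply, Fin.sum_univ_two, Fin.zero_eta,
    Fin.mk_one, Fin.isValue]
  · linear_combination m3
  · linear_combination 2 * m1 - (Sg 0 1 * (Φ 0 0 - Φ 1 1) - Φ 0 1 * (Sg 0 0 - Sg 1 1)) * h2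
  · linear_combination -2 * m2 - (Φ 1 0 * (Sg 0 0 - Sg 1 1) - Sg 1 0 * (Φ 0 0 - Φ 1 1)) * h2
  · linear_combination -m3

end coords

section ichi

open MvPowerSeries

variable {A : Type*} [CommRing A] {R : Type*} [CommRing R]

/-- A ring hom from `A[[u,b,c,v,e,f]]` sending the six variables to the traceless coordinates of
a commuting pair `(Φ, Σ)` with `Q(S) = d` kills the naive `χ`-relations. -/
theorem twb_tr_Ichi_le_ker (d : A) (φ : MvPowerSeries (Fin 6) A →+* R)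
    (Φ Sg : Matrix (Fin 2) (Fin 2) R) (h : R)
    (hX0 : φ (X 0) = h * (Sg 0 0 - Sg 1 1)) (hX1 : φ (X 1) = Sg 0 1) (hX2 : φ (X 2) = Sg 1 0)
    (hX3 : φ (X 3) = h * (Φ 0 0 - Φ 1 1)) (hX4 : φ (X 4) = Φ 0 1) (hX5 : φ (X 5) = Φ 1 0)
    (hcomm : Φ * Sg = Sg * Φ)
    (hQ : (h * (Sg 0 0 - Sg 1 1)) ^ 2 + Sg 0 1 * Sg 1 0 - φ (C d) = 0) :
    twb_Ichi A d ≤ RingHom.ker φ := by
  obtain ⟨m1, m2, m3⟩ := twb_tr_minors Φ Sg h hcomm
  unfold twb_Ichi
  rw [Ideal.span_le]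
  intro x hx
  simp only [Set.mem_insert_iff, Set.mem_singleton_iff] at hx
  rw [SetLike.mem_coe, RingHom.mem_ker]
  rcases hx with rfl | rfl | rfl | rfl
  · simp only [map_sub, map_add, map_mul, map_pow, hX0, hX1, hX2]
    exact hQ
  · simp only [map_sub, map_mul, hX0, hX1, hX3, hX4]
    exact m1
  · simp only [map_sub, map_mul, hX0, hX2, hX3, hX5]
    exact m2
  · simp only [map_sub, map_mul, hX1, hX2, hX4, hX5]
    exact m3

/-- **B/Trans, assembled (`χ`-side).**  `O → A → A[[u,b,c,v,e,f]] → R`; `z, w` in `O` (in the application `w = z⁻¹`),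
`z ^ q = z`, `w ^ q = w`, `z - w` regular, `2` invertible in `O`.  If `charpoly Σ = (X - z)(X - w)`
and `Φ Σ = Σ ^ q Φ` in `M₂(R)` and `φ` sends the six variables to the traceless coordinates of
`(Σ, Φ)`, then `φ` kills `twb_Ichi A d` for `d = ((z - w)/2)²`. -/
theorem twb_tr_chi_Ichi_le_ker {O : Type*} [CommRing O] (ι : O →+* A)
    (φ : MvPowerSeries (Fin 6) A →+* R) (z w hO : O) (h2 : 2 * hO = 1)
    (hreg : z - w ∈ nonZeroDivisors O) (q : ℕ) (hz : z ^ q = z) (hw : w ^ q = w)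
    (Φ Sg : Matrix (Fin 2) (Fin 2) R)
    (hchar : Sg.charpoly = (Polynomial.X - Polynomial.C (φ (C (ι z)))) *
      (Polynomial.X - Polynomial.C (φ (C (ι w)))))
    (hrel : Φ * Sg = Sg ^ q * Φ)
    (hX0 : φ (X 0) = φ (C (ι hO)) * (Sg 0 0 - Sg 1 1)) (hX1 : φ (X 1) = Sg 0 1)
    (hX2 : φ (X 2) = Sg 1 0)
    (hX3 : φ (X 3) = φ (C (ι hO)) * (Φ 0 0 - Φ 1 1)) (hX4 : φ (X 4) = Φ 0 1)
    (hX5 : φ (X 5) = Φ 1 0) :
    twb_Ichi A (ι ((hO * (z - w)) ^ 2)) ≤ RingHom.ker φ := by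
  set ψ : O →+* R := (φ.comp (C (σ := Fin 6) (R := A))).comp ι with hψ
  have hpow : Sg ^ q = Sg := twb_tr_pow_eq ψ z w hreg q hz hw Sg hchar
  rw [hpow] at hrel
  obtain ⟨htr, hdet⟩ := twb_tr_trace_det Sg _ _ hchar
  have h2' : 2 * ψ hO = 1 := by
    rw [← map_ofNat ψ 2, ← map_mul, h2, map_one]
  refine twb_tr_Ichi_le_ker _ φ Φ Sg (ψ hO) hX0 hX1 hX2 hX3 hX4 hX5 hrel ?_
  have := twb_tr_Q_eq Sg (ψ hO) h2' (ψ z) (ψ w) (ψ ((hO * (z - w)) ^ 2)) htr hdet
    (by simp only [map_pow, map_mul, map_sub])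
  exact this

end ichi

end Fermat.Agent.TW
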