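import Mathlib
import Fermat.Agent.TW.Loc.Traceless

/-!
# TW / [B] LOC: B/Eta, the algebra of the six traceless coordinates (prefix `twb_ea_`)

`Σ, Φ` two `2 × 2` matrices over a local `O`-algebra `D`, `h = 1/2`.

* `twb_ea_y h Σ Φ : Fin 6 → D` : the coordinates `(u, b, c, v, e, f)` of the traceless parts
  `S₀ = Σ - tr Σ / 2`, `F = Φ - tr Φ / 2`;
* `twb_ea_sig_mem` : if `tr Σ = t ∈ O` with `t - 2 ∈ 𝔪_O`, the entries of `Σ - 1` lie in
  `𝔪_O D + (u, b, c, v, e, f)`;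
* `twb_ea_phi_mem` : if `det Φ = n`, `a² - n ∈ 𝔪_O`, `2a ∈ Oˣ` and `Φ ≡ a mod 𝔪_D`, the entries of
  `Φ - a` lie in `𝔪_O D + (u, b, c, v, e, f)`;
* `twb_ea_tau_not_mem` : at a prime `η` with `1 - n ∈ η` and `v² + ef ∉ η`:
  `(tr Φ)² - (1 + n)² ∉ η`.
-/

set_option autoImplicit false

namespace Fermat.Agent.TW

open IsLocalRing Matrix

section

variable {D : Type*} [CommRing D]

/-- the six traceless coordinates `(u, b, c, v, e, f)` of the pair `(Σ, Φ)` (`h = 1/2`). -/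
def twb_ea_y (h : D) (Sg Ph : Matrix (Fin 2) (Fin 2) D) : Fin 6 → D :=
  ![h * (Sg 0 0 - Sg 1 1), Sg 0 1, Sg 1 0, h * (Ph 0 0 - Ph 1 1), Ph 0 1, Ph 1 0]

theorem twb_ea_y_mem_span (h : D) (Sg Ph : Matrix (Fin 2) (Fin 2) D) (i : Fin 6) :
    twb_ea_y h Sg Ph i ∈ Ideal.span (Set.range (twb_ea_y h Sg Ph)) :=
  Ideal.subset_span ⟨i, rfl⟩

variable {O : Type*} [CommRing O] [Algebra O D]

/-- the entries of `Σ - 1` lie in `𝔪_O D + (y)`. -/
theorem twb_ea_sig_mem [IsLocalRing O] (h : O) (h2 : 2 * h = 1) (Sg Ph : Matrix (Fin 2) (Fin 2) D)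
    (t : O) (htr : Sg.trace = algebraMap O D t) (ht : t - 2 ∈ maximalIdeal O) (i j : Fin 2) :
    (Sg - 1) i j ∈ (maximalIdeal O).map (algebraMap O D) ⊔
      Ideal.span (Set.range (twb_ea_y (algebraMap O D h) Sg Ph)) := by
  set I := (maximalIdeal O).map (algebraMap O D) ⊔
      Ideal.span (Set.range (twb_ea_y (algebraMap O D h) Sg Ph)) with hI
  have hy : ∀ k, twb_ea_y (algebraMap O D h) Sg Ph k ∈ I := fun k =>
    Ideal.mem_sup_right (twb_ea_y_mem_span _ _ _ k)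
  have hc : algebraMap O D (h * (t - 2)) ∈ I :=
    Ideal.mem_sup_left (Ideal.mem_map_of_mem _ (Ideal.mul_mem_left _ _ ht))
  have h2' : (2 : D) * algebraMap O D h = 1 := by
    rw [← map_ofNat (algebraMap O D) 2, ← map_mul, h2, map_one]
  rw [Matrix.trace_fin_two] at htr
  have e0 : twb_ea_y (algebraMap O D h) Sg Ph 0 = algebraMap O D h * (Sg 0 0 - Sg 1 1) := rfl
  have e1 : twb_ea_y (algebraMap O D h) Sg Ph 1 = Sg 0 1 := rfl
  have e2 : twb_ea_y (algebraMap O D h) Sg Ph 2 = Sg 1 0 := rfl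
  have hc' : algebraMap O D (h * (t - 2)) = algebraMap O D h * (Sg 0 0 + Sg 1 1) - 1 := by
    rw [map_mul, map_sub, ← htr, map_ofNat]
    linear_combination (-1 : D) * h2'
  fin_cases i <;> fin_cases j
  · have : (Sg - 1) 0 0 = algebraMap O D (h * (t - 2)) + twb_ea_y (algebraMap O D h) Sg Ph 0 := by
      rw [hc', e0]
      simp only [Matrix.sub_apply, Matrix.one_apply_eq]
      linear_combination (-(Sg 0 0)) * h2'
    show (Sg - 1) 0 0 ∈ I
    rw [this]
    exact I.add_mem hc (hy 0)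
  · have : (Sg - 1) 0 1 = twb_ea_y (algebraMap O D h) Sg Ph 1 := by
      rw [e1]; simp
    show (Sg - 1) 0 1 ∈ I
    rw [this]
    exact hy 1
  · have : (Sg - 1) 1 0 = twb_ea_y (algebraMap O D h) Sg Ph 2 := by
      rw [e2]; simp
    show (Sg - 1) 1 0 ∈ I
    rw [this]
    exact hy 2
  · have : (Sg - 1) 1 1 = algebraMap O D (h * (t - 2)) - twb_ea_y (algebraMap O D h) Sg Ph 0 := by
      rw [hc', e0]
      simp only [Matrix.sub_apply, Matrix.one_apply_eq]
      linear_combination (-(Sg 1 1)) * h2'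
    show (Sg - 1) 1 1 ∈ I
    rw [this]
    exact I.sub_mem hc (hy 0)

/-- the entries of `Φ - a` lie in `𝔪_O D + (y)`. -/
theorem twb_ea_phi_mem [IsLocalRing O] [IsLocalRing D] (h : O) (h2 : 2 * h = 1)
    (Sg Ph : Matrix (Fin 2) (Fin 2) D) (a : O) (n : ℕ) (hdet : Ph.det = (n : D))
    (han : a ^ 2 - (n : O) ∈ maximalIdeal O) (ha : IsUnit (2 * a))
    (hPh : ∀ i, Ph i i - algebraMap O D a ∈ maximalIdeal D) (i j : Fin 2) :
    (Ph - Matrix.scalar (Fin 2) (algebraMap O D a)) i j ∈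
      (maximalIdeal O).map (algebraMap O D) ⊔
        Ideal.span (Set.range (twb_ea_y (algebraMap O D h) Sg Ph)) := by
  set I := (maximalIdeal O).map (algebraMap O D) ⊔
      Ideal.span (Set.range (twb_ea_y (algebraMap O D h) Sg Ph)) with hI
  set h' := algebraMap O D h with hh'
  set a' := algebraMap O D a with ha'
  have hy : ∀ k, twb_ea_y h' Sg Ph k ∈ I := fun k =>
    Ideal.mem_sup_right (twb_ea_y_mem_span _ _ _ k)
  have h2' : (2 : D) * h' = 1 := by
    rw [hh', ← map_ofNat (algebraMap O D) 2, ← map_mul, h2, map_one]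
  have e3 : twb_ea_y h' Sg Ph 3 = h' * (Ph 0 0 - Ph 1 1) := rfl
  have e4 : twb_ea_y h' Sg Ph 4 = Ph 0 1 := rfl
  have e5 : twb_ea_y h' Sg Ph 5 = Ph 1 0 := rfl
  -- `w = tr Φ / 2 - a`
  set w : D := h' * Ph.trace - a' with hw
  have hwm : w ∈ maximalIdeal D := by
    have : w = h' * ((Ph 0 0 - a') + (Ph 1 1 - a')) := by
      rw [hw, Matrix.trace_fin_two]
      linear_combination a' * h2'
    rw [this]
    exact Ideal.mul_mem_left _ _ (Ideal.add_mem _ (hPh 0) (hPh 1))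
  have hunit : IsUnit (w + 2 * a') := by
    have h2a : IsUnit (2 * a') := by
      have := ha.map (algebraMap O D)
      rwa [map_mul, map_ofNat] at this
    have hw' : w ∈ nonunits D := (mem_maximalIdeal w).mp hwm
    rcases IsLocalRing.isUnit_or_isUnit_of_isUnit_add (a := w + 2 * a') (b := -w)
      (by rw [add_neg_cancel_comm]; exact h2a) with h | h
    · exact h
    · exact absurd (by simpa using h) hw'
  have hprod : w * (w + 2 * a') ∈ I := by
    have hQ := twb_tr_detPhi Ph h' h2' (n : D) hdet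
    have : w * (w + 2 * a') = algebraMap O D ((n : O) - a ^ 2) +
        ((twb_ea_y h' Sg Ph 3) ^ 2 + twb_ea_y h' Sg Ph 4 * twb_ea_y h' Sg Ph 5) := by
      rw [e3, e4, e5, map_sub, map_pow, map_natCast, hw]
      linear_combination hQ
    rw [this]
    refine I.add_mem (Ideal.mem_sup_left (Ideal.mem_map_of_mem _ ?_)) (I.add_mem ?_ ?_)
    · have := (Ideal.neg_mem_iff _).mpr han
      rwa [neg_sub] at this
    · rw [pow_two]; exact I.mul_mem_left _ (hy 3)
    · exact I.mul_mem_left _ (hy 5)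
  have hwI : w ∈ I := by
    obtain ⟨u, hu⟩ := hunit
    have : w = (w * (w + 2 * a')) * (u⁻¹ : Dˣ) := by
      rw [← hu, mul_assoc, Units.mul_inv, mul_one]
    rw [this]
    exact I.mul_mem_right _ hprod
  fin_cases i <;> fin_cases j
  · have : (Ph - Matrix.scalar (Fin 2) a') 0 0 = w + twb_ea_y h' Sg Ph 3 := by
      rw [e3, hw, Matrix.trace_fin_two]
      simp only [Matrix.sub_apply, Matrix.scalar_apply, Matrix.diagonal_apply_eq]
      linear_combination (-(Ph 0 0)) * h2'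
    show (Ph - Matrix.scalar (Fin 2) a') 0 0 ∈ I
    rw [this]
    exact I.add_mem hwI (hy 3)
  · have : (Ph - Matrix.scalar (Fin 2) a') 0 1 = twb_ea_y h' Sg Ph 4 := by
      rw [e4]; simp
    show (Ph - Matrix.scalar (Fin 2) a') 0 1 ∈ I
    rw [this]
    exact hy 4
  · have : (Ph - Matrix.scalar (Fin 2) a') 1 0 = twb_ea_y h' Sg Ph 5 := by
      rw [e5]; simp
    show (Ph - Matrix.scalar (Fin 2) a') 1 0 ∈ I
    rw [this]
    exact hy 5
  · have : (Ph - Matrix.scalar (Fin 2) a') 1 1 = w - twb_ea_y h' Sg Ph 3 := by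
      rw [e3, hw, Matrix.trace_fin_two]
      simp only [Matrix.sub_apply, Matrix.scalar_apply, Matrix.diagonal_apply_eq]
      linear_combination (-(Ph 1 1)) * h2'
    show (Ph - Matrix.scalar (Fin 2) a') 1 1 ∈ I
    rw [this]
    exact I.sub_mem hwI (hy 3)

/-- the last step of B/Eta: `τ = (tr Φ)² - (1 + n)² = 4 (v² + ef) - (1 - n)²`. -/
theorem twb_ea_tau_not_mem (h : D) (h2 : 2 * h = 1) (Sg Ph : Matrix (Fin 2) (Fin 2) D) (n : ℕ)
    (hdet : Ph.det = (n : D)) (η : Ideal D) [η.IsPrime] (hn : (1 : D) - (n : D) ∈ η)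
    (hQ : (twb_ea_y h Sg Ph 3) ^ 2 + twb_ea_y h Sg Ph 4 * twb_ea_y h Sg Ph 5 ∉ η) :
    Ph.trace ^ 2 - (1 + (n : D)) ^ 2 ∉ η := by
  intro hmem
  apply hQ
  have e3 : twb_ea_y h Sg Ph 3 = h * (Ph 0 0 - Ph 1 1) := rfl
  have e4 : twb_ea_y h Sg Ph 4 = Ph 0 1 := rfl
  have e5 : twb_ea_y h Sg Ph 5 = Ph 1 0 := rfl
  have hQ' := twb_tr_detPhi Ph h h2 (n : D) hdet
  have e : (4 : D) * h ^ 2 = 1 := by linear_combination (2 * h + 1) * h2
  have key : (twb_ea_y h Sg Ph 3) ^ 2 + twb_ea_y h Sg Ph 4 * twb_ea_y h Sg Ph 5 =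
      h ^ 2 * (Ph.trace ^ 2 - (1 + (n : D)) ^ 2) + h ^ 2 * (1 - (n : D)) * (1 - (n : D)) := by
    rw [e3, e4, e5]
    linear_combination (-1 : D) * hQ' + (n : D) * e
  rw [key]
  exact η.add_mem (η.mul_mem_left _ hmem) (η.mul_mem_left _ hn)

end

end Fermat.Agent.TW
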