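/-
Project ONE MACHINE (S43), block [B] LOC, slice (E2) of B/Eta (helper26): SPLITTING OFF VARIABLES.

`O` a local ring, `e : σ₀ ↪ σ` finite index types, `D` a complete local ring and
`π : O[[σ]] → D` a surjective ring hom.  Put `ψ := π ∘ rename e : O[[σ₀]] → D`, `J := ker ψ`,
`A' := O[[σ₀]] ⧸ J` (a local ring embedded in `D` by `twb_es_lift`).  If `y : τ → 𝔪_D` and every
variable `X i`, `i ∉ range e`, is sent by `π` into `𝔪_{O[[σ₀]]}·D + (y)`, then there is a
SURJECTIVE ring hom `γ : A'[[τ]] → D` with `γ (X j) = y j` and `γ (C (mk a)) = π (rename e a)`.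

* `twb_es_quot_isLocalRing`, `twb_es_quot_isAdicComplete` : generic quotient facts;
* `twb_es_psi`, `twb_es_J`, `twb_es_A`, `twb_es_lift`     : the data;
* `twb_es_A_isLocalRing`, `twb_es_A_isDomain`, `twb_es_A_isAdicComplete` : `A'` is a complete
  (noetherian: automatic instance) local ring, a domain if `D` is;
* `twb_es_main`  : the surjection (general hypothesis); `twb_es_main'` : hypothesis with `𝔪_O·D`.
-/
import Mathlib
import Fermat.Agent.S56.PS.Surj
import Fermat.Prelude.Thm_IsLocalRing_isAdicComplete_of_module_finite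

set_option autoImplicit false

open IsLocalRing MvPowerSeries

namespace Fermat.Agent.TW

noncomputable section

section generic

variable {P : Type*} [CommRing P] [IsLocalRing P]

/-- A quotient of a local ring by a proper ideal is local. -/
theorem twb_es_quot_isLocalRing (J : Ideal P) (hJ : J ≠ ⊤) : IsLocalRing (P ⧸ J) := by
  have : Nontrivial (P ⧸ J) := Ideal.Quotient.nontrivial_iff.mpr hJ
  exact IsLocalRing.of_surjective' (Ideal.Quotient.mk J) Ideal.Quotient.mk_surjective

/-- A local quotient of a complete noetherian local ring is complete. -/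
theorem twb_es_quot_isAdicComplete [IsNoetherianRing P] [IsAdicComplete (maximalIdeal P) P]
    (J : Ideal P) [IsLocalRing (P ⧸ J)] :
    IsAdicComplete (maximalIdeal (P ⧸ J)) (P ⧸ J) := by
  have : IsLocalHom (algebraMap P (P ⧸ J)) :=
    IsLocalHom.of_surjective (Ideal.Quotient.mk J) Ideal.Quotient.mk_surjective
  have : Module.Finite P (P ⧸ J) :=
    Module.Finite.of_surjective (Algebra.linearMap P (P ⧸ J)) Ideal.Quotient.mk_surjective
  exact IsLocalRing.isAdicComplete_of_module_finite (𝒪 := P) (T := P ⧸ J)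

end generic

section data

variable {O : Type*} [CommRing O] {σ₀ σ : Type*} (e : σ₀ ↪ σ) {D : Type*} [CommRing D]
  (π : MvPowerSeries σ O →+* D)

/-- `ψ := π ∘ rename e`. -/
def twb_es_psi : MvPowerSeries σ₀ O →+* D :=
  π.comp (rename e : MvPowerSeries σ₀ O →ₐ[O] MvPowerSeries σ O).toRingHom

@[simp] theorem twb_es_psi_apply (a : MvPowerSeries σ₀ O) :
    twb_es_psi e π a = π (rename e a) := rfl

/-- `J := ker (π ∘ rename e)`. -/
def twb_es_J : Ideal (MvPowerSeries σ₀ O) := RingHom.ker (twb_es_psi e π)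

theorem twb_es_mem_J (a : MvPowerSeries σ₀ O) : a ∈ twb_es_J e π ↔ π (rename e a) = 0 :=
  RingHom.mem_ker

/-- `A' := O[[σ₀]] ⧸ ker (π ∘ rename e)`. -/
abbrev twb_es_A : Type _ := MvPowerSeries σ₀ O ⧸ twb_es_J e π

/-- The embedding `A' → D`. -/
def twb_es_lift : twb_es_A e π →+* D :=
  Ideal.Quotient.lift (twb_es_J e π) (twb_es_psi e π) (fun _ ha => RingHom.mem_ker.mp ha)

@[simp] theorem twb_es_lift_mk (a : MvPowerSeries σ₀ O) :
    twb_es_lift e π (Ideal.Quotient.mk (twb_es_J e π) a) = π (rename e a) := rfl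

theorem twb_es_lift_injective : Function.Injective (twb_es_lift e π) := by
  rw [injective_iff_map_eq_zero]
  intro a ha
  obtain ⟨a, rfl⟩ := Ideal.Quotient.mk_surjective a
  rw [twb_es_lift_mk] at ha
  exact Ideal.Quotient.eq_zero_iff_mem.mpr ((twb_es_mem_J e π a).mpr ha)

theorem twb_es_J_ne_top [Nontrivial D] : twb_es_J e π ≠ ⊤ := by
  intro h
  have : (1 : MvPowerSeries σ₀ O) ∈ twb_es_J e π := by rw [h]; trivial
  rw [twb_es_mem_J, map_one, map_one] at this
  exact one_ne_zero this

/-- `A'` is a domain when `D` is. -/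
theorem twb_es_A_isDomain [IsDomain D] : IsDomain (twb_es_A e π) :=
  (twb_es_lift_injective e π).isDomain (twb_es_lift e π)

end data

section main

variable {O : Type} [CommRing O] [IsLocalRing O] {σ₀ σ τ : Type}
  (e : σ₀ ↪ σ) {D : Type} [CommRing D] [IsLocalRing D] (π : MvPowerSeries σ O →+* D)

/-- `A'` is local. -/
theorem twb_es_A_isLocalRing : IsLocalRing (twb_es_A e π) :=
  twb_es_quot_isLocalRing _ (twb_es_J_ne_top e π)

omit [IsLocalRing D] in
/-- `A'` is complete (for `O` complete noetherian local). -/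
theorem twb_es_A_isAdicComplete [Finite σ₀] [IsNoetherianRing O]
    [IsAdicComplete (maximalIdeal O) O] [IsLocalRing (twb_es_A e π)] :
    IsAdicComplete (maximalIdeal (twb_es_A e π)) (twb_es_A e π) :=
  twb_es_quot_isAdicComplete _

/-- `rename e` maps the maximal ideal into the maximal ideal. -/
theorem twb_es_rename_mem {a : MvPowerSeries σ₀ O} (ha : a ∈ maximalIdeal (MvPowerSeries σ₀ O)) :
    rename e a ∈ maximalIdeal (MvPowerSeries σ O) := by
  rw [S53.mem_maximalIdeal_mvPowerSeries_iff] at ha ⊢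
  rwa [constantCoeff_rename]

variable {e π}

/-- A surjective `π` maps the maximal ideal into the maximal ideal. -/
theorem twb_es_pi_mem (hπ : Function.Surjective π) {f : MvPowerSeries σ O}
    (hf : f ∈ maximalIdeal (MvPowerSeries σ O)) : π f ∈ maximalIdeal D := by
  rw [← IsLocalRing.map_maximalIdeal_of_surjective π hπ]
  exact Ideal.mem_map_of_mem _ hf

omit [IsLocalRing D] in
/-- `𝔪_{A'}·D = 𝔪_{O[[σ₀]]}·D`. -/
theorem twb_es_map_maximalIdeal [IsLocalRing (twb_es_A e π)] :
    (maximalIdeal (twb_es_A e π)).map (twb_es_lift e π)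
      = (maximalIdeal (MvPowerSeries σ₀ O)).map (twb_es_psi e π) := by
  rw [← IsLocalRing.map_maximalIdeal_of_surjective (Ideal.Quotient.mk (twb_es_J e π))
    Ideal.Quotient.mk_surjective, Ideal.map_map]
  rfl

/-- **(E2) SPLITTING OFF VARIABLES** (general hypothesis).  `π : O[[σ]] → D` surjective onto a
complete local ring, `y : τ → 𝔪_D`, and `π (X i) ∈ 𝔪_{O[[σ₀]]}·D + (y)` for the variables
`i ∉ range e`.  Then `D` is a quotient of `A'[[τ]]`, `A' = O[[σ₀]] ⧸ ker (π ∘ rename e)`, by a ring
hom `γ` with `γ (X j) = y j` and `γ (C (mk a)) = π (rename e a)`. -/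
theorem twb_es_main [Finite σ₀] [Finite σ] [Finite τ] [IsNoetherianRing O]
    [IsAdicComplete (maximalIdeal O) O] [IsAdicComplete (maximalIdeal D) D]
    (hπ : Function.Surjective π) (y : τ → D) (hy : ∀ j, y j ∈ maximalIdeal D)
    (hX : ∀ i, i ∉ Set.range e → π (X i) ∈
      (maximalIdeal (MvPowerSeries σ₀ O)).map (twb_es_psi e π) ⊔ Ideal.span (Set.range y)) :
    ∃ γ : MvPowerSeries τ (twb_es_A e π) →+* D, Function.Surjective γ ∧ (∀ j, γ (X j) = y j) ∧
      (∀ a : MvPowerSeries σ₀ O, γ (C (Ideal.Quotient.mk (twb_es_J e π) a)) = π (rename e a)) ∧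
      ∀ a' : twb_es_A e π, γ (C a') = twb_es_lift e π a' := by
  have : IsLocalRing (twb_es_A e π) := twb_es_A_isLocalRing e π
  have : IsAdicComplete (maximalIdeal (twb_es_A e π)) (twb_es_A e π) :=
    twb_es_A_isAdicComplete e π
  let _ : Algebra (twb_es_A e π) D := (twb_es_lift e π).toAlgebra
  have halg : ∀ a', algebraMap (twb_es_A e π) D a' = twb_es_lift e π a' := fun _ => rfl
  set K : Ideal D := (maximalIdeal (MvPowerSeries σ₀ O)).map (twb_es_psi e π) with hK
  have hKeq : (maximalIdeal (twb_es_A e π)).map (algebraMap (twb_es_A e π) D) = K :=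
    twb_es_map_maximalIdeal
  have hKle : K ≤ maximalIdeal D := by
    rw [hK, Ideal.map_le_iff_le_comap]
    intro a ha
    exact twb_es_pi_mem hπ (twb_es_rename_mem e ha)
  -- residue fields
  have hres : Function.Surjective (residue D ∘ algebraMap (twb_es_A e π) D) := by
    intro r
    obtain ⟨d, rfl⟩ := Ideal.Quotient.mk_surjective (I := maximalIdeal D) r
    obtain ⟨f, rfl⟩ := hπ d
    refine ⟨Ideal.Quotient.mk _ (C (constantCoeff f)), ?_⟩
    rw [Function.comp_apply, halg, twb_es_lift_mk, rename_C]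
    have h1 : f - C (constantCoeff f) ∈ maximalIdeal (MvPowerSeries σ O) := by
      rw [S53.mem_maximalIdeal_mvPowerSeries_iff, map_sub, constantCoeff_C, sub_self]
      exact Ideal.zero_mem _
    have h2 := twb_es_pi_mem hπ h1
    rw [map_sub] at h2
    symm
    exact (Ideal.Quotient.eq).mpr h2
  -- the maximal ideal
  have hxm : maximalIdeal D =
      (maximalIdeal (twb_es_A e π)).map (algebraMap (twb_es_A e π) D) ⊔
        Ideal.span (Set.range y) := by
    rw [hKeq]
    apply le_antisymm
    · rw [← IsLocalRing.map_maximalIdeal_of_surjective π hπ, S53.maximalIdeal_mvPowerSeries_eq,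
        Ideal.map_sup, Ideal.map_span]
      apply sup_le
      · rw [Ideal.span_le]
        rintro _ ⟨_, ⟨i, rfl⟩, rfl⟩
        by_cases hi : i ∈ Set.range e
        · obtain ⟨i₀, rfl⟩ := hi
          apply Ideal.mem_sup_left
          have h1 : (X i₀ : MvPowerSeries σ₀ O) ∈ maximalIdeal (MvPowerSeries σ₀ O) := by
            rw [S53.mem_maximalIdeal_mvPowerSeries_iff, constantCoeff_X]
            exact Ideal.zero_mem _
          have h2 := Ideal.mem_map_of_mem (twb_es_psi e π) h1
          rwa [twb_es_psi_apply, rename_X] at h2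
        · exact hX i hi
      · rw [Ideal.map_map, Ideal.map_le_iff_le_comap]
        intro c hc
        apply Ideal.mem_sup_left
        have h1 : (C c : MvPowerSeries σ₀ O) ∈ maximalIdeal (MvPowerSeries σ₀ O) := by
          rw [S53.mem_maximalIdeal_mvPowerSeries_iff, constantCoeff_C]
          exact hc
        have h2 := Ideal.mem_map_of_mem (twb_es_psi e π) h1
        rw [twb_es_psi_apply, rename_C] at h2
        change π (algebraMap O (MvPowerSeries σ O) c) ∈ K
        rw [← c_eq_algebraMap]
        exact h2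
    · apply sup_le hKle
      rw [Ideal.span_le]
      rintro _ ⟨j, rfl⟩
      exact hy j
  obtain ⟨γ, hγX, hγs⟩ := Fermat.Agent.S56.s56ps_surj (𝒪 := twb_es_A e π) (R := D) hres y hxm
  have hC : ∀ a' : twb_es_A e π, γ (C a') = twb_es_lift e π a' := by
    intro a'
    rw [c_eq_algebraMap, γ.commutes, halg]
  refine ⟨γ.toRingHom, hγs, hγX, ?_, hC⟩
  intro a
  exact (hC _).trans (twb_es_lift_mk e π a)

/-- **(E2)**, with the hypothesis in the form `π (X i) ∈ 𝔪_O·D + (y)`. -/
theorem twb_es_main' [Finite σ₀] [Finite σ] [Finite τ] [IsNoetherianRing O]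
    [IsAdicComplete (maximalIdeal O) O] [IsAdicComplete (maximalIdeal D) D]
    (hπ : Function.Surjective π) (y : τ → D) (hy : ∀ j, y j ∈ maximalIdeal D)
    (hX : ∀ i, i ∉ Set.range e → π (X i) ∈
      (maximalIdeal O).map (π.comp (C : O →+* MvPowerSeries σ O)) ⊔ Ideal.span (Set.range y)) :
    ∃ γ : MvPowerSeries τ (twb_es_A e π) →+* D, Function.Surjective γ ∧ (∀ j, γ (X j) = y j) ∧
      (∀ a : MvPowerSeries σ₀ O, γ (C (Ideal.Quotient.mk (twb_es_J e π) a)) = π (rename e a)) ∧
      ∀ a' : twb_es_A e π, γ (C a') = twb_es_lift e π a' := by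
  have hle : (maximalIdeal O).map (π.comp (C : O →+* MvPowerSeries σ O)) ≤
      (maximalIdeal (MvPowerSeries σ₀ O)).map (twb_es_psi e π) := by
    rw [Ideal.map_le_iff_le_comap]
    intro c hc
    have h1 : (C c : MvPowerSeries σ₀ O) ∈ maximalIdeal (MvPowerSeries σ₀ O) := by
      rw [S53.mem_maximalIdeal_mvPowerSeries_iff, constantCoeff_C]
      exact hc
    have h2 := Ideal.mem_map_of_mem (twb_es_psi e π) h1
    rwa [twb_es_psi_apply, rename_C] at h2
  exact twb_es_main hπ y hy (fun i hi => (sup_le_sup_right hle (Ideal.span (Set.range y))) (hX i hi))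

end main

end

end Fermat.Agent.TW
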