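import Mathlib

/-!
# TW / Loc : B/TraceC — the trace of a matrix killed by `Φ_p` (Mathlib only)

`D` a domain containing a primitive `p`-th root of unity `ζ` (`p` prime).  For a `2 × 2` matrix `M`
over `D` with `∑_{k<p} M^k = 0` and `det M = 1`:

* `twb_tc_main` : `tr M = ζ^c + ζ^(p-c)` for some `0 < c < p`;
* `twb_tc_main'` : moreover `(tr M)² - 4 = (ζ^c - ζ^(p-c))²` and, if `p ≠ 2`, `ζ^c - ζ^(p-c) ≠ 0`;
* `twb_tc_sub_one_mem`, `twb_tc_delta_mem` : in a local ring of residue characteristic `p`, a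
  `p`-th root of unity is `≡ 1` and `ζ^c - ζ^(p-c)` lies in the maximal ideal.

Route: `∑_{k<p} X^k = cyclotomic p D = ∏_{μ primitive} (X - μ)`; evaluate at `M` and take the
determinant: `∏_μ det (M - μ) = 0` in the domain `D`, so `μ² - (tr M) μ + det M = 0` for one
primitive `μ = ζ^c`; then `tr M = μ + μ⁻¹`.  No algebraic closure, no eigenvectors.
-/

namespace Fermat.Agent.TW

open Polynomial

section

variable {D : Type*} [CommRing D]

/-- `det (M - μ) = μ² - (tr M) μ + det M` for `2 × 2` matrices. -/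
theorem twb_tc_det_sub (M : Matrix (Fin 2) (Fin 2) D) (μ : D) :
    (M - algebraMap D (Matrix (Fin 2) (Fin 2) D) μ).det = μ ^ 2 - M.trace * μ + M.det := by
  rw [Matrix.det_fin_two, Matrix.det_fin_two, Matrix.trace_fin_two]
  simp only [Matrix.sub_apply, Matrix.algebraMap_matrix_apply]
  simp
  ring

variable [IsDomain D]

/-- A `2 × 2` matrix killed by `∑_{k<p} X^k` has a primitive `p`-th root of unity as a root of its
characteristic polynomial. -/
theorem twb_tc_exists_root {p : ℕ} (hp : p.Prime) {ζ : D} (hζ : IsPrimitiveRoot ζ p)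
    (M : Matrix (Fin 2) (Fin 2) D) (hG : ∑ k ∈ Finset.range p, M ^ k = 0) :
    ∃ μ : D, IsPrimitiveRoot μ p ∧ μ ^ 2 - M.trace * μ + M.det = 0 := by
  have : Fact p.Prime := ⟨hp⟩
  have h1 : aeval M (cyclotomic p D) = 0 := by
    rw [cyclotomic_prime, map_sum]
    simpa using hG
  let φ : D[X] →* D := Matrix.detMonoidHom.comp
    (MonoidHomClass.toMonoidHom (aeval M : D[X] →ₐ[D] Matrix (Fin 2) (Fin 2) D))
  have hφ : ∀ f : D[X], φ f = (aeval M f).det := fun f => rfl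
  have h2 : φ (cyclotomic p D) = 0 := by
    rw [hφ, h1, Matrix.det_zero]
  rw [cyclotomic_eq_prod_X_sub_primitiveRoots hζ, map_prod] at h2
  obtain ⟨μ, hμ, hμ0⟩ := Finset.prod_eq_zero_iff.mp h2
  refine ⟨μ, (mem_primitiveRoots hp.pos).mp hμ, ?_⟩
  rw [hφ, map_sub, aeval_X, aeval_C, twb_tc_det_sub] at hμ0
  exact hμ0

/-- **B/TraceC.** -/
theorem twb_tc_main {p : ℕ} (hp : p.Prime) {ζ : D} (hζ : IsPrimitiveRoot ζ p)
    (M : Matrix (Fin 2) (Fin 2) D) (hG : ∑ k ∈ Finset.range p, M ^ k = 0) (hdet : M.det = 1) :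
    ∃ c : ℕ, 0 < c ∧ c < p ∧ ζ ^ c * ζ ^ (p - c) = 1 ∧ M.trace = ζ ^ c + ζ ^ (p - c) := by
  obtain ⟨μ, hμ, hroot⟩ := twb_tc_exists_root hp hζ M hG
  have : NeZero p := ⟨hp.ne_zero⟩
  obtain ⟨c, hcp, hcop, rfl⟩ := hζ.isPrimitiveRoot_iff.mp hμ
  have hc0 : 0 < c := by
    rcases Nat.eq_zero_or_pos c with rfl | h
    · rw [Nat.coprime_zero_left] at hcop
      exact absurd hcop hp.one_lt.ne'
    · exact h
  have hinv : ζ ^ c * ζ ^ (p - c) = 1 := by
    rw [← pow_add, Nat.add_sub_cancel' hcp.le, hζ.pow_eq_one]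
  refine ⟨c, hc0, hcp, hinv, ?_⟩
  rw [hdet] at hroot
  have h3 : ζ ^ (p - c) * ((ζ ^ c) ^ 2 - M.trace * ζ ^ c + 1) = 0 := by rw [hroot, mul_zero]
  linear_combination (-1 : D) * h3 + (ζ ^ c - M.trace) * hinv

/-- B/TraceC with the discriminant: `(tr M)² - 4 = δ²`, `δ = ζ^c - ζ^(p-c) ≠ 0` for `p` odd. -/
theorem twb_tc_main' {p : ℕ} (hp : p.Prime) (hp2 : p ≠ 2) {ζ : D} (hζ : IsPrimitiveRoot ζ p)
    (M : Matrix (Fin 2) (Fin 2) D) (hG : ∑ k ∈ Finset.range p, M ^ k = 0) (hdet : M.det = 1) :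
    ∃ c : ℕ, 0 < c ∧ c < p ∧ M.trace = ζ ^ c + ζ ^ (p - c) ∧
      M.trace ^ 2 - 4 = (ζ ^ c - ζ ^ (p - c)) ^ 2 ∧ ζ ^ c - ζ ^ (p - c) ≠ 0 := by
  obtain ⟨c, hc0, hcp, hinv, htr⟩ := twb_tc_main hp hζ M hG hdet
  refine ⟨c, hc0, hcp, htr, ?_, ?_⟩
  · rw [htr]
    linear_combination (4 : D) * hinv
  · intro h
    have h' : ζ ^ c = ζ ^ (p - c) := sub_eq_zero.mp h
    have h'' := hζ.pow_inj hcp (Nat.sub_lt hp.pos hc0) h'
    have h2 : p = 2 * c := by omega
    rcases (Nat.dvd_prime hp).mp ⟨c, h2⟩ with h3 | h3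
    · omega
    · exact hp2 h3.symm

end

section localring

variable {O : Type*} [CommRing O] [IsLocalRing O]

open IsLocalRing

/-- In a local ring of residue characteristic `p`, a `p`-th root of unity is `≡ 1`. -/
theorem twb_tc_sub_one_mem {p : ℕ} (hp : p.Prime) (hpO : (p : O) ∈ maximalIdeal O) {ζ : O}
    (h : ζ ^ p = 1) : ζ - 1 ∈ maximalIdeal O := by
  have hpk : ((p : ℕ) : ResidueField O) = 0 := by
    have := (residue_eq_zero_iff (p : O)).mpr hpO
    rwa [map_natCast] at this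
  have hchar : CharP (ResidueField O) p := by
    obtain ⟨c, hc⟩ := CharP.exists (ResidueField O)
    have hdvd : c ∣ p := (CharP.cast_eq_zero_iff (ResidueField O) c p).mp hpk
    rcases (Nat.dvd_prime hp).mp hdvd with rfl | rfl
    · exact absurd rfl (CharP.char_ne_one (ResidueField O) 1)
    · exact hc
  have : Fact p.Prime := ⟨hp⟩
  rw [← residue_eq_zero_iff]
  have h1 : (residue O (ζ - 1)) ^ p = 0 := by
    rw [map_sub, map_one, sub_pow_char, one_pow, ← map_pow, h, map_one, sub_self]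
  exact pow_eq_zero_iff hp.ne_zero |>.mp h1

/-- `ζ^c - ζ^(p-c)` lies in the maximal ideal. -/
theorem twb_tc_delta_mem {p : ℕ} (hp : p.Prime) (hpO : (p : O) ∈ maximalIdeal O) {ζ : O}
    (h : ζ ^ p = 1) (c : ℕ) : ζ ^ c - ζ ^ (p - c) ∈ maximalIdeal O := by
  have h1 : ∀ n : ℕ, ζ ^ n - 1 ∈ maximalIdeal O := by
    intro n
    have hd : ζ - 1 ∣ ζ ^ n - 1 := by
      simpa using sub_dvd_pow_sub_pow ζ 1 n
    obtain ⟨w, hw⟩ := hd
    rw [hw]
    exact Ideal.mul_mem_right _ _ (twb_tc_sub_one_mem hp hpO h)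
  have := sub_mem (h1 c) (h1 (p - c))
  simpa using this

end localring

end Fermat.Agent.TW
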