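import Mathlib

/-!
# TW / Loc : B/UnipTau — the Steinberg trace identity on the unipotent side

For `2 × 2` matrices `Φ, N` over a commutative ring with `Φ N = q N Φ` and `det Φ = q`:
`q (1 - q) ((tr Φ)² - (1 + q)²) • N = 0`.

With `N = Σ - 1`, `(Σ - 1)² = 0` (`charpoly Σ = (X - 1)²`) and `Φ Σ = Σ ^ q Φ` this is the
input `hU` of the endgame: at a prime of characteristic `0` where `Σ ≠ 1`, the element
`τ = (tr Φ)² - (1 + q)²` vanishes.
-/

namespace Fermat.Agent.TW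

open Matrix

variable {R : Type*} [CommRing R]

/-- Cayley–Hamilton for `2 × 2` matrices. -/
theorem twb_ut_sq (Φ : Matrix (Fin 2) (Fin 2) R) :
    Φ * Φ = Φ.trace • Φ - Φ.det • (1 : Matrix (Fin 2) (Fin 2) R) := by
  ext i j
  fin_cases i <;> fin_cases j <;>
    simp [Matrix.mul_apply, Fin.sum_univ_two, Matrix.trace, Matrix.det_fin_two] <;> ring

/-- **B/UnipTau.** The trace identity. -/
theorem twb_ut_main (Φ N : Matrix (Fin 2) (Fin 2) R) (q : R) (hrel : Φ * N = q • (N * Φ))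
    (hdet : Φ.det = q) :
    (q * (1 - q) * (Φ.trace ^ 2 - (1 + q) ^ 2)) • N = 0 := by
  set t := Φ.trace with ht
  set A := N * Φ with hA
  have hCH : Φ * Φ = t • Φ - q • (1 : Matrix (Fin 2) (Fin 2) R) := by
    rw [twb_ut_sq, hdet]
  -- `A Φ = t A - q N`
  have hAΦ : A * Φ = t • A - q • N := by
    rw [hA, Matrix.mul_assoc, hCH, Matrix.mul_sub, Matrix.mul_smul, Matrix.mul_smul,
      Matrix.mul_one]
  -- `Φ Φ N` in two ways
  have h1 : Φ * Φ * N = (q * q) • (A * Φ) := by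
    rw [Matrix.mul_assoc, hrel, Matrix.mul_smul, ← Matrix.mul_assoc, hrel, Matrix.smul_mul,
      smul_smul]
  have h2 : Φ * Φ * N = (t * q) • A - q • N := by
    rw [hCH, Matrix.sub_mul, Matrix.smul_mul, Matrix.smul_mul, Matrix.one_mul, hrel, smul_smul]
  -- (*) `K t A = K (1 + q) N`
  have hstar : (q * (1 - q) * t) • A = (q * (1 - q) * (1 + q)) • N := by
    have h3 : (t * q) • A - q • N = (q * q) • (t • A - q • N) := by
      rw [← h2, h1, hAΦ]
    linear_combination (norm := module) h3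
  -- multiply (*) by `Φ` on the right
  have hstar2 : (q * (1 - q) * t) • (t • A - q • N) = (q * (1 - q) * (1 + q)) • A := by
    have := congrArg (fun M => M * Φ) hstar
    simp only [Matrix.smul_mul] at this
    rw [hAΦ] at this
    exact this
  -- (***) `K t N = K (1 + q) A`
  have h3star : (q * (1 - q) * t) • N = (q * (1 - q) * (1 + q)) • A := by
    linear_combination (norm := module) hstar2 - t • hstar
  linear_combination (norm := module) t • h3star + (1 + q) • hstar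

/-- `(1 + N) ^ n = 1 + n N` when `N² = 0`. -/
theorem twb_ut_one_add_pow {n : Type*} [Fintype n] [DecidableEq n] (N : Matrix n n R)
    (hN : N * N = 0) (q : ℕ) : (1 + N) ^ q = 1 + (q : R) • N := by
  induction q with
  | zero => simp
  | succ k ih =>
    rw [pow_succ, ih, Matrix.add_mul, Matrix.mul_add, Matrix.mul_add, Matrix.one_mul,
      Matrix.mul_one, Matrix.one_mul, Matrix.smul_mul, hN, smul_zero, add_zero, Nat.cast_succ,
      add_smul, one_smul]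
    abel

/-- `(Σ - 1)² = 0` for a `2 × 2` matrix with `tr Σ = 2`, `det Σ = 1`. -/
theorem twb_ut_sub_one_sq (Sg : Matrix (Fin 2) (Fin 2) R) (htr : Sg.trace = 2)
    (hdet : Sg.det = 1) : (Sg - 1) * (Sg - 1) = 0 := by
  have h := twb_ut_sq Sg
  rw [htr, hdet] at h
  rw [Matrix.sub_mul, Matrix.mul_sub, Matrix.mul_sub, h]
  simp only [Matrix.mul_one, Matrix.one_mul, one_smul]
  module

/-- The tame relation `Φ Σ = Σ ^ q Φ` for unipotent `Σ` in the form `Φ N = q N Φ`, `N = Σ - 1`. -/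
theorem twb_ut_rel (Φ Sg : Matrix (Fin 2) (Fin 2) R) (q : ℕ) (htr : Sg.trace = 2)
    (hdet : Sg.det = 1) (hrel : Φ * Sg = Sg ^ q * Φ) :
    Φ * (Sg - 1) = (q : R) • ((Sg - 1) * Φ) := by
  have hpow : Sg ^ q = 1 + (q : R) • (Sg - 1) := by
    have := twb_ut_one_add_pow (Sg - 1) (twb_ut_sub_one_sq Sg htr hdet) q
    rwa [add_sub_cancel] at this
  rw [hpow, Matrix.add_mul, Matrix.one_mul, Matrix.smul_mul] at hrel
  rw [Matrix.mul_sub, Matrix.mul_one, hrel]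
  abel

/-- **B/UnipTau**, for the pair `(Φ, Σ)`: `q (1 - q) τ • (Σ - 1) = 0`,
`τ = (tr Φ)² - (1 + q)²`. -/
theorem twb_ut_pair (Φ Sg : Matrix (Fin 2) (Fin 2) R) (q : ℕ) (htr : Sg.trace = 2)
    (hdet : Sg.det = 1) (hrel : Φ * Sg = Sg ^ q * Φ) (hdetΦ : Φ.det = q) :
    ((q : R) * (1 - q) * (Φ.trace ^ 2 - (1 + q) ^ 2)) • (Sg - 1) = 0 :=
  twb_ut_main Φ (Sg - 1) q (twb_ut_rel Φ Sg q htr hdet hrel) hdetΦ

/-- The input `hU` of the endgame, at one prime. -/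
theorem twb_ut_mem_prime (Φ Sg : Matrix (Fin 2) (Fin 2) R) (q : ℕ) (htr : Sg.trace = 2)
    (hdet : Sg.det = 1) (hrel : Φ * Sg = Sg ^ q * Φ) (hdetΦ : Φ.det = q) (𝔭 : Ideal R)
    (h𝔭 : 𝔭.IsPrime) (hq : (q : R) * (1 - q) ∉ 𝔭) (hne : ∃ i k, (Sg - 1) i k ∉ 𝔭) :
    Φ.trace ^ 2 - (1 + q) ^ 2 ∈ 𝔭 := by
  obtain ⟨i, k, hik⟩ := hne
  have h := congrFun (congrFun (twb_ut_pair Φ Sg q htr hdet hrel hdetΦ) i) k
  rw [Matrix.smul_apply, Matrix.zero_apply, smul_eq_mul] at h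
  have hmem : (q : R) * (1 - q) * (Φ.trace ^ 2 - (1 + q) ^ 2) * (Sg - 1) i k ∈ 𝔭 := by
    rw [h]; exact zero_mem _
  have h1 := (h𝔭.mem_or_mem hmem).resolve_right hik
  exact (h𝔭.mem_or_mem h1).resolve_left hq

/-- The input `hU` of `twd_endgame_of_supp`, literally: `R1` an `O`-algebra, `q (1 - q)` a unit
times a power of `lam` in `O`. -/
theorem twb_ut_hU {O : Type*} [CommRing O] [Algebra O R] (lam : O)
    (Φ Sg : Matrix (Fin 2) (Fin 2) R) (q : ℕ) (htr : Sg.trace = 2)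
    (hdet : Sg.det = 1) (hrel : Φ * Sg = Sg ^ q * Φ) (hdetΦ : Φ.det = q)
    (hq : ∃ (u : O) (k : ℕ), IsUnit u ∧ (q : O) * (1 - q) = u * lam ^ k)
    (ν : Fin 2 → Fin 2 → R) (hν : ∀ i k, ν i k = (Sg - 1) i k) :
    ∀ 𝔭 : Ideal R, 𝔭.IsPrime → algebraMap O R lam ∉ 𝔭 → (∃ i k, ν i k ∉ 𝔭) →
      Φ.trace ^ 2 - (1 + q) ^ 2 ∈ 𝔭 := by
  intro 𝔭 h𝔭 hlam hne
  obtain ⟨u, k, hu, huk⟩ := hq
  apply twb_ut_mem_prime Φ Sg q htr hdet hrel hdetΦ 𝔭 h𝔭
  · have : (q : R) * (1 - q) = algebraMap O R u * algebraMap O R lam ^ k := by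
      rw [← map_pow, ← map_mul, ← huk]
      simp
    rw [this]
    intro hmem
    rcases h𝔭.mem_or_mem hmem with h1 | h1
    · exact h𝔭.ne_top (Ideal.eq_top_of_isUnit_mem _ h1 (hu.map _))
    · exact hlam (h𝔭.mem_of_pow_mem k h1)
  · obtain ⟨i, k', hik⟩ := hne
    exact ⟨i, k', by rwa [hν] at hik⟩

end Fermat.Agent.TW
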