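import Mathlib
import Fermat.Agent.TW.Loc.UnipTau

/-!
# TW / Loc : B/UnipTau for the relation `(Σ - 1) ^ m = 0`

helper4's fix of the mod-`λ` seam replaces the unipotent relation `(Σ - 1)² = 0` of `R¹` by
`(Σ - 1) ^ (p - 1) = 0`.  The input `hU` of the endgame survives: it is only tested at PRIME
ideals, and over a domain a nilpotent `2 × 2` matrix has trace and determinant `0`.
-/

namespace Fermat.Agent.TW

open Matrix

variable {R : Type*} [CommRing R]

/-- Over a reduced ring a nilpotent `2 × 2` matrix has trace `0` and determinant `0`. -/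
theorem twb_ut_nilp_trace_det [IsReduced R] (N : Matrix (Fin 2) (Fin 2) R) (m : ℕ)
    (hN : N ^ m = 0) : N.trace = 0 ∧ N.det = 0 := by
  constructor
  · exact (Matrix.isNilpotent_trace_of_isNilpotent ⟨m, hN⟩).eq_zero
  · have : N.det ^ m = 0 := by
      rw [← Matrix.det_pow, hN]
      rcases Nat.eq_zero_or_pos m with rfl | hm
      · -- `N ^ 0 = 1 = 0` forces the ring to be trivial
        have h1 : (1 : Matrix (Fin 2) (Fin 2) R) = 0 := by simpa using hN
        have : (1 : R) = 0 := by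
          have := congrFun (congrFun h1 0) 0
          simpa using this
        have hs : Subsingleton R := subsingleton_of_zero_eq_one this.symm
        exact Subsingleton.elim _ _
      · exact Matrix.det_zero
    exact (IsNilpotent.eq_zero ⟨m, this⟩)

/-- `tr (1 + N) = 2 + tr N`, `det (1 + N) = 1 + tr N + det N` for `2 × 2` matrices. -/
theorem twb_ut_trace_det_one_add (N : Matrix (Fin 2) (Fin 2) R) :
    (1 + N).trace = 2 + N.trace ∧ (1 + N).det = 1 + N.trace + N.det := by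
  constructor
  · rw [Matrix.trace_add, Matrix.trace_one]; simp
  · simp only [Matrix.det_fin_two, Matrix.trace_fin_two, Matrix.add_apply, Matrix.one_apply_eq,
      Matrix.one_apply_ne, ne_eq, Fin.isValue, zero_ne_one, one_ne_zero, not_false_eq_true,
      zero_add]
    ring

/-- **hU for the relation `(Σ - 1) ^ m = 0`**, literally in the shape of `twd_endgame_of_supp`. -/
theorem twb_ut_hU_nilp {O : Type*} [CommRing O] [Algebra O R] (lam : O)
    (Φ Sg : Matrix (Fin 2) (Fin 2) R) (q : ℕ) (m : ℕ) (hnil : (Sg - 1) ^ m = 0)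
    (hrel : Φ * Sg = Sg ^ q * Φ) (hdetΦ : Φ.det = q)
    (hq : ∃ (u : O) (k : ℕ), IsUnit u ∧ (q : O) * (1 - q) = u * lam ^ k)
    (ν : Fin 2 → Fin 2 → R) (hν : ∀ i k, ν i k = (Sg - 1) i k) :
    ∀ 𝔭 : Ideal R, 𝔭.IsPrime → algebraMap O R lam ∉ 𝔭 → (∃ i k, ν i k ∉ 𝔭) →
      Φ.trace ^ 2 - (1 + q) ^ 2 ∈ 𝔭 := by
  intro 𝔭 h𝔭 hlam hne
  let π : R →+* R ⧸ 𝔭 := Ideal.Quotient.mk 𝔭
  have hdom : IsDomain (R ⧸ 𝔭) := Ideal.Quotient.isDomain 𝔭
  set Φ' : Matrix (Fin 2) (Fin 2) (R ⧸ 𝔭) := Φ.map π with hΦ'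
  set Sg' : Matrix (Fin 2) (Fin 2) (R ⧸ 𝔭) := Sg.map π with hSg'
  have hN' : (Sg' - 1) ^ m = 0 := by
    have h := congrArg (fun M : Matrix (Fin 2) (Fin 2) R => M.map π) hnil
    have e : (Sg - 1).map π = Sg' - 1 := by
      rw [Matrix.map_sub (f := π) (fun a b => map_sub π a b), hSg']
      congr 1
      exact Matrix.map_one π (map_zero π) (map_one π)
    have hpow : ((Sg - 1) ^ m).map π = ((Sg - 1).map π) ^ m :=
      map_pow (RingHom.mapMatrix π) (Sg - 1) m
    rw [hpow, e] at h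
    rw [h]
    exact Matrix.map_zero π (map_zero π)
  obtain ⟨htr0, hdet0⟩ := twb_ut_nilp_trace_det (Sg' - 1) m hN'
  have hSg'eq : Sg' = 1 + (Sg' - 1) := by abel
  obtain ⟨h1, h2⟩ := twb_ut_trace_det_one_add (Sg' - 1)
  rw [← hSg'eq, htr0, add_zero] at h1
  rw [← hSg'eq, htr0, hdet0, add_zero, add_zero] at h2
  have hrel' : Φ' * Sg' = Sg' ^ q * Φ' := by
    have h := congrArg (RingHom.mapMatrix π) hrel
    simp only [map_mul, map_pow] at h
    exact h
  have hdetΦ' : Φ'.det = q := by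
    have h := congrArg π hdetΦ
    rw [RingHom.map_det] at h
    simpa using h
  have htrΦ' : Φ'.trace = π Φ.trace := by
    simp [hΦ', Matrix.trace_fin_two]
  obtain ⟨u, k, hu, huk⟩ := hq
  have hq' : ((q : R ⧸ 𝔭) * (1 - q)) ∉ (⊥ : Ideal (R ⧸ 𝔭)) := by
    rw [Ideal.mem_bot]
    have e : ((q : R ⧸ 𝔭) * (1 - q)) = π (algebraMap O R u * algebraMap O R lam ^ k) := by
      rw [← map_pow, ← map_mul, ← huk]
      simp
    rw [e]
    change π _ ≠ 0
    rw [Ne, Ideal.Quotient.eq_zero_iff_mem]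
    intro hmem
    rcases h𝔭.mem_or_mem hmem with h1 | h1
    · exact h𝔭.ne_top (Ideal.eq_top_of_isUnit_mem _ h1 (hu.map _))
    · exact hlam (h𝔭.mem_of_pow_mem k h1)
  have hne' : ∃ i k, (Sg' - 1) i k ∉ (⊥ : Ideal (R ⧸ 𝔭)) := by
    obtain ⟨i, k', hik⟩ := hne
    refine ⟨i, k', ?_⟩
    rw [Ideal.mem_bot]
    have e : (Sg' - 1) i k' = π ((Sg - 1) i k') := by
      simp only [hSg', Matrix.sub_apply, Matrix.map_apply, map_sub]
      congr 1
      by_cases hik' : i = k'
      · subst hik'; simp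
      · simp [Matrix.one_apply_ne hik']
    rw [e]
    change π _ ≠ 0
    rw [Ne, Ideal.Quotient.eq_zero_iff_mem, ← hν]
    exact hik
  have key := twb_ut_mem_prime Φ' Sg' q h1 h2 hrel' hdetΦ' ⊥ Ideal.isPrime_bot hq' hne'
  rw [Ideal.mem_bot, htrΦ'] at key
  have : π (Φ.trace ^ 2 - (1 + q) ^ 2) = 0 := by
    rw [← key]
    simp
  exact Ideal.Quotient.eq_zero_iff_mem.mp this

end Fermat.Agent.TW
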