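import Mathlib
import Fermat.Agent.TW.Loc.Rel8
import Fermat.Agent.TW.Loc.UnipTauNil

/-!
# TW / [B] LOC: the rings and maps of the endgame in [C]'s eight coordinates (B/U8 + B/Q1)

For `twd_main_supp` (block [D]) with `R1 := twb_r8_R1 O ι' p a n`, `Rχ := twb_r8_Rchi O ι p a n`:

* `twb_u8_Rb` : `R̄ := Rχ ⧸ (λ)` (literally `Rχ ⧸ Ideal.span {algebraMap O Rχ lam}`);
* `twb_u8_qchi : Rχ →+* R̄`, surjective with kernel `(λ)` (`twb_u8_qchi_surjective`, `twb_u8_qchi_ker`);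
* `twb_u8_toRb : P →+* R̄` and `twb_u8_toRb_eq_zero_iff : toRb x = 0 ↔ x ∈ J^# ⊔ (C λ)`;
* `twb_u8_q1 : R1 →+* R̄` (free variables outside `ι` are sent to `0`), `twb_u8_q1_mk`;
* `twb_u8_nu q₀` : the entries of `Σ_{q₀} - 1` in `R1`; `twb_u8_tau q₀` : the class of
  `twb_u8_tauP = (tr Φ_{q₀})² - (1 + n_{q₀})²` in `R1`; `twb_u8_q1_tau`;
* `twb_u8_hU` : the hypothesis `hU` of `twd_main_supp`, literally.
-/

set_option autoImplicit false

namespace Fermat.Agent.TW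

open MvPowerSeries Matrix

noncomputable section

section Defs

variable (O : Type*) [CommRing O] {T : Type*} (ι : Type*) (p : ℕ) (a : T → O) (n : T → ℕ)
  (lam : O)

/-- `R̄ = R^χ_∞ / (λ)`. -/
abbrev twb_u8_Rb : Type _ :=
  twb_r8_Rchi O ι p a n ⧸ Ideal.span {algebraMap O (twb_r8_Rchi O ι p a n) lam}

/-- `qχ : R^χ_∞ → R̄`. -/
def twb_u8_qchi : twb_r8_Rchi O ι p a n →+* twb_u8_Rb O ι p a n lam :=
  Ideal.Quotient.mk _

theorem twb_u8_qchi_surjective : Function.Surjective (twb_u8_qchi O ι p a n lam) :=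
  Ideal.Quotient.mk_surjective

theorem twb_u8_qchi_ker : RingHom.ker (twb_u8_qchi O ι p a n lam) =
    Ideal.span {algebraMap O (twb_r8_Rchi O ι p a n) lam} :=
  Ideal.mk_ker

/-- the quotient map `P → R̄`. -/
def twb_u8_toRb : twb_r8_P O T ι →+* twb_u8_Rb O ι p a n lam :=
  (twb_u8_qchi O ι p a n lam).comp (Ideal.Quotient.mk (twb_r8_Jhash O ι p a n))

theorem twb_u8_toRb_surjective : Function.Surjective (twb_u8_toRb O ι p a n lam) :=
  (twb_u8_qchi_surjective O ι p a n lam).comp Ideal.Quotient.mk_surjective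

theorem twb_u8_algebraMap_Rchi (r : O) :
    algebraMap O (twb_r8_Rchi O ι p a n) r = Ideal.Quotient.mk (twb_r8_Jhash O ι p a n) (C r) := by
  rw [Ideal.Quotient.mk_algebraMap O (twb_r8_Jhash O ι p a n) r |>.symm,
    MvPowerSeries.algebraMap_apply, Algebra.algebraMap_self, RingHom.id_apply]

theorem twb_u8_toRb_eq_zero_iff (x : twb_r8_P O T ι) :
    twb_u8_toRb O ι p a n lam x = 0 ↔
      x ∈ twb_r8_Jhash O ι p a n ⊔ Ideal.span {(C lam : twb_r8_P O T ι)} := by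
  rw [twb_u8_toRb, RingHom.comp_apply, twb_u8_qchi, Ideal.Quotient.eq_zero_iff_mem,
    twb_u8_algebraMap_Rchi, Ideal.mem_span_singleton']
  constructor
  · rintro ⟨c, hc⟩
    obtain ⟨c', rfl⟩ := Ideal.Quotient.mk_surjective c
    rw [← map_mul, Ideal.Quotient.eq] at hc
    have : x = (x - c' * C lam) + c' * C lam := by ring
    rw [this]
    refine Ideal.add_mem _ (Ideal.mem_sup_left ?_) (Ideal.mem_sup_right ?_)
    · have := (Ideal.neg_mem_iff _).mpr hc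
      rwa [neg_sub] at this
    · exact Ideal.mul_mem_left _ _ (Ideal.subset_span rfl)
  · intro hx
    obtain ⟨j, hj, l, hl, rfl⟩ := Submodule.mem_sup.mp hx
    obtain ⟨c, rfl⟩ := Ideal.mem_span_singleton'.mp hl
    refine ⟨Ideal.Quotient.mk _ c, ?_⟩
    rw [map_add, map_mul, Ideal.Quotient.eq_zero_iff_mem.mpr hj, zero_add]

variable {O ι p a n lam}
variable {ι' : Type*}

/-- **`q1 : R^1_∞ → R̄`** (the free variables of `R^1_∞` outside `ι` go to `0`). -/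
def twb_u8_q1 (hp : p.Prime) (hn : ∀ ℓ, n ℓ % p = 1) (hlam : (p : O) ∈ Ideal.span {lam})
    (e : ι ↪ ι') : twb_r8_R1 O ι' p a n →+* twb_u8_Rb O ι p a n lam :=
  Ideal.Quotient.lift _ ((twb_u8_toRb O ι p a n lam).comp (twb_r8_kill e).toRingHom) (by
    intro x hx
    rw [RingHom.comp_apply, twb_u8_toRb_eq_zero_iff]
    exact twb_r8_Junip_le hp a n hn lam hlam e hx)

theorem twb_u8_q1_mk (hp : p.Prime) (hn : ∀ ℓ, n ℓ % p = 1) (hlam : (p : O) ∈ Ideal.span {lam})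
    (e : ι ↪ ι') (x : twb_r8_P O T ι') :
    twb_u8_q1 hp hn hlam e (Ideal.Quotient.mk (twb_r8_Junip O ι' p a n) x) =
      twb_u8_toRb O ι p a n lam (twb_r8_kill e x) := by
  rw [twb_u8_q1, Ideal.Quotient.lift_mk]
  rfl

variable (O ι p a n)

/-- `ν`: the entries of `Σ_{q₀} - 1` in `R^1_∞`. -/
def twb_u8_nu (q₀ : T) : Fin 2 → Fin 2 → twb_r8_R1 O ι p a n :=
  fun i k => Ideal.Quotient.mk _ (X (Sum.inl (q₀, 0, i, k)))

/-- `(tr Φ_{q₀})² - (1 + n_{q₀})²` in `P`. -/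
def twb_u8_tauP (q₀ : T) : twb_r8_P O T ι :=
  (twb_r8_Phi O ι a q₀).trace ^ 2 - (1 + ((n q₀ : ℕ) : twb_r8_P O T ι)) ^ 2

/-- `τ`: the class of `(tr Φ_{q₀})² - (1 + n_{q₀})²` in `R^1_∞`. -/
def twb_u8_tau (q₀ : T) : twb_r8_R1 O ι p a n :=
  Ideal.Quotient.mk _ (twb_u8_tauP O ι a n q₀)

variable {O ι p a n}

theorem twb_u8_trace_map {R R' : Type*} [CommRing R] [CommRing R'] (f : R →+* R')
    (M : Matrix (Fin 2) (Fin 2) R) : (f.mapMatrix M).trace = f M.trace := by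
  simp [Matrix.trace_fin_two]

theorem twb_u8_kill_tauP (e : ι ↪ ι') (q₀ : T) :
    twb_r8_kill e (twb_u8_tauP O ι' a n q₀) = twb_u8_tauP O ι a n q₀ := by
  have h := twb_r8_kill_Phi e a q₀
  have ht : twb_r8_kill e (twb_r8_Phi O ι' a q₀).trace = (twb_r8_Phi O ι a q₀).trace := by
    rw [← h, twb_u8_trace_map]
    rfl
  rw [twb_u8_tauP, twb_u8_tauP, map_sub, map_pow, map_pow, ht, map_add, map_one, map_natCast]

theorem twb_u8_q1_tau (hp : p.Prime) (hn : ∀ ℓ, n ℓ % p = 1) (hlam : (p : O) ∈ Ideal.span {lam})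
    (e : ι ↪ ι') (q₀ : T) :
    twb_u8_q1 hp hn hlam e (twb_u8_tau O ι' p a n q₀) =
      twb_u8_toRb O ι p a n lam (twb_u8_tauP O ι a n q₀) := by
  rw [twb_u8_tau, twb_u8_q1_mk, twb_u8_kill_tauP]

/-- **hU**, literally in the shape of `twd_main_supp`: on a prime of `R^1_∞` of characteristic `0`
at which `Σ_{q₀} ≠ 1`, `τ` vanishes. -/
theorem twb_u8_hU (q₀ : T)
    (hq : ∃ (u : O) (k : ℕ), IsUnit u ∧ ((n q₀ : ℕ) : O) * (1 - (n q₀ : ℕ)) = u * lam ^ k) :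
    ∀ 𝔭 : Ideal (twb_r8_R1 O ι p a n), 𝔭.IsPrime →
      algebraMap O (twb_r8_R1 O ι p a n) lam ∉ 𝔭 →
      (∃ i k, twb_u8_nu O ι p a n q₀ i k ∉ 𝔭) → twb_u8_tau O ι p a n q₀ ∈ 𝔭 := by
  set f : twb_r8_P O T ι →+* twb_r8_R1 O ι p a n := Ideal.Quotient.mk _ with hf
  have hrel := (twb_r8_unipSet_iff f p (n q₀) (twb_r8_Sig O ι q₀) (twb_r8_Phi O ι a q₀)).mp (by
    intro x hx
    rw [hf, Ideal.Quotient.eq_zero_iff_mem]
    apply Ideal.subset_span
    exact Set.mem_iUnion.mpr ⟨q₀, hx⟩)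
  obtain ⟨h1, _, h3, h4⟩ := hrel
  have key := twb_ut_hU_nilp (R := twb_r8_R1 O ι p a n) lam (f.mapMatrix (twb_r8_Phi O ι a q₀))
    (f.mapMatrix (twb_r8_Sig O ι q₀)) (n q₀) (p - 1) h1 h3 h4 hq (twb_u8_nu O ι p a n q₀) (by
      intro i k
      rw [twb_u8_nu, twb_r8_Sig]
      simp only [map_add, map_one, add_sub_cancel_left, RingHom.mapMatrix_apply, Matrix.map_apply,
        Matrix.of_apply]
      rfl)
  intro 𝔭 h𝔭 hl hν
  have := key 𝔭 h𝔭 hl hν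
  rw [twb_u8_trace_map] at this
  rw [twb_u8_tau, twb_u8_tauP]
  simpa [hf] using this

end Defs

end

end Fermat.Agent.TW
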