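import Mathlib
import Fermat.Agent.TW.Loc.Rel8
import Fermat.Agent.TW.Loc.U8
import Fermat.Agent.TW.Loc.EtaAlg
import Fermat.Agent.TW.Loc.EtaSurj
import Fermat.Agent.TW.Loc.TraceC
import Fermat.Agent.TW.Loc.Dim8
import Fermat.Agent.TW.Loc.ChiRing

/-!
# TW / [B] LOC: B/Eta — the point `η` of the endgame on every big component of `R^χ_∞`

`O` a complete noetherian local ring with `𝔪_O = (λ) ∋ p`, `2 ∈ Oˣ`, `ζ ∈ O` a primitive `p`-th
root of unity; `P = twb_r8_P O T ι`, `R^χ_∞ = P ⧸ J^#` (Rel8), `R̄ = R^χ_∞ ⧸ λ`, `q1`, `τ` (U8).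

* `twb_eta_core`  : `π : P ↠ D` onto a complete noetherian local domain killing `J^#`, `π λ ≠ 0`,
  `dim D ≥ 1 + 3|T| + |ι|` ⟹ a prime `η ∋ π λ` of `D` with `π τ ∉ η`.
  [TraceC: `tr Σ_{q₀} = ζ^c + ζ^(p-c)`; EtaSurj: `D` is a quotient of `A'[[u,b,c,v,e,f]]`, `A'` the
  image of the variables at the other primes, `dim A' ≤ 1 + 3(|T|-1) + |ι|` by Dim8; Traceless:
  the `χ`-relations hold; ChiRing: the point `η`; EtaAlg: `τ = 4 (v² + ef) - (1 - n)²`.]
* `twb_eta_prime` : the same for a prime `𝔓 ⊇ J^#` of `P`.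
* `twb_eta_heta'`, `twb_eta_heta` : **the hypothesis `hη` of `twd_main_supp`, literally**, for
  `Rχ := twb_r8_Rchi O ι p a n`, `Rb := twb_u8_Rb O ι p a n lam`, `qχ := twb_u8_qchi O ι p a n lam`,
  `q1 := twb_u8_q1 hp hn hpl e`, `τ := twb_u8_tau O ι' p a n q₀`.
-/

set_option autoImplicit false

namespace Fermat.Agent.TW

open MvPowerSeries Matrix IsLocalRing

noncomputable section

section Emb

variable {T : Type*} (ι : Type*) (q₀ : T)

/-- the index embedding `Idx {ℓ // ℓ ≠ q₀} ι ↪ Idx T ι`. -/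
def twb_eta_emb : twb_r8_Idx {ℓ : T // ℓ ≠ q₀} ι ↪ twb_r8_Idx T ι :=
  Function.Embedding.sumMap
    (Function.Embedding.prodMap (Function.Embedding.subtype _) (Function.Embedding.refl _))
    (Function.Embedding.refl _)

theorem twb_eta_emb_inl (t : {ℓ : T // ℓ ≠ q₀}) (x : Fin 2 × Fin 2 × Fin 2) :
    twb_eta_emb ι q₀ (Sum.inl (t, x)) = Sum.inl (t.1, x) := rfl

theorem twb_eta_emb_inr (i : ι) : twb_eta_emb (T := T) ι q₀ (Sum.inr i) = Sum.inr i := rfl

theorem twb_eta_not_mem_range {i : twb_r8_Idx T ι} (hi : i ∉ Set.range (twb_eta_emb ι q₀)) :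
    ∃ x : Fin 2 × Fin 2 × Fin 2, i = Sum.inl (q₀, x) := by
  rcases i with ⟨t, x⟩ | i
  · by_cases ht : t = q₀
    · exact ⟨x, by rw [ht]⟩
    · exact absurd ⟨Sum.inl (⟨t, ht⟩, x), rfl⟩ hi
  · exact absurd ⟨Sum.inr i, rfl⟩ hi

variable {O : Type*} [CommRing O]

theorem twb_eta_rename_Sig (t : {ℓ : T // ℓ ≠ q₀}) :
    (rename (twb_eta_emb ι q₀) : twb_r8_P O {ℓ : T // ℓ ≠ q₀} ι →ₐ[O] twb_r8_P O T ι).toRingHom.mapMatrix
      (twb_r8_Sig O ι t) = twb_r8_Sig O ι t.1 := by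
  rw [twb_m8_ext_iff]
  simp [twb_r8_Sig, rename_X, twb_eta_emb_inl]

theorem twb_eta_rename_Phi (a : T → O) (t : {ℓ : T // ℓ ≠ q₀}) :
    (rename (twb_eta_emb ι q₀) : twb_r8_P O {ℓ : T // ℓ ≠ q₀} ι →ₐ[O] twb_r8_P O T ι).toRingHom.mapMatrix
      (twb_r8_Phi O ι (fun s : {ℓ : T // ℓ ≠ q₀} => a s.1) t) = twb_r8_Phi O ι a t.1 := by
  rw [twb_m8_ext_iff]
  simp [twb_r8_Phi, rename_X, rename_C, twb_eta_emb_inl]

end Emb

section Ker

variable {O : Type*} [CommRing O] [IsNoetherianRing O] [IsLocalRing O]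

/-- in a noetherian local ring with principal maximal ideal `(λ)`, a prime ideal not containing
`λ` is zero. -/
theorem twb_eta_prime_eq_bot {lam : O} (hmax : maximalIdeal O = Ideal.span {lam})
    (𝔮 : Ideal O) [𝔮.IsPrime] (hl : lam ∉ 𝔮) : 𝔮 = ⊥ := by
  rw [eq_bot_iff]
  intro x hx
  have key : ∀ k : ℕ, ∃ y ∈ 𝔮, x = lam ^ k * y := by
    intro k
    induction k with
    | zero => exact ⟨x, hx, by simp⟩
    | succ k ih =>
      obtain ⟨y, hy, rfl⟩ := ih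
      have hym : y ∈ maximalIdeal O := IsLocalRing.le_maximalIdeal (Ideal.IsPrime.ne_top ‹_›) hy
      rw [hmax, Ideal.mem_span_singleton'] at hym
      obtain ⟨z, rfl⟩ := hym
      have hz : z ∈ 𝔮 := by
        rcases Ideal.IsPrime.mem_or_mem ‹_› hy with h | h
        · exact h
        · exact absurd h hl
      exact ⟨z, hz, by ring⟩
  have hmem : x ∈ ⨅ k : ℕ, maximalIdeal O ^ k := by
    rw [Ideal.mem_iInf]
    intro k
    obtain ⟨y, _, rfl⟩ := key k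
    apply Ideal.mul_mem_right
    apply Ideal.pow_mem_pow
    rw [hmax]
    exact Ideal.mem_span_singleton_self lam
  rw [Ideal.iInf_pow_eq_bot_of_isLocalRing _ (Ideal.IsPrime.ne_top inferInstance)] at hmem
  exact hmem

end Ker

section Images

variable {O : Type*} [CommRing O] {T : Type*} {ι : Type*} {R : Type*} [CommRing R]

theorem twb_eta_map_Sig_sub (f : twb_r8_P O T ι →+* R) (ℓ : T) (i j : Fin 2) :
    (f.mapMatrix (twb_r8_Sig O ι ℓ) - 1) i j = f (X (Sum.inl (ℓ, 0, i, j))) := by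
  rw [twb_r8_Sig, map_add, map_one, add_sub_cancel_left]
  rfl

theorem twb_eta_map_Phi_sub (f : twb_r8_P O T ι →+* R) (a : T → O) (ℓ : T) (i j : Fin 2) :
    (f.mapMatrix (twb_r8_Phi O ι a ℓ) - Matrix.scalar (Fin 2) (f (C (a ℓ)))) i j =
      f (X (Sum.inl (ℓ, 1, i, j))) := by
  have : f.mapMatrix (Matrix.scalar (Fin 2) (C (a ℓ) : twb_r8_P O T ι)) =
      Matrix.scalar (Fin 2) (f (C (a ℓ))) := by
    rw [twb_m8_ext_iff]
    simp
  rw [twb_r8_Phi, map_add, this, add_sub_cancel_left]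
  rfl

end Images

section Core

variable {O : Type} [CommRing O] [IsNoetherianRing O] [IsLocalRing O]
  [IsAdicComplete (maximalIdeal O) O] {T ι : Type} [Fintype T] [Fintype ι]
  {D : Type} [CommRing D] [IsDomain D] [IsNoetherianRing D] [IsLocalRing D]
  [IsAdicComplete (maximalIdeal D) D]

/-- **B/Eta, core**: on a char-`0` quotient domain `D` of `P` killing `J^#`, of dimension at least
`1 + 3|T| + |ι|`, there is a prime `η ∋ λ` with `τ = (tr Φ_{q₀})² - (1 + n_{q₀})² ∉ η`. -/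
theorem twb_eta_core {lam : O} (hmax : maximalIdeal O = Ideal.span {lam}) {p : ℕ} (hp : p.Prime)
    (hp2 : p ≠ 2) (hpl : (p : O) ∈ Ideal.span {lam}) (h2 : IsUnit (2 : O)) {ζ : O}
    (hζ : IsPrimitiveRoot ζ p) (a : T → O) (n : T → ℕ) (hn : ∀ t, n t % p = 1) (q₀ : T)
    (π : twb_r8_P O T ι →+* D) (hπ : Function.Surjective π)
    (hJ : twb_r8_Jhash O ι p a n ≤ RingHom.ker π) (hlam : π (C lam) ≠ 0)
    (hdim : ((1 + 3 * Fintype.card T + Fintype.card ι : ℕ) : WithBot ℕ∞) ≤ ringKrullDim D) :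
    ∃ η : Ideal D, η.IsPrime ∧ π (C lam) ∈ η ∧ π (twb_u8_tauP O ι a n q₀) ∉ η := by
  classical
  let _ : Algebra O D := (π.comp (C : O →+* twb_r8_P O T ι)).toAlgebra
  have halg : ∀ r : O, algebraMap O D r = π (C r) := fun _ => rfl
  have hcomp : π.comp (C : O →+* twb_r8_P O T ι) = algebraMap O D := rfl
  -- `O → D` is injective
  have hinj : Function.Injective (algebraMap O D) := by
    rw [RingHom.injective_iff_ker_eq_bot]
    have hprime : (RingHom.ker (algebraMap O D)).IsPrime := RingHom.ker_isPrime _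
    exact twb_eta_prime_eq_bot hmax _ (by rw [RingHom.mem_ker, halg]; exact hlam)
  have hlamO : lam ∈ maximalIdeal O := by rw [hmax]; exact Ideal.mem_span_singleton_self lam
  have hpO : (p : O) ∈ maximalIdeal O := by rw [hmax]; exact hpl
  obtain ⟨h, hh⟩ := h2.exists_right_inv
  have hh' : (2 : D) * algebraMap O D h = 1 := by
    rw [← map_ofNat (algebraMap O D) 2, ← map_mul, hh, map_one]
  -- all relations hold in `D`
  have hrel : ∀ ℓ : T, (∑ k ∈ Finset.range p, (π.mapMatrix (twb_r8_Sig O ι ℓ)) ^ k = 0 ∧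
      (π.mapMatrix (twb_r8_Sig O ι ℓ)).det = 1 ∧
      π.mapMatrix (twb_r8_Phi O ι a ℓ) * π.mapMatrix (twb_r8_Sig O ι ℓ) =
        π.mapMatrix (twb_r8_Sig O ι ℓ) * π.mapMatrix (twb_r8_Phi O ι a ℓ) ∧
      (π.mapMatrix (twb_r8_Phi O ι a ℓ)).det = ((n ℓ : ℕ) : D)) := by
    intro ℓ
    have := (twb_r8_hashSet_iff π p ((n ℓ : ℕ) : twb_r8_P O T ι) (twb_r8_Sig O ι ℓ)
      (twb_r8_Phi O ι a ℓ)).mp (by
        intro x hx
        exact RingHom.mem_ker.mp (hJ (Ideal.subset_span (Set.mem_iUnion.mpr ⟨ℓ, hx⟩))))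
    rwa [map_natCast] at this
  set Sg : Matrix (Fin 2) (Fin 2) D := π.mapMatrix (twb_r8_Sig O ι q₀) with hSg
  set Ph : Matrix (Fin 2) (Fin 2) D := π.mapMatrix (twb_r8_Phi O ι a q₀) with hPh
  obtain ⟨hG, hdS, hcomm, hdP⟩ := hrel q₀
  -- images of variables lie in the maximal ideal
  have hXm : ∀ i, π (X i) ∈ maximalIdeal D := by
    intro i
    apply twb_es_pi_mem hπ
    rw [S53.mem_maximalIdeal_mvPowerSeries_iff, constantCoeff_X]
    exact Ideal.zero_mem _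
  have hSgm : ∀ i j, (Sg - 1) i j ∈ maximalIdeal D := by
    intro i j
    rw [hSg, twb_eta_map_Sig_sub]
    exact hXm _
  have hPhm : ∀ i j, (Ph - Matrix.scalar (Fin 2) (algebraMap O D (a q₀))) i j ∈ maximalIdeal D := by
    intro i j
    rw [hPh, halg, twb_eta_map_Phi_sub]
    exact hXm _
  -- the trace of `Σ`
  obtain ⟨c, hc0, hcp, htr, hdisc, hne⟩ :=
    twb_tc_main' hp hp2 (hζ.map_of_injective hinj) Sg hG hdS
  set t : O := ζ ^ c + ζ ^ (p - c) with ht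
  have htr' : Sg.trace = algebraMap O D t := by
    rw [htr, ht, map_add, map_pow, map_pow]
  have ht2 : t - 2 ∈ maximalIdeal O := by
    have h1 : ζ ^ c - 1 ∈ maximalIdeal O :=
      twb_tc_sub_one_mem hp hpO (by rw [← pow_mul, mul_comm, pow_mul, hζ.pow_eq_one, one_pow])
    have h2' : ζ ^ (p - c) - 1 ∈ maximalIdeal O :=
      twb_tc_sub_one_mem hp hpO (by rw [← pow_mul, mul_comm, pow_mul, hζ.pow_eq_one, one_pow])
    have : t - 2 = (ζ ^ c - 1) + (ζ ^ (p - c) - 1) := by rw [ht]; ring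
    rw [this]
    exact Ideal.add_mem _ h1 h2'
  -- the scalar `a q₀`
  have hn1' : ∀ ℓ : T, ((n ℓ : ℕ) : O) - 1 ∈ Ideal.span {lam} := by
    intro ℓ
    have h : n ℓ = p * (n ℓ / p) + 1 := by
      have := Nat.div_add_mod (n ℓ) p
      rw [hn ℓ] at this
      exact this.symm
    have e : ((n ℓ : ℕ) : O) - 1 = (p : O) * ((n ℓ / p : ℕ) : O) := by
      conv_lhs => rw [h]
      push_cast
      ring
    rw [e]
    exact Ideal.mul_mem_right _ _ hpl
  have hn1 : ((n q₀ : ℕ) : O) - 1 ∈ Ideal.span {lam} := hn1' q₀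
  have han : a q₀ ^ 2 - ((n q₀ : ℕ) : O) ∈ maximalIdeal O := by
    rw [mem_maximalIdeal, mem_nonunits_iff]
    intro hu
    have hu' : IsUnit (algebraMap O D (a q₀ ^ 2 - ((n q₀ : ℕ) : O))) := hu.map _
    have hm : algebraMap O D (a q₀ ^ 2 - ((n q₀ : ℕ) : O)) ∈ maximalIdeal D := by
      have e : algebraMap O D (a q₀ ^ 2 - ((n q₀ : ℕ) : O)) =
          -((Ph - Matrix.scalar (Fin 2) (algebraMap O D (a q₀))) 0 0 * Ph 1 1
            + algebraMap O D (a q₀) * (Ph - Matrix.scalar (Fin 2) (algebraMap O D (a q₀))) 1 1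
            - (Ph - Matrix.scalar (Fin 2) (algebraMap O D (a q₀))) 0 1 * Ph 1 0) := by
        rw [map_sub, map_pow, map_natCast, ← hdP, Matrix.det_fin_two]
        simp only [Matrix.sub_apply, Matrix.scalar_apply, Matrix.diagonal_apply_eq,
          Matrix.diagonal_apply_ne _ (show (0 : Fin 2) ≠ 1 by decide), sub_zero]
        ring
      rw [e]
      refine (Ideal.neg_mem_iff _).mpr (Ideal.sub_mem _ (Ideal.add_mem _ ?_ ?_) ?_)
      · exact Ideal.mul_mem_right _ _ (hPhm 0 0)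
      · exact Ideal.mul_mem_left _ _ (hPhm 1 1)
      · exact Ideal.mul_mem_right _ _ (hPhm 0 1)
    exact (mem_maximalIdeal _).mp hm hu'
  have ha2 : IsUnit (2 * a q₀) := by
    refine h2.mul ?_
    by_contra hna
    have ham : a q₀ ∈ maximalIdeal O := (mem_maximalIdeal _).mpr hna
    have h1 : (1 : O) ∈ maximalIdeal O := by
      have : (1 : O) = a q₀ * a q₀ - (a q₀ ^ 2 - ((n q₀ : ℕ) : O)) - (((n q₀ : ℕ) : O) - 1) := by
        ring
      rw [this]
      refine Ideal.sub_mem _ (Ideal.sub_mem _ (Ideal.mul_mem_left _ _ ham) han) ?_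
      rw [hmax]; exact hn1
    exact (Ideal.ne_top_iff_one _).mp (maximalIdeal.isMaximal O).ne_top h1
  -- the six coordinates
  set y : Fin 6 → D := twb_ea_y (algebraMap O D h) Sg Ph with hy
  have hym : ∀ j, y j ∈ maximalIdeal D := by
    have hS00 : Sg 0 0 - Sg 1 1 = (Sg - 1) 0 0 - (Sg - 1) 1 1 := by simp
    have hP00 : Ph 0 0 - Ph 1 1 = (Ph - Matrix.scalar (Fin 2) (algebraMap O D (a q₀))) 0 0 -
        (Ph - Matrix.scalar (Fin 2) (algebraMap O D (a q₀))) 1 1 := by simp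
    have hS01 : Sg 0 1 = (Sg - 1) 0 1 := by simp
    have hS10 : Sg 1 0 = (Sg - 1) 1 0 := by simp
    have hP01 : Ph 0 1 = (Ph - Matrix.scalar (Fin 2) (algebraMap O D (a q₀))) 0 1 := by simp
    have hP10 : Ph 1 0 = (Ph - Matrix.scalar (Fin 2) (algebraMap O D (a q₀))) 1 0 := by simp
    intro j
    fin_cases j
    · show algebraMap O D h * (Sg 0 0 - Sg 1 1) ∈ _
      rw [hS00]
      exact Ideal.mul_mem_left _ _ (Ideal.sub_mem _ (hSgm 0 0) (hSgm 1 1))
    · show Sg 0 1 ∈ _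
      rw [hS01]; exact hSgm 0 1
    · show Sg 1 0 ∈ _
      rw [hS10]; exact hSgm 1 0
    · show algebraMap O D h * (Ph 0 0 - Ph 1 1) ∈ _
      rw [hP00]
      exact Ideal.mul_mem_left _ _ (Ideal.sub_mem _ (hPhm 0 0) (hPhm 1 1))
    · show Ph 0 1 ∈ _
      rw [hP01]; exact hPhm 0 1
    · show Ph 1 0 ∈ _
      rw [hP10]; exact hPhm 1 0
  -- splitting off the variables at `q₀`
  set e := twb_eta_emb ι q₀ with he
  have hXI : ∀ i, i ∉ Set.range e → π (X i) ∈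
      (maximalIdeal O).map (π.comp (C : O →+* twb_r8_P O T ι)) ⊔ Ideal.span (Set.range y) := by
    intro i hi
    obtain ⟨⟨b, i', j'⟩, rfl⟩ := twb_eta_not_mem_range ι q₀ hi
    rw [hcomp]
    fin_cases b
    · have e1 : π (X (Sum.inl (q₀, 0, i', j'))) = (Sg - 1) i' j' := by
        rw [hSg, twb_eta_map_Sig_sub]
      show π (X (Sum.inl (q₀, 0, i', j'))) ∈ _
      rw [e1]
      exact twb_ea_sig_mem h hh Sg Ph t htr' ht2 i' j'
    · have e1 : π (X (Sum.inl (q₀, 1, i', j'))) =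
          (Ph - Matrix.scalar (Fin 2) (algebraMap O D (a q₀))) i' j' := by
        rw [hPh, halg (a q₀), twb_eta_map_Phi_sub]
      show π (X (Sum.inl (q₀, 1, i', j'))) ∈ _
      rw [e1]
      exact twb_ea_phi_mem h hh Sg Ph (a q₀) (n q₀) hdP han ha2
        (fun i => by
          have := hPhm i i
          simpa using this) i' j'
  obtain ⟨γ, hγs, hγX, hγC, hγC'⟩ := twb_es_main' (e := e) hπ y hym hXI
  have hAdom : IsDomain (twb_es_A e π) := twb_es_A_isDomain e π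
  have hAloc : IsLocalRing (twb_es_A e π) := twb_es_A_isLocalRing e π
  have hAcpl : IsAdicComplete (maximalIdeal (twb_es_A e π)) (twb_es_A e π) :=
    twb_es_A_isAdicComplete e π
  -- the dimension of `A'`
  have hdimA : ringKrullDim (twb_es_A e π) + 3 ≤ ringKrullDim D := by
    have hrel' : ∀ s : {ℓ : T // ℓ ≠ q₀}, ∀ x ∈ twb_r8_hashSet p
        (((n s.1 : ℕ)) : twb_r8_P O {ℓ : T // ℓ ≠ q₀} ι) (twb_r8_Sig O ι s)
        (twb_r8_Phi O ι (fun s : {ℓ : T // ℓ ≠ q₀} => a s.1) s), x ∈ twb_es_J e π := by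
      intro s
      have hψS : (twb_es_psi e π).mapMatrix (twb_r8_Sig O ι s) =
          π.mapMatrix (twb_r8_Sig O ι s.1) := by
        rw [← twb_eta_rename_Sig ι q₀ s]; rfl
      have hψP : (twb_es_psi e π).mapMatrix
          (twb_r8_Phi O ι (fun s : {ℓ : T // ℓ ≠ q₀} => a s.1) s) =
          π.mapMatrix (twb_r8_Phi O ι a s.1) := by
        rw [← twb_eta_rename_Phi ι q₀ a s]; rfl
      have := (twb_r8_hashSet_iff (twb_es_psi e π) p
        (((n s.1 : ℕ)) : twb_r8_P O {ℓ : T // ℓ ≠ q₀} ι) (twb_r8_Sig O ι s)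
        (twb_r8_Phi O ι (fun s : {ℓ : T // ℓ ≠ q₀} => a s.1) s)).mpr (by
          rw [hψS, hψP, map_natCast]; exact hrel s.1)
      intro x hx
      exact RingHom.mem_ker.mpr (this x hx)
    have hd8 := twb_d8_dim_quot_le (T := {ℓ : T // ℓ ≠ q₀}) (ι := ι) hmax hp hpl h2
      (fun s => a s.1) (fun s => n s.1) (fun s => hn1' s.1) (twb_es_J e π)
      (fun s i j => hrel' s _ (Or.inl (Or.inl (Or.inl ⟨(i, j), rfl⟩))))
      (fun s i j => hrel' s _ (Or.inl (Or.inr ⟨(i, j), rfl⟩)))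
      (fun s => hrel' s _ (Or.inr rfl))
    have hcard : Fintype.card {ℓ : T // ℓ ≠ q₀} + 1 = Fintype.card T := by
      have h1 := Fintype.card_subtype_compl (fun ℓ : T => ℓ = q₀)
      rw [Fintype.card_subtype_eq] at h1
      have hpos : 0 < Fintype.card T := Fintype.card_pos_iff.mpr ⟨q₀⟩
      have h2 : Fintype.card {ℓ : T // ℓ ≠ q₀} = Fintype.card T - 1 := by
        rw [← h1]
      omega
    have hnat : 1 + 3 * Fintype.card {ℓ : T // ℓ ≠ q₀} + Fintype.card ι + 3 =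
        1 + 3 * Fintype.card T + Fintype.card ι := by omega
    calc ringKrullDim (twb_es_A e π) + 3
        ≤ ((1 + 3 * Fintype.card {ℓ : T // ℓ ≠ q₀} + Fintype.card ι : ℕ) : WithBot ℕ∞) + 3 :=
          add_le_add_left hd8 3
      _ = ((1 + 3 * Fintype.card {ℓ : T // ℓ ≠ q₀} + Fintype.card ι + 3 : ℕ) : WithBot ℕ∞) := by
          push_cast; rfl
      _ = ((1 + 3 * Fintype.card T + Fintype.card ι : ℕ) : WithBot ℕ∞) := by rw [hnat]
      _ ≤ ringKrullDim D := hdim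
  -- the constants
  set d₀ : O := (h * (ζ ^ c - ζ ^ (p - c))) ^ 2 with hd₀
  have hd₀m : d₀ ∈ maximalIdeal O := by
    rw [hd₀, pow_two]
    exact Ideal.mul_mem_left _ _
      (Ideal.mul_mem_left _ _ (twb_tc_delta_mem hp hpO hζ.pow_eq_one c))
  set mkA : twb_r8_P O {ℓ : T // ℓ ≠ q₀} ι →+* twb_es_A e π :=
    Ideal.Quotient.mk (twb_es_J e π) with hmkA
  have hmkm : ∀ r ∈ maximalIdeal O, mkA (C r) ∈ maximalIdeal (twb_es_A e π) := by
    intro r hr
    rw [← IsLocalRing.map_maximalIdeal_of_surjective mkA Ideal.Quotient.mk_surjective]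
    apply Ideal.mem_map_of_mem
    rw [S53.mem_maximalIdeal_mvPowerSeries_iff, constantCoeff_C]
    exact hr
  have h2A : IsUnit (2 : twb_es_A e π) := by
    have := h2.map (mkA.comp (C : O →+* twb_r8_P O {ℓ : T // ℓ ≠ q₀} ι))
    rwa [map_ofNat] at this
  have hγCO : ∀ r : O, γ (C (mkA (C r))) = algebraMap O D r := by
    intro r
    rw [hmkA, hγC, rename_C, halg]
  have hI : twb_Ichi (twb_es_A e π) (mkA (C d₀)) ≤ RingHom.ker γ := by
    apply twb_tr_Ichi_le_ker (mkA (C d₀)) γ Ph Sg (algebraMap O D h) (hγX 0) (hγX 1) (hγX 2)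
      (hγX 3) (hγX 4) (hγX 5) hcomm
    rw [hγCO]
    exact twb_tr_Q_eq Sg (algebraMap O D h) hh' (algebraMap O D ζ ^ c)
      (algebraMap O D ζ ^ (p - c)) _ htr
      (by rw [hdS, ← pow_add, Nat.add_sub_cancel' hcp.le, ← map_pow, hζ.pow_eq_one, map_one])
      (by rw [hd₀]; simp only [map_pow, map_mul, map_sub])
  have hd0 : γ (C (mkA (C d₀))) ≠ 0 := by
    rw [hγCO, hd₀]
    intro h0
    rw [map_pow, map_mul, map_sub, map_pow, map_pow] at h0
    rcases mul_eq_zero.mp ((pow_eq_zero_iff (two_ne_zero)).mp h0) with h1 | h1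
    · rw [h1, mul_zero] at hh'
      exact zero_ne_one hh'
    · exact hne h1
  obtain ⟨η, hηp, -, -, -, hηl, hηQ⟩ := twb_chi_exists_prime (A := twb_es_A e π) h2A
    (d := mkA (C d₀)) (lam := mkA (C lam)) (hmkm _ hd₀m) (hmkm _ hlamO) γ hγs
    (fun i => by rw [hγX]; exact hym i) hI hd0 hdimA
  have := hηp
  have hQ' : (y 3) ^ 2 + y 4 * y 5 ∉ η := by
    rw [map_add, map_pow, map_mul, hγX, hγX, hγX] at hηQ
    exact hηQ
  have hlamη : π (C lam) ∈ η := by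
    have := hηl
    rw [hγCO, halg] at this
    exact this
  have hn1η : (1 : D) - ((n q₀ : ℕ) : D) ∈ η := by
    obtain ⟨c', hc'⟩ := Ideal.mem_span_singleton'.mp hn1
    have : (1 : D) - ((n q₀ : ℕ) : D) = -(algebraMap O D c' * π (C lam)) := by
      rw [← halg, ← map_mul, hc', map_sub, map_natCast, map_one]
      ring
    rw [this]
    exact (Ideal.neg_mem_iff _).mpr (Ideal.mul_mem_left _ _ hlamη)
  have hτ := twb_ea_tau_not_mem (algebraMap O D h) hh' Sg Ph (n q₀) hdP η hn1η hQ'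
  refine ⟨η, hηp, hlamη, ?_⟩
  have : π (twb_u8_tauP O ι a n q₀) = Ph.trace ^ 2 - (1 + ((n q₀ : ℕ) : D)) ^ 2 := by
    rw [twb_u8_tauP, map_sub, map_pow, map_pow, map_add, map_one, map_natCast, hPh,
      twb_u8_trace_map]
  rw [this]
  exact hτ

end Core

section Shape

variable {O : Type} [CommRing O] [IsNoetherianRing O] [IsLocalRing O]
  [IsAdicComplete (maximalIdeal O) O] {T ι : Type} [Fintype T] [Fintype ι]

/-- **B/Eta for primes of `P`**: a prime `𝔓 ⊇ J^#` of characteristic `0` with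
`dim P/𝔓 ≥ 1 + 3|T| + |ι|` lies under a prime `η ∋ λ` with `τ ∉ η`. -/
theorem twb_eta_prime {lam : O} (hmax : maximalIdeal O = Ideal.span {lam}) {p : ℕ} (hp : p.Prime)
    (hp2 : p ≠ 2) (hpl : (p : O) ∈ Ideal.span {lam}) (h2 : IsUnit (2 : O)) {ζ : O}
    (hζ : IsPrimitiveRoot ζ p) (a : T → O) (n : T → ℕ) (hn : ∀ t, n t % p = 1) (q₀ : T)
    (𝔓 : Ideal (twb_r8_P O T ι)) [h𝔓 : 𝔓.IsPrime] (hJ : twb_r8_Jhash O ι p a n ≤ 𝔓)
    (hlam : (C lam : twb_r8_P O T ι) ∉ 𝔓)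
    (hdim : ((1 + 3 * Fintype.card T + Fintype.card ι : ℕ) : WithBot ℕ∞) ≤
      ringKrullDim (twb_r8_P O T ι ⧸ 𝔓)) :
    ∃ η : Ideal (twb_r8_P O T ι), η.IsPrime ∧ 𝔓 ≤ η ∧ (C lam : twb_r8_P O T ι) ∈ η ∧
      twb_u8_tauP O ι a n q₀ ∉ η := by
  have : IsDomain (twb_r8_P O T ι ⧸ 𝔓) := Ideal.Quotient.isDomain 𝔓
  have hPc : IsAdicComplete (maximalIdeal (twb_r8_P O T ι)) (twb_r8_P O T ι) :=
    twb_mvps_isAdicComplete O
  have : IsLocalRing (twb_r8_P O T ι ⧸ 𝔓) := twb_es_quot_isLocalRing 𝔓 h𝔓.ne_top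
  have : IsAdicComplete (maximalIdeal (twb_r8_P O T ι ⧸ 𝔓)) (twb_r8_P O T ι ⧸ 𝔓) :=
    twb_es_quot_isAdicComplete 𝔓
  obtain ⟨η, hηp, hηl, hητ⟩ := twb_eta_core hmax hp hp2 hpl h2 hζ a n hn q₀
    (Ideal.Quotient.mk 𝔓) Ideal.Quotient.mk_surjective (by rw [Ideal.mk_ker]; exact hJ)
    (by rw [Ne, Ideal.Quotient.eq_zero_iff_mem]; exact hlam) hdim
  refine ⟨η.comap (Ideal.Quotient.mk 𝔓), Ideal.comap_isPrime _ _, ?_, hηl, hητ⟩
  intro x hx
  rw [Ideal.mem_comap, Ideal.Quotient.eq_zero_iff_mem.mpr hx]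
  exact Ideal.zero_mem _

/-- **hη**, in the shape of `twd_main_supp` (block [D]) with the dimension of `S` made explicit:
every prime `𝔭` of `R^χ_∞` of characteristic `0` with `dim R^χ_∞/𝔭 ≥ 1 + 3|T| + |ι|` lies under
a prime of `R̄ = R^χ_∞/λ` which does not contain the image of `τ`. -/
theorem twb_eta_heta' {lam : O} (hmax : maximalIdeal O = Ideal.span {lam}) {p : ℕ} (hp : p.Prime)
    (hp2 : p ≠ 2) (hpl : (p : O) ∈ Ideal.span {lam}) (h2 : IsUnit (2 : O)) {ζ : O}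
    (hζ : IsPrimitiveRoot ζ p) (a : T → O) (n : T → ℕ) (hn : ∀ t, n t % p = 1) (q₀ : T)
    {ι' : Type*} (e : ι ↪ ι') :
    ∀ 𝔭 : Ideal (twb_r8_Rchi O ι p a n), 𝔭.IsPrime →
      algebraMap O (twb_r8_Rchi O ι p a n) lam ∉ 𝔭 →
      ((1 + 3 * Fintype.card T + Fintype.card ι : ℕ) : WithBot ℕ∞) ≤
        ringKrullDim (twb_r8_Rchi O ι p a n ⧸ 𝔭) →
      ∃ ηb : Ideal (twb_u8_Rb O ι p a n lam), ηb.IsPrime ∧
        𝔭 ≤ ηb.comap (twb_u8_qchi O ι p a n lam) ∧
        twb_u8_q1 hp hn hpl e (twb_u8_tau O ι' p a n q₀) ∉ ηb := by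
  intro 𝔭 h𝔭 hl hdim
  set mkJ : twb_r8_P O T ι →+* twb_r8_Rchi O ι p a n :=
    Ideal.Quotient.mk (twb_r8_Jhash O ι p a n) with hmkJ
  set f : twb_r8_P O T ι →+* twb_r8_Rchi O ι p a n ⧸ 𝔭 := (Ideal.Quotient.mk 𝔭).comp mkJ with hf
  have hfs : Function.Surjective f :=
    Ideal.Quotient.mk_surjective.comp Ideal.Quotient.mk_surjective
  have hfmem : ∀ x, x ∈ RingHom.ker f ↔ mkJ x ∈ 𝔭 := by
    intro x
    rw [RingHom.mem_ker, hf, RingHom.comp_apply, Ideal.Quotient.eq_zero_iff_mem]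
  have hprime : (RingHom.ker f).IsPrime := RingHom.ker_isPrime f
  have hJle : twb_r8_Jhash O ι p a n ≤ RingHom.ker f := by
    intro x hx
    rw [hfmem, hmkJ, Ideal.Quotient.eq_zero_iff_mem.mpr hx]
    exact Ideal.zero_mem _
  have hlam' : (C lam : twb_r8_P O T ι) ∉ RingHom.ker f := by
    rw [hfmem, hmkJ, ← twb_u8_algebraMap_Rchi]
    exact hl
  have hdim' : ((1 + 3 * Fintype.card T + Fintype.card ι : ℕ) : WithBot ℕ∞) ≤
      ringKrullDim (twb_r8_P O T ι ⧸ RingHom.ker f) := by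
    have hE := ringKrullDim_eq_of_ringEquiv (R := twb_r8_P O T ι ⧸ RingHom.ker f)
      (S := twb_r8_Rchi O ι p a n ⧸ 𝔭) (RingHom.quotientKerEquivOfSurjective hfs)
    rw [hE]
    exact hdim
  obtain ⟨η, hηp, h𝔓η, hηl, hητ⟩ := twb_eta_prime hmax hp hp2 hpl h2 hζ a n hn q₀
    (RingHom.ker f) hJle hlam' hdim'
  set g := twb_u8_toRb O ι p a n lam with hg
  have hgs : Function.Surjective g := twb_u8_toRb_surjective O ι p a n lam
  have hker : RingHom.ker g ≤ η := by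
    intro x hx
    rw [RingHom.mem_ker, hg, twb_u8_toRb_eq_zero_iff] at hx
    refine (sup_le (hJle.trans h𝔓η) ?_) hx
    rw [Ideal.span_le, Set.singleton_subset_iff]
    exact hηl
  have hcm : (η.map g).comap g = η := by
    rw [Ideal.comap_map_of_surjective g hgs]
    exact sup_eq_left.mpr (by rw [← RingHom.ker_eq_comap_bot]; exact hker)
  refine ⟨η.map g, Ideal.map_isPrime_of_surjective hgs hker, ?_, ?_⟩
  · intro x hx
    obtain ⟨y, rfl⟩ := Ideal.Quotient.mk_surjective x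
    have hy : y ∈ η := h𝔓η ((hfmem y).mpr hx)
    rw [Ideal.mem_comap]
    exact Ideal.mem_map_of_mem g hy
  · rw [twb_u8_q1_tau]
    intro hmem
    apply hητ
    rw [← hcm]
    exact hmem

/-- **hη**, literally the hypothesis of `twd_main_supp`, for any ring `S` of dimension at least
`1 + 3|T| + |ι|`. -/
theorem twb_eta_heta {lam : O} (hmax : maximalIdeal O = Ideal.span {lam}) {p : ℕ} (hp : p.Prime)
    (hp2 : p ≠ 2) (hpl : (p : O) ∈ Ideal.span {lam}) (h2 : IsUnit (2 : O)) {ζ : O}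
    (hζ : IsPrimitiveRoot ζ p) (a : T → O) (n : T → ℕ) (hn : ∀ t, n t % p = 1) (q₀ : T)
    {ι' : Type*} (e : ι ↪ ι') {S : Type*} [CommRing S]
    (hS : ((1 + 3 * Fintype.card T + Fintype.card ι : ℕ) : WithBot ℕ∞) ≤ ringKrullDim S) :
    ∀ 𝔭 : Ideal (twb_r8_Rchi O ι p a n), 𝔭.IsPrime →
      algebraMap O (twb_r8_Rchi O ι p a n) lam ∉ 𝔭 →
      ringKrullDim S ≤ ringKrullDim (twb_r8_Rchi O ι p a n ⧸ 𝔭) →
      ∃ ηb : Ideal (twb_u8_Rb O ι p a n lam), ηb.IsPrime ∧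
        𝔭 ≤ ηb.comap (twb_u8_qchi O ι p a n lam) ∧
        twb_u8_q1 hp hn hpl e (twb_u8_tau O ι' p a n q₀) ∉ ηb :=
  fun 𝔭 h𝔭 hl hdim =>
    twb_eta_heta' hmax hp hp2 hpl h2 hζ a n hn q₀ e 𝔭 h𝔭 hl (hS.trans hdim)

end Shape

end

end Fermat.Agent.TW
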