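import Mathlib
import Fermat.Agent.TW.Loc.Eta
import Fermat.Agent.TW.Loc.QuotInst
import Fermat.Agent.TW.Patch.SRing
import Fermat.Agent.TW.Patch.MainSupp

/-!
# TW / [B] LOC + [D] PATCH: B/Main — `twd_main_supp` with every ring-side hypothesis discharged

`O` a complete discrete valuation ring with finite residue field, uniformiser `lam`, `p ∈ (lam)`
an odd prime, `ζ ∈ O` a primitive `p`-th root of unity; `T` the finite type of hard primes,
`a : T → O`, `n : T → ℕ` with `n ≡ 1 mod p`, `a² ≡ n mod lam`; `g` free variables;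
`r = 3 |T| + g`.

* `S := O[[y_1, …, y_r]]`, `𝔞 := twds_a O r = (y)`, `𝔟 m := twds_b O r (p ^ m)` (block [D], SRing);
* `R1 := twb_r8_R1 O (Fin g ⊕ Fin g) p a n`, `Rχ := twb_r8_Rchi O (Fin g) p a n` (Rel8),
  `Rb := twb_u8_Rb O (Fin g) p a n lam`, `q1 := twb_u8_q1 … twb_main_emb`, `qχ := twb_u8_qchi …`,
  `ν := twb_u8_nu … q₀`, `τ := twb_u8_tau … q₀` (U8).

`twb_main_dim_mvps` : `dim R + n ≤ dim R[[x_1, …, x_n]]`.
`twb_main` : the level data `Lv m : twd_Level …` for all `m` give a prime `𝔓` of `T₀` of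
characteristic `0` containing all `β i k`.
-/

set_option autoImplicit false

namespace Fermat.Agent.TW

open MvPowerSeries IsLocalRing

section Dim

variable (R : Type*) [CommRing R]

/-- `dim R + n ≤ dim R[[x_1, …, x_n]]`. -/
theorem twb_main_dim_mvps (n : ℕ) :
    ringKrullDim R + (n : WithBot ℕ∞) ≤ ringKrullDim (MvPowerSeries (Fin n) R) := by
  induction n with
  | zero =>
    simp only [Nat.cast_zero, add_zero]
    exact ringKrullDim_le_of_surjective (constantCoeff (σ := Fin 0) (R := R))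
      (fun x => ⟨C x, constantCoeff_C x⟩)
  | succ n ih =>
    have hs : Function.Surjective
        (killCompl (R := R) (Fin.succEmb n)).toRingHom := by
      intro f
      exact ⟨rename (Fin.succEmb n) f, killCompl_rename_app f⟩
    have h0 : (killCompl (R := R) (Fin.succEmb n)).toRingHom (X 0) = 0 := by
      apply killCompl_X_eq_zero
      rintro ⟨i, hi⟩
      exact Fin.succ_ne_zero i hi
    have h := ringKrullDim_succ_le_of_surjective
      (killCompl (R := R) (Fin.succEmb n)).toRingHom hs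
      (X_mem_nonzeroDivisors (i := (0 : Fin (n + 1)))) h0
    calc ringKrullDim R + ((n + 1 : ℕ) : WithBot ℕ∞)
        = ringKrullDim R + (n : WithBot ℕ∞) + 1 := by push_cast; rw [add_assoc]
      _ ≤ ringKrullDim (MvPowerSeries (Fin n) R) + 1 := add_le_add_left ih 1
      _ ≤ ringKrullDim (MvPowerSeries (Fin (n + 1)) R) := h

end Dim

section Main

/-- the embedding of the free variables of `R^χ_∞` into those of `R^1_∞`. -/
def twb_main_emb (g : ℕ) : Fin g ↪ Fin g ⊕ Fin g := ⟨Sum.inl, Sum.inl_injective⟩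

variable {O : Type} [CommRing O] [IsDomain O] [IsDiscreteValuationRing O]
  [IsAdicComplete (maximalIdeal O) O] [Finite (ResidueField O)]
  {T : Type} [Fintype T] {T0 : Type} [CommRing T0] [Algebra O T0]

/-- **B/Main**: `twd_main_supp` for the rings of block [B], all ring-side hypotheses discharged. -/
theorem twb_main {lam : O} (hmax : maximalIdeal O = Ideal.span {lam}) (hlam0 : lam ≠ 0)
    {p : ℕ} (hp : p.Prime) (hp2 : p ≠ 2) (hpl : (p : O) ∈ Ideal.span {lam}) {ζ : O}
    (hζ : IsPrimitiveRoot ζ p) (a : T → O) (n : T → ℕ) (hn : ∀ t, n t % p = 1)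
    (han : ∀ t, a t ^ 2 - (n t : O) ∈ maximalIdeal O) (q₀ : T)
    (hq : ∃ (u : O) (k : ℕ), IsUnit u ∧ ((n q₀ : ℕ) : O) * (1 - (n q₀ : ℕ)) = u * lam ^ k)
    (g r : ℕ) (hr : r = 3 * Fintype.card T + g)
    [Module.Finite O T0] [IsAdicComplete (Ideal.span {algebraMap O T0 lam}) T0]
    (hT0 : ∀ k, Finite (T0 ⧸ (Ideal.span {algebraMap O T0 lam}) ^ k))
    {d : ℕ} (hd : 0 < d)
    {j : T0 →+* Matrix (Fin d) (Fin d) (MvPowerSeries (Fin r) O ⧸ twds_a O r)}
    {β : Fin 2 → Fin 2 → T0}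
    (Lv : ∀ m, twd_Level O lam (MvPowerSeries (Fin r) O)
      (twb_r8_R1 O (Fin g ⊕ Fin g) p a n) (twb_r8_Rchi O (Fin g) p a n)
      (twb_u8_Rb O (Fin g) p a n lam) T0 d (twds_a O r) (twds_b O r (p ^ m))
      (twds_b_le_a r (p ^ m)) (twb_u8_q1 hp hn hpl (twb_main_emb g))
      (twb_u8_qchi O (Fin g) p a n lam) j (twb_u8_nu O (Fin g ⊕ Fin g) p a n q₀) β) :
    ∃ 𝔓 : Ideal T0, 𝔓.IsPrime ∧ algebraMap O T0 lam ∉ 𝔓 ∧ ∀ i k, β i k ∈ 𝔓 := by
  have hpO : (p : O) ∈ maximalIdeal O := by rw [hmax]; exact hpl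
  have hlamO : lam ∈ maximalIdeal O := by rw [hmax]; exact Ideal.mem_span_singleton_self lam
  have h2 : IsUnit (2 : O) := by
    by_contra h
    have h2m : (2 : O) ∈ maximalIdeal O := (mem_maximalIdeal _).mpr h
    obtain ⟨k, hk⟩ := hp.odd_of_ne_two hp2
    have : (1 : O) = (p : O) - 2 * (k : O) := by
      rw [hk]; push_cast; ring
    have h1 : (1 : O) ∈ maximalIdeal O := by
      rw [this]
      exact Ideal.sub_mem _ hpO (Ideal.mul_mem_right _ _ h2m)
    exact (Ideal.ne_top_iff_one _).mp (maximalIdeal.isMaximal O).ne_top h1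
  have hSdom : IsDomain (MvPowerSeries (Fin r) O) := NoZeroDivisors.to_isDomain _
  have hScpl : IsAdicComplete (maximalIdeal (MvPowerSeries (Fin r) O)) (MvPowerSeries (Fin r) O) :=
    twb_mvps_isAdicComplete O
  have hR1loc : IsLocalRing (twb_r8_R1 O (Fin g ⊕ Fin g) p a n) :=
    twb_qi_R1_isLocalRing hp.two_le a n han
  have hRχloc : IsLocalRing (twb_r8_Rchi O (Fin g) p a n) :=
    twb_qi_Rchi_isLocalRing hpO a n han
  have hR1cpl := twb_qi_R1_isAdicComplete (O := O) (ι := Fin g ⊕ Fin g) p a n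
  have hRχcpl := twb_qi_Rchi_isAdicComplete (O := O) (ι := Fin g) p a n
  have hSdim : ((1 + 3 * Fintype.card T + Fintype.card (Fin g) : ℕ) : WithBot ℕ∞) ≤
      ringKrullDim (MvPowerSeries (Fin r) O) := by
    have h1 := twb_main_dim_mvps O r
    rw [IsDiscreteValuationRing.ringKrullDim_eq_one O] at h1
    refine le_trans (le_of_eq ?_) h1
    rw [Fintype.card_fin, hr]
    push_cast
    rw [add_assoc]
  exact twd_main_supp (S := MvPowerSeries (Fin r) O) hd (twds_finite_quot r)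
    (twb_qi_R1_finite p a n) (twb_qi_Rchi_finite p a n) hT0
    (twds_algebraMap_mem_maximalIdeal r hlamO) (twds_algebraMap_ne_zero r hlam0)
    (twds_a_isPrime O r) (twds_algebraMap_notMem r hlam0)
    (fun m => twds_b O r (p ^ m)) (fun m => twds_b_le_a r (p ^ m))
    (fun m => twds_b_le_pow r hpO m)
    (twb_u8_qchi_surjective O (Fin g) p a n lam) (twb_u8_qchi_ker O (Fin g) p a n lam)
    Lv (twb_u8_tau O (Fin g ⊕ Fin g) p a n q₀) (twb_u8_hU q₀ hq)
    (twb_eta_heta hmax hp hp2 hpl h2 hζ a n hn q₀ (twb_main_emb g) hSdim)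

end Main

end Fermat.Agent.TW
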