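import Mathlib
import Fermat.Agent.TW.Loc.Main8
import Fermat.Agent.TW.Def.Level2

/-!
# TW / [B] + [C] + [D]: from the level-`n` inputs `twc_LvIn2` to the prime `𝔓` of `T₀`

`twb_main_lv` = `twb_main` (B/Main) ∘ `twc_level_of2` (C/Level, helper21): the level-`n` inputs of
C/Level for the ideals `J^1 = twb_r8_Junip`, `J^χ = twb_r8_Jhash` of block [B], with
`res = twb_r8_kill`, `q1 = twb_u8_q1`, give a prime `𝔓` of `T₀` of characteristic `0` containing
all `β i k`.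
-/

set_option autoImplicit false

namespace Fermat.Agent.TW

open MvPowerSeries IsLocalRing

variable {O : Type} [CommRing O] [IsDomain O] [IsDiscreteValuationRing O]
  [IsAdicComplete (maximalIdeal O) O] [Finite (ResidueField O)]
  {T : Type} [Fintype T] {T0 : Type} [CommRing T0] [Algebra O T0]

/-- **B/Main ∘ C/Level**. -/
theorem twb_main_lv {lam : O} (hmax : maximalIdeal O = Ideal.span {lam}) (hlam0 : lam ≠ 0)
    {p : ℕ} (hp : p.Prime) (hp2 : p ≠ 2) (hpl : (p : O) ∈ Ideal.span {lam}) {ζ : O}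
    (hζ : IsPrimitiveRoot ζ p) (a : T → O) (n : T → ℕ) (hn : ∀ t, n t % p = 1)
    (han : ∀ t, a t ^ 2 - (n t : O) ∈ maximalIdeal O) (q₀ : T)
    (hq : ∃ (u : O) (k : ℕ), IsUnit u ∧ ((n q₀ : ℕ) : O) * (1 - (n q₀ : ℕ)) = u * lam ^ k)
    (g r : ℕ) (hr : r = 3 * Fintype.card T + g)
    [Module.Finite O T0] [IsAdicComplete (Ideal.span {algebraMap O T0 lam}) T0]
    (hT0 : ∀ k, Finite (T0 ⧸ (Ideal.span {algebraMap O T0 lam}) ^ k))
    {d : ℕ} (hd : 0 < d)
    {j : T0 →+* Matrix (Fin d) (Fin d) (MvPowerSeries (Fin r) O ⧸ twds_a O r)}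
    {β : Fin 2 → Fin 2 → T0}
    (I : ∀ m, twc_LvIn2 O lam r d g (T × Fin 2 × Fin 2 × Fin 2)
      (twb_r8_Junip O (Fin g ⊕ Fin g) p a n) (twb_r8_Jhash O (Fin g) p a n)
      (twds_a O r) (twds_b O r (p ^ m)) (twds_b_le_a r (p ^ m)) T0 j
      (fun i k => (q₀, 0, i, k)) β) :
    ∃ 𝔓 : Ideal T0, 𝔓.IsPrime ∧ algebraMap O T0 lam ∉ 𝔓 ∧ ∀ i k, β i k ∈ 𝔓 := by
  have hpO : (p : O) ∈ maximalIdeal O := by rw [hmax]; exact hpl
  have hR1loc : IsLocalRing (twb_r8_R1 O (Fin g ⊕ Fin g) p a n) :=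
    twb_qi_R1_isLocalRing hp.two_le a n han
  have hRχloc : IsLocalRing (twb_r8_Rchi O (Fin g) p a n) :=
    twb_qi_Rchi_isLocalRing hpO a n han
  have hR1cpl := twb_qi_R1_isAdicComplete (O := O) (ι := Fin g ⊕ Fin g) p a n
  have hRχcpl := twb_qi_Rchi_isAdicComplete (O := O) (ι := Fin g) p a n
  have ha : twds_a O r ≠ ⊤ := (twds_a_isPrime O r).ne_top
  refine twb_main hmax hlam0 hp hp2 hpl hζ a n hn han q₀ hq g r hr hT0 hd (j := j) (β := β) ?_
  intro m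
  exact (twc_level_of2 ha (twds_finite_quot r) (twb_r8_kill (twb_main_emb g))
    (fun c => twb_r8_kill_X_inl _ c)
    (fun k => twb_r8_kill_X_inr (twb_main_emb g) k)
    (fun k => twb_r8_kill_X_inr_eq_zero (twb_main_emb g) (by
      rintro ⟨x, hx⟩
      exact Sum.inl_ne_inr hx))
    (twb_u8_q1 hp hn hpl (twb_main_emb g))
    (fun F => twb_u8_q1_mk hp hn hpl (twb_main_emb g) F) (I m)).some

end Fermat.Agent.TW
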