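/-
ONE MACHINE / block [B] LOC, leaf B/Factor, corollaries (helper8; on top of helper26's
`Loc/Factor.lean`).  Prefix `twb_`.

* `twb_K_le_ker_of_isReduced` : B/Factor for REDUCED noetherian local targets in which `d` is a
  nonzerodivisor (`T ↪ ∏ T/𝔭` over the minimal primes; `d ∉ 𝔭`): so Hecke algebras receive `twb_Rchi`.
* `twb_Rchi_lift`, `twb_Rchi_lift_mk` : the induced map out of `twb_Rchi A d`.
-/
import Fermat.Agent.TW.Loc.Factor

set_option autoImplicit false

namespace Fermat.Agent.TW

open MvPowerSeries IsLocalRing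

variable {A : Type*} [CommRing A]

/-- **B/Factor, reduced targets.** A ring homomorphism to a REDUCED noetherian local ring in which
`d` becomes a nonzerodivisor, local on the variables and killing the naive `χ`-relations, kills
`twb_K A d`. -/
theorem twb_K_le_ker_of_isReduced {T : Type*} [CommRing T] [IsReduced T] [IsNoetherianRing T]
    [IsLocalRing T] (d : A) (φ : MvPowerSeries (Fin 6) A →+* T)
    (hX : ∀ i, φ (X i) ∈ maximalIdeal T) (hI : twb_Ichi A d ≤ RingHom.ker φ)
    (hd : φ (C d) ∈ nonZeroDivisors T) : twb_K A d ≤ RingHom.ker φ := by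
  intro a ha
  rw [RingHom.mem_ker]
  have hmem : ∀ p ∈ minimalPrimes T, φ a ∈ p := by
    intro p hp
    have hpp : p.IsPrime := hp.1.1
    have hnt : Nontrivial (T ⧸ p) := Ideal.Quotient.nontrivial_iff.2 hpp.ne_top
    have hlr : IsLocalRing (T ⧸ p) :=
      IsLocalRing.of_surjective' (Ideal.Quotient.mk p) Ideal.Quotient.mk_surjective
    have hloc : ∀ x ∈ maximalIdeal T, Ideal.Quotient.mk p x ∈ maximalIdeal (T ⧸ p) := by
      intro x hx
      rw [mem_maximalIdeal, mem_nonunits_iff] at hx ⊢
      intro hu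
      apply hx
      have : IsLocalHom (Ideal.Quotient.mk p) :=
        isLocalHom_of_le_jacobson_bot p (by
          rw [IsLocalRing.jacobson_eq_maximalIdeal _ bot_ne_top]
          exact le_maximalIdeal hpp.ne_top)
      exact IsUnit.of_map (Ideal.Quotient.mk p) x hu
    have h1 := twb_K_le_ker d ((Ideal.Quotient.mk p).comp φ) (fun i => hloc _ (hX i))
      (fun x hx => by
        rw [RingHom.mem_ker, RingHom.comp_apply, RingHom.mem_ker.1 (hI hx), map_zero])
      (by
        rw [RingHom.comp_apply, Ne, Ideal.Quotient.eq_zero_iff_mem]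
        exact fun h => notMem_nonZeroDivisors_of_mem_mem_minimalPrimes h hp hd)
    have h2 := RingHom.mem_ker.1 (h1 ha)
    rwa [RingHom.comp_apply, Ideal.Quotient.eq_zero_iff_mem] at h2
  have h3 : φ a ∈ sInf (minimalPrimes T) := by
    rw [Ideal.mem_sInf]
    exact fun {p} hp => hmem p hp
  have h4 : sInf (minimalPrimes T) = (⊥ : Ideal T) := by
    unfold minimalPrimes
    rw [Ideal.sInf_minimalPrimes]
    exact nilradical_eq_zero T
  rw [h4] at h3
  exact h3


/-- the map out of `twb_Rchi A d` induced by a homomorphism killing `twb_K A d`. -/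
noncomputable def twb_Rchi_lift {T : Type*} [CommRing T] (d : A)
    (φ : MvPowerSeries (Fin 6) A →+* T) (h : twb_K A d ≤ RingHom.ker φ) : twb_Rchi A d →+* T :=
  Ideal.Quotient.lift (twb_K A d) φ (fun a ha => RingHom.mem_ker.1 (h ha))

theorem twb_Rchi_lift_mk {T : Type*} [CommRing T] (d : A)
    (φ : MvPowerSeries (Fin 6) A →+* T) (h : twb_K A d ≤ RingHom.ker φ)
    (a : MvPowerSeries (Fin 6) A) :
    twb_Rchi_lift d φ h (Ideal.Quotient.mk (twb_K A d) a) = φ a :=
  Ideal.Quotient.lift_mk _ _ _

end Fermat.Agent.TW
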